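import Mathlib
import Fermat.Agent.GR.Deform.MatrixRep
import Fermat.Prelude.Def_GaloisRep_LocalConditions
import Fermat.Prelude.Def_GaloisRep_StrictOrdinary
import Fermat.Prelude.Def_GaloisRep_Flat

/-!
# Local conditions along a surjective change of coefficients

For a surjection `φ : R → B` and a basis of a representation over `R`, the matrix representation
over `B` obtained by applying `φ` inherits every local condition.
-/

set_option autoImplicit false

noncomputable section

open IsLocalRing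

namespace Fermat.GR.S56

local notation "Γℚ" => (AlgebraicClosure ℚ ≃ₐ[ℚ] AlgebraicClosure ℚ)
local notation "M2" R => Matrix (Fin 2) (Fin 2) R

variable {R B : Type} [CommRing R] [IsLocalRing R] [CommRing B] [IsLocalRing B]
  (φ : R →+* B) (hφ : Function.Surjective φ) (ρ : GaloisRepAdic R)
  (b : Module.Basis (Fin 2) R ρ.V)

/-- The push forward. -/
def pushRep : GaloisRepAdic B :=
  repOf (mapHom φ (matOf ρ b))
    (matCont_mapHom (matCont_matOf ρ b) φ (IsLocalHom.of_surjective φ hφ))

/-- The map from the space of `ρ` to that of the push forward, by the coordinates in `b`. -/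
def pushVec : ρ.V →+ (pushRep φ hφ ρ b).V :=
  AddMonoidHom.mk' (fun v i => φ (b.repr v i)) fun v w => funext fun i => by
    change φ (b.repr (v + w) i) = φ (b.repr v i) + φ (b.repr w i)
    rw [map_add, Finsupp.add_apply, map_add]

/-- `pushVec` applies `φ` to the coordinates. -/
theorem pushVec_apply (v : ρ.V) (i : Fin 2) : pushVec φ hφ ρ b v i = φ (b.repr v i) := rfl

/-- `pushVec` is surjective. -/
theorem pushVec_surjective : Function.Surjective (pushVec φ hφ ρ b) := fun w => by
  choose c hc using fun i => hφ (w i)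
  refine ⟨b.equivFun.symm c, funext fun i => ?_⟩
  rw [pushVec_apply, ← Module.Basis.equivFun_apply, LinearEquiv.apply_symm_apply, hc]

/-- `pushVec` is semilinear along `φ`. -/
theorem pushVec_smul (a : R) (v : ρ.V) :
    pushVec φ hφ ρ b (a • v) = φ a • pushVec φ hφ ρ b v := funext fun i => by
  change φ (b.repr (a • v) i) = φ a * φ (b.repr v i)
  rw [map_smul, Finsupp.smul_apply, smul_eq_mul, map_mul]

/-- `pushVec` commutes with the Galois actions. -/
theorem pushVec_comm (σ : Γℚ) (v : ρ.V) :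
    (pushRep φ hφ ρ b).ρ σ (pushVec φ hφ ρ b v) = pushVec φ hφ ρ b (ρ.ρ σ v) := funext fun i => by
  change Matrix.mulVec (mapHom φ (matOf ρ b) σ) (fun j => φ (b.repr v j)) i = φ (b.repr (ρ.ρ σ v) i)
  rw [← LinearMap.toMatrix_mulVec_repr b b (ρ.ρ σ) v, RingHom.map_mulVec]
  rfl

/-- A vector lies in `I Aⁿ` exactly when all its entries lie in `I`. -/
theorem mem_smul_top_pi {n : Type} [Fintype n] [DecidableEq n] {A : Type} [CommRing A]
    (I : Ideal A) (v : n → A) :
    v ∈ I • (⊤ : Submodule A (n → A)) ↔ ∀ j, v j ∈ I := by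
  constructor
  · intro hv
    induction hv using Submodule.smul_induction_on' with
    | smul a ha x _ => exact fun j => Ideal.mul_mem_right _ _ ha
    | add x _ y _ hx hy => exact fun j => add_mem (hx j) (hy j)
  · intro hv
    rw [pi_eq_sum_univ v]
    exact sum_mem fun i _ => Submodule.smul_mem_smul (hv i) Submodule.mem_top

/-- The pushed vector lies in `I V` iff the vector lies in the preimage ideal times `V`. -/
theorem pushVec_mem_smul_iff (I : Ideal B) (v : ρ.V) :
    pushVec φ hφ ρ b v ∈ I • (⊤ : Submodule B (pushRep φ hφ ρ b).V) ↔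
      v ∈ I.comap φ • (⊤ : Submodule R ρ.V) := by
  rw [show (pushVec φ hφ ρ b v ∈ I • (⊤ : Submodule B (pushRep φ hφ ρ b).V)) ↔
    ∀ j, φ (b.repr v j) ∈ I from mem_smul_top_pi I _]
  constructor
  · intro h
    rw [← b.sum_repr v]
    exact sum_mem fun i _ => Submodule.smul_mem_smul (h i) Submodule.mem_top
  · intro hv
    induction hv using Submodule.smul_induction_on' with
    | smul a ha x _ =>
      intro j
      rw [map_smul, Finsupp.smul_apply, smul_eq_mul, map_mul]
      exact Ideal.mul_mem_right _ _ ha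
    | add x _ y _ hx hy =>
      intro j
      rw [map_add, Finsupp.add_apply, map_add]
      exact add_mem (hx j) (hy j)

/-! ### Determinant, unramifiedness, unipotence -/

/-- The standard basis. -/
def pushBasis : Module.Basis (Fin 2) B (pushRep φ hφ ρ b).V := Pi.basisFun B (Fin 2)

/-- The matrices of the push forward are the images under `φ` of those of `ρ`. -/
theorem toMatrix_pushRep (σ : Γℚ) :
    LinearMap.toMatrix (pushBasis φ hφ ρ b) (pushBasis φ hφ ρ b)
      ((pushRep φ hφ ρ b).ρ σ) = (matOf ρ b σ).map φ := toMatrix_repOf _ _ σ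

include hφ in
/-- If `p` lies in the maximal ideal of `R`, it lies in that of `B`. -/
theorem natCast_mem_of_mem {p : ℕ} (h : (p : R) ∈ maximalIdeal R) :
    (p : B) ∈ maximalIdeal B := by
  have := IsLocalHom.of_surjective φ hφ
  rw [← map_natCast φ]
  exact map_nonunit φ _ h

omit [IsLocalRing R] [IsLocalRing B] in
/-- A congruence modulo `m` passes along `φ`. -/
theorem map_mem_span {a c : R} {m : ℕ} (h : a - c ∈ Ideal.span {(m : R)}) :
    φ a - φ c ∈ Ideal.span {(m : B)} := by
  rw [Ideal.mem_span_singleton] at h ⊢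
  obtain ⟨e, he⟩ := h
  exact ⟨φ e, by rw [← map_sub, he, map_mul, map_natCast]⟩

/-- A cyclotomic determinant passes to the push forward. -/
theorem detIsCyclotomic_pushRep {p : ℕ} (h : ρ.DetIsCyclotomic p) :
    (pushRep φ hφ ρ b).DetIsCyclotomic p := by
  refine ⟨natCast_mem_of_mem φ hφ h.1, fun n σ a ha => ?_⟩
  have h1 := map_mem_span φ (h.2 n σ a ha)
  rw [map_natCast] at h1
  have e : LinearMap.det ((pushRep φ hφ ρ b).ρ σ) = φ (LinearMap.det (ρ.ρ σ)) := by
    rw [← LinearMap.det_toMatrix (pushBasis φ hφ ρ b), toMatrix_pushRep, matOf_apply,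
      ← RingHom.mapMatrix_apply, ← RingHom.map_det, LinearMap.det_toMatrix]
  rw [e]
  exact h1

/-- The push forward is trivial where `ρ` is. -/
theorem rho_pushRep_eq_one {σ : Γℚ} (h : ρ.ρ σ = 1) : (pushRep φ hφ ρ b).ρ σ = 1 := by
  refine (LinearMap.toMatrix (pushBasis φ hφ ρ b) (pushBasis φ hφ ρ b)).injective ?_
  rw [toMatrix_pushRep, matOf_apply, h, LinearMap.toMatrix_one, LinearMap.toMatrix_one,
    Matrix.map_one _ (map_zero _) (map_one _)]

/-- Unramifiedness passes to the push forward. -/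
theorem isUnramifiedAt_pushRep {q : ℕ} (h : ρ.IsUnramifiedAt q) :
    (pushRep φ hφ ρ b).IsUnramifiedAt q :=
  fun P hP σ hσ => rho_pushRep_eq_one φ hφ ρ b (h P hP σ hσ)

/-- Unipotence on inertia passes to the push forward. -/
theorem isUnipotentOnInertiaAt_pushRep {q : ℕ} (h : ρ.IsUnipotentOnInertiaAt q) :
    (pushRep φ hφ ρ b).IsUnipotentOnInertiaAt q := by
  intro P hP σ hσ
  rw [← LinearMap.charpoly_toMatrix _ (pushBasis φ hφ ρ b), toMatrix_pushRep, matOf_apply,
    Matrix.charpoly_map, LinearMap.charpoly_toMatrix, h P hP σ hσ]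
  simp

/-! ### Flatness -/

/-- Flatness passes to a surjective change of coefficients. -/
theorem isFlatAt_pushRep {p : ℕ} (h : ρ.IsFlatAt p) : (pushRep φ hφ ρ b).IsFlatAt p := by
  have := IsLocalHom.of_surjective φ hφ
  have := h.1
  refine ⟨Finite.of_surjective (ResidueField.map φ) fun y => ?_, fun I hI => ?_⟩
  · obtain ⟨y, rfl⟩ := residue_surjective y
    obtain ⟨x, rfl⟩ := hφ y
    exact ⟨residue R x, ResidueField.map_residue φ x⟩
  have := hI
  have : Finite (R ⧸ I.comap φ) :=
    Finite.of_injective _ (Ideal.quotientMap_injective (f := φ) (I := I))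
  -- the level `I` of the push forward is the level `φ⁻¹ I` of `ρ`, with the same Hopf algebra
  obtain ⟨H, i1, i2, hfin, hflat, hco, e, hmul, hgal⟩ := h.2 (I.comap φ) inferInstance
  set g := pushVec φ hφ ρ b
  let G : (ρ.V ⧸ (I.comap φ • (⊤ : Submodule R ρ.V))) →+
      ((pushRep φ hφ ρ b).V ⧸ (I • (⊤ : Submodule B (pushRep φ hφ ρ b).V))) :=
    QuotientAddGroup.map _ (I • (⊤ : Submodule B (pushRep φ hφ ρ b).V)).toAddSubgroup g
      fun v hv => (pushVec_mem_smul_iff φ hφ ρ b I v).mpr hv
  have hG : ∀ v, G (Submodule.Quotient.mk v) = Submodule.Quotient.mk (g v) := fun v => rfl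
  have hbij : Function.Bijective G := by
    refine ⟨fun x y hxy => ?_, fun y => ?_⟩
    · obtain ⟨x, rfl⟩ := Submodule.Quotient.mk_surjective _ x
      obtain ⟨y, rfl⟩ := Submodule.Quotient.mk_surjective _ y
      rw [hG, hG, Submodule.Quotient.eq, ← map_sub] at hxy
      exact (Submodule.Quotient.eq _).mpr ((pushVec_mem_smul_iff φ hφ ρ b I _).mp hxy)
    · obtain ⟨y, rfl⟩ := Submodule.Quotient.mk_surjective _ y
      obtain ⟨x, rfl⟩ := pushVec_surjective φ hφ ρ b y
      exact ⟨_, hG x⟩
  refine ⟨H, i1, i2, hfin, hflat, hco, e.trans (Equiv.ofBijective G hbij), fun f f' => ?_,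
    fun σ f f' hff' => ?_⟩
  · change G (e (f * f')) = G (e f) + G (e f')
    rw [hmul, map_add]
  · change G (e f') = (pushRep φ hφ ρ b).levelAction I σ (G (e f))
    rw [hgal σ f f' hff']
    obtain ⟨v, hv⟩ := Submodule.Quotient.mk_surjective _ (e f)
    rw [← hv, hG]
    change G (Submodule.Quotient.mk (ρ.ρ σ v)) = Submodule.Quotient.mk _
    rw [hG, pushVec_comm]

/-! ### Strict ordinarity -/

/-- The strict ordinary condition passes to a surjective change of coefficients. -/
theorem isStrictOrdinaryAt_pushRep {p : ℕ} (h : ρ.IsStrictOrdinaryAt p) :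
    (pushRep φ hφ ρ b).IsStrictOrdinaryAt p := by
  refine ⟨natCast_mem_of_mem φ hφ h.1, fun P hP => ?_⟩
  obtain ⟨L, ⟨b₀, hL⟩, hD, hI, hx⟩ := h.2 P hP
  set g := pushVec φ hφ ρ b
  -- the image of the line is the span of the image of its vector
  have hgL : ∀ w ∈ Submodule.span B {g (b₀ 0)}, ∃ l ∈ L, g l = w := fun w hw => by
    obtain ⟨c, rfl⟩ := Submodule.mem_span_singleton.mp hw
    obtain ⟨a, rfl⟩ := hφ c
    exact ⟨a • b₀ 0, hL ▸ Submodule.smul_mem _ _ (Submodule.mem_span_singleton_self _),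
      pushVec_smul φ hφ ρ b a _⟩
  have hgL' : ∀ l ∈ L, g l ∈ Submodule.span B {g (b₀ 0)} := fun l hl => by
    rw [hL] at hl
    obtain ⟨a, rfl⟩ := Submodule.mem_span_singleton.mp hl
    rw [pushVec_smul]
    exact Submodule.smul_mem _ _ (Submodule.mem_span_singleton_self _)
  refine ⟨Submodule.span B {g (b₀ 0)}, ?_, fun σ hσ w hw => ?_, fun σ hσ w => ?_, fun σ hσ => ?_⟩
  -- which extends to a basis, the image of the old one
  · let M : (M2 R)ˣ := ⟨b.toMatrix b₀, b₀.toMatrix b, b.toMatrix_mul_toMatrix_flip b₀,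
      b₀.toMatrix_mul_toMatrix_flip b⟩
    let M' : (M2 B)ˣ := Units.map (φ.mapMatrix (m := Fin 2)).toMonoidHom M
    let bB : Module.Basis (Fin 2) B (Fin 2 → B) :=
      (Pi.basisFun B (Fin 2)).map (unitEquiv (Pi.basisFun B (Fin 2)) (Pi.basisFun B (Fin 2)) M')
    have e : bB 0 = g (b₀ 0) := by
      change Matrix.toLin (Pi.basisFun B (Fin 2)) (Pi.basisFun B (Fin 2)) (M' : M2 B)
        (Pi.basisFun B (Fin 2) 0) = _
      rw [Matrix.toLin_self]
      funext i
      simp [M', M, g, pushVec_apply, Pi.basisFun_apply, Finset.sum_apply, Pi.single_apply,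
        Module.Basis.toMatrix_apply]
    exact ⟨bB, congrArg (fun u => Submodule.span B {u}) e.symm⟩
  · obtain ⟨l, hl, rfl⟩ := hgL w hw
    rw [pushVec_comm]
    exact hgL' _ (hD σ hσ l hl)
  · obtain ⟨v, rfl⟩ := pushVec_surjective φ hφ ρ b w
    rw [pushVec_comm, ← map_sub]
    exact hgL' _ (hI σ hσ v)
  -- the characters push forward
  · obtain ⟨x, z, hxL, hz, hcyc⟩ := hx σ hσ
    refine ⟨φ x, φ z, fun w hw => ?_, fun w => ?_, fun n a ha => ?_⟩
    · obtain ⟨l, hl, rfl⟩ := hgL w hw
      rw [pushVec_comm, hxL l hl, pushVec_smul]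
    · obtain ⟨v, rfl⟩ := pushVec_surjective φ hφ ρ b w
      rw [pushVec_comm, ← pushVec_smul φ hφ ρ b z v, ← map_sub]
      exact hgL' _ (hz v)
    · have h1 := map_mem_span φ (hcyc n a ha)
      rwa [map_mul, map_natCast] at h1

end Fermat.GR.S56

end
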