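import Mathlib
import Fermat.Agent.GR.S56.Push
import Fermat.Agent.GR.RT.Adjoint
import Fermat.Agent.GR.RT.Transfer
import Fermat.Prelude.Def_GaloisRep_DeformationRingData

/-!
# A basis of a deformation with prescribed reduction

In such a basis derivations of the ring give first order changes of the matrices.
-/

set_option autoImplicit false
set_option linter.unusedSectionVars false

noncomputable section

open IsLocalRing Fermat.GR.RT Fermat.CFT

namespace Fermat.GR.S56

local notation "ℚbar" => AlgebraicClosure ℚ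
local notation "Γℚ" => (AlgebraicClosure ℚ ≃ₐ[ℚ] AlgebraicClosure ℚ)
local notation "M2" R => Matrix (Fin 2) (Fin 2) R

variable {𝒪 R : Type} [CommRing 𝒪] [IsLocalRing 𝒪] [CommRing R] [IsLocalRing R] [Algebra 𝒪 R]
  [IsLocalHom (algebraMap 𝒪 R)]

/-- A basis together with the reduction map. -/
structure Frame (ρ : GaloisRepAdic R) (r : Γℚ →* M2 (ResidueField 𝒪)) : Type where
  /-- The basis. -/
  b : Module.Basis (Fin 2) R ρ.V
  /-- The reduction map. -/
  π : R →+* ResidueField 𝒪
  /-- It extends the residue map of `𝒪`. -/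
  π_alg : π.comp (algebraMap 𝒪 R) = residue 𝒪
  /-- Its kernel is the maximal ideal. -/
  π_eq_zero : ∀ a, π a = 0 ↔ a ∈ maximalIdeal R
  /-- The identification of residue fields. -/
  e : ResidueField 𝒪 ≃+* ResidueField R
  /-- It commutes with the reductions. -/
  e_π : ∀ a, e (π a) = residue R a
  /-- In the basis `ρ` reduces to `r`. -/
  res : ∀ σ, (matOf ρ b σ).map π = r σ

variable (hres : Function.Surjective (residue R ∘ algebraMap 𝒪 R))
  {ρbar : ResidualGaloisRep (ResidueField 𝒪)} (b₀ : Module.Basis (Fin 2) (ResidueField 𝒪) ρbar.V)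
  {ρ : GaloisRepAdic R}

include hres in
/-- **A basis with the given reduction.** A deformation has a basis in which it reduces to the given
residual matrices. -/
theorem nonempty_frame
    (h : ρ.residual.IsEquiv (ρbar.baseChangeAlong (ResidueField.map (algebraMap 𝒪 R)))) :
    Nonempty (Frame ρ (resMat ρbar b₀)) := by
  set ψ := ResidueField.map (algebraMap 𝒪 R) with hψ
  have hbij : Function.Bijective ψ := by
    refine ⟨ψ.injective, fun y => ?_⟩
    obtain ⟨o, ho⟩ := hres y
    exact ⟨residue 𝒪 o, ho⟩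
  -- `π` reduces `R` to the residue field of `𝒪`
  let e : ResidueField 𝒪 ≃+* ResidueField R := RingEquiv.ofBijective ψ hbij
  let π : R →+* ResidueField 𝒪 := (e.symm : ResidueField R →+* ResidueField 𝒪).comp (residue R)
  have heπ : ∀ a, e (π a) = residue R a := fun a => e.apply_symm_apply _
  obtain ⟨P, hP⟩ := (residual_isEquiv_iff ρbar (matCont_matOf ρ (someBasis ρ)) b₀ ψ).mp
    (residual_isEquiv_congr (equiv_repOf_matOf ρ (someBasis ρ)) h)
  -- lift the residual change of basis `P` to a unit `U` over `R` and move the basis by it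
  obtain ⟨U, hU⟩ := exists_unit_lift P
  set b₁ := someBasis ρ
  let eU : (Fin 2 → R) ≃ₗ[R] (Fin 2 → R) :=
    unitEquiv (Pi.basisFun R (Fin 2)) (Pi.basisFun R (Fin 2)) U
  let b : Module.Basis (Fin 2) R ρ.V := Module.Basis.ofEquivFun (b₁.equivFun.trans eU)
  have hb : ∀ v, ⇑(b.repr v) = Matrix.mulVec (U : M2 R) (b₁.repr v) := fun v => by
    rw [← Module.Basis.equivFun_apply, Module.Basis.equivFun_ofEquivFun]
    change Matrix.toLin (Pi.basisFun R (Fin 2)) (Pi.basisFun R (Fin 2)) (U : M2 R) _ = _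
    rw [Matrix.toLin_eq_toLin', Matrix.toLin'_apply]
    rfl
  have hmat : ∀ σ, matOf ρ b σ * (U : M2 R) = (U : M2 R) * matOf ρ b₁ σ := fun σ => by
    refine Matrix.toLin'.injective (LinearMap.ext fun x => ?_)
    have hx : x = ⇑(b₁.repr (b₁.equivFun.symm x)) := by
      rw [← Module.Basis.equivFun_apply, LinearEquiv.apply_symm_apply]
    rw [Matrix.toLin'_apply, Matrix.toLin'_apply, ← Matrix.mulVec_mulVec, ← Matrix.mulVec_mulVec,
      hx, ← hb, matOf_apply, matOf_apply, LinearMap.toMatrix_mulVec_repr,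
      LinearMap.toMatrix_mulVec_repr, hb]
  -- the matrices in the new basis reduce to `resMat`
  refine ⟨⟨b, π, RingHom.ext fun o => e.injective ?_, fun a => ?_, e, heπ, fun σ => ?_⟩⟩
  · change e (π (algebraMap 𝒪 R o)) = ψ (residue 𝒪 o)
    rw [heπ, hψ, ResidueField.map_residue]
  · rw [← e.map_eq_zero_iff, heπ, residue_eq_zero_iff]
  · refine Matrix.ext fun i j => e.injective ?_
    change e (π (matOf ρ b σ i j)) = e (resMat ρbar b₀ σ i j)
    rw [heπ]
    have h1 := congrArg (residue R).mapMatrix (hmat σ)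
    rw [map_mul, map_mul] at h1
    rw [RingHom.mapMatrix_apply (residue R) (matOf ρ b₁ σ), hU, hP σ] at h1
    exact congrFun (congrFun (P.mul_left_inj.mp h1) i) j

namespace Frame

variable {r : Γℚ →* M2 (ResidueField 𝒪)} {p : ℕ}

/-- The reduction of the matrices of `ρ` in the basis of the frame is `r`. -/
theorem resHom_eq (F : Frame ρ r) : resHom F.π (matOf ρ F.b) = r := MonoidHom.ext F.res

/-- A derivation trivial on `𝒪` kills the natural numbers. -/
theorem deriv_natCast {d : R → ResidueField 𝒪}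
    (hdO : ∀ o, d (algebraMap 𝒪 R o) = 0) (a : ℕ) : d (a : R) = 0 := by
  rw [← map_natCast (algebraMap 𝒪 R), hdO]

/-- Elements congruent modulo `p` have the same derivative and the same residue. -/
theorem deriv_eq_of_span (F : Frame ρ r) {d : R → ResidueField 𝒪} (hd : IsDeriv F.π d)
    (hdO : ∀ o, d (algebraMap 𝒪 R o) = 0) (hp : (p : R) ∈ maximalIdeal R) {x y : R}
    (h : x - y ∈ Ideal.span {((p ^ 1 : ℕ) : R)}) : d x = d y ∧ F.π x = F.π y := by
  obtain ⟨c, hc⟩ := Ideal.mem_span_singleton'.mp h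
  rw [pow_one] at hc
  rw [← sub_eq_zero, ← hd.sub, ← sub_eq_zero (a := F.π x), ← map_sub, ← hc, hd.mul, map_mul,
    Frame.deriv_natCast hdO, (F.π_eq_zero _).mpr hp, mul_zero, zero_mul, add_zero]
  exact ⟨rfl, rfl⟩

variable [hp : Fact p.Prime]

/-- With cyclotomic determinant, `det (r σ)` is the exponent of `σ` on the `p`-th roots of unity. -/
theorem det_residual (F : Frame ρ r) (hdet : ρ.DetIsCyclotomic p) (σ : Γℚ) {a : ℕ}
    (ha : ∀ μ : ℚbar, μ ^ p = 1 → σ μ = μ ^ a) : (r σ).det = (a : ResidueField 𝒪) := by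
  obtain ⟨c, hc⟩ := Ideal.mem_span_singleton'.mp (hdet.2 1 σ a (by simpa using ha))
  rw [pow_one] at hc
  rw [← F.res σ, ← RingHom.mapMatrix_apply, ← RingHom.map_det, matOf_apply, LinearMap.det_toMatrix,
    ← map_natCast F.π, ← sub_eq_zero, ← map_sub, ← hc, map_mul, (F.π_eq_zero _).mpr hdet.1,
    mul_zero]

/-- A derivation kills the determinant. -/
theorem deriv_det (F : Frame ρ r) (hdet : ρ.DetIsCyclotomic p) {d : R → ResidueField 𝒪}
    (hd : IsDeriv F.π d) (hdO : ∀ o, d (algebraMap 𝒪 R o) = 0) (σ : Γℚ) :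
    d (matOf ρ F.b σ).det = 0 := by
  obtain ⟨a, ha⟩ : ∃ a : ℕ, ∀ μ : ℚbar, μ ^ p ^ 1 = 1 → σ μ = μ ^ a :=
    ⟨_, fun μ hμ => apply_eq_pow_cycChar σ (by simpa using hμ)⟩
  rw [matOf_apply, LinearMap.det_toMatrix, (F.deriv_eq_of_span hd hdO hdet.1 (hdet.2 1 σ a ha)).1,
    Frame.deriv_natCast hdO]

/-- Unramified away from a set: trivial modulo any power on a level. -/
theorem exists_level (F : Frame ρ r) {S : Set Nat.Primes}
    (hun : ∀ q : Nat.Primes, q ∉ S → ρ.IsUnramifiedAt (q : ℕ)) :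
    ∃ N, (galLevels S).IsLevel N ∧ ∀ s ∈ N, ∀ a c,
      matOf ρ F.b s a c - (1 : M2 R) a c ∈ maximalIdeal R ^ 2 :=
  exists_level_modPow (matCont_matOf ρ F.b) 2 fun q hq P hP σ hσ a c => by
    rw [matOf_apply, hun q hq P hP σ hσ, LinearMap.toMatrix_one, sub_self]
    exact zero_mem _

end Frame

end Fermat.GR.S56

end
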