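import Mathlib
import Fermat.Agent.GR.S56.Frame
import Fermat.Agent.GR.RT.OrdProofBound
import Fermat.Agent.GR.RT.FlatProofBound
import Fermat.Agent.GR.RT.FlatProofCocycle
import Fermat.Agent.GR.RT.Lift.FirstOrder
import Fermat.Agent.GR.RT.Inertia

/-!
# The first order conditions at `p`

The tangent vectors of a strict ordinary deformation satisfy the strict relation with the residual
characters; those of a flat deformation give flat cocycles.
-/

set_option autoImplicit false
set_option linter.unusedSectionVars false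

noncomputable section

open IsLocalRing Fermat.GR.RT Fermat.CFT ExtCitation Fermat.EC.Val Fermat.FLAT

namespace Fermat.GR.S56

local notation "ℚbar" => AlgebraicClosure ℚ
local notation "Γℚ" => (AlgebraicClosure ℚ ≃ₐ[ℚ] AlgebraicClosure ℚ)
local notation "M2" R => Matrix (Fin 2) (Fin 2) R

variable {𝒪 R : Type} [CommRing 𝒪] [IsLocalRing 𝒪] [CommRing R] [IsLocalRing R] [Algebra 𝒪 R]
  [IsLocalHom (algebraMap 𝒪 R)] {ρ : GaloisRepAdic R} {r : Γℚ →* M2 (ResidueField 𝒪)}
  {p : ℕ} [hp : Fact p.Prime]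

/-! ### Strict ordinary -/

/-- The triangular basis of a strict ordinary representation at a place, seen in another basis. -/
theorem exists_triangular (b : Module.Basis (Fin 2) R ρ.V) (h : ρ.IsStrictOrdinaryAt p)
    {A : ValuationSubring ℚbar} (hA : A.LiesOverPrime p) :
    ∃ V : (M2 R)ˣ, ∀ δ ∈ A.decompositionSubgroup ℚ, ∃ x y z : R,
      matOf ρ b δ * (V : M2 R) = (V : M2 R) * !![x, y; 0, z] ∧
        (δ ∈ A.inertiaSubgroupIn ℚ → z = 1) ∧
        ∀ a : ℕ, (∀ μ : ℚbar, μ ^ p = 1 → δ μ = μ ^ a) →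
          x - (a : R) * z ∈ Ideal.span {((p ^ 1 : ℕ) : R)} := by
  obtain ⟨L, ⟨b', hL⟩, hD, hI, hx⟩ := h.2 A hA
  let V : (M2 R)ˣ := ⟨b.toMatrix b', b'.toMatrix b, b.toMatrix_mul_toMatrix_flip b',
      b'.toMatrix_mul_toMatrix_flip b⟩
  have hbL : b' 0 ∈ L := hL ▸ Submodule.mem_span_singleton_self _
  have hL1 : ∀ l ∈ L, b'.repr l 1 = 0 := fun l hl => by
    rw [hL] at hl
    obtain ⟨c, rfl⟩ := Submodule.mem_span_singleton.mp hl
    simp
  refine ⟨V, fun δ hδ => ?_⟩
  obtain ⟨x, z, hxL, hz, hcyc⟩ := hx δ hδ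
  have hb0 : ρ.ρ δ (b' 0) = x • b' 0 := hxL _ hbL
  have h11 : b'.repr (ρ.ρ δ (b' 1)) 1 = z := by
    have h1 := hL1 _ (hz (b' 1))
    simpa [sub_eq_zero] using h1
  refine ⟨x, b'.repr (ρ.ρ δ (b' 1)) 0, z, ?_, fun hδI => ?_,
    fun a ha => hcyc 1 a (by simpa using ha)⟩
  · have hT : LinearMap.toMatrix b' b' (ρ.ρ δ) = !![x, b'.repr (ρ.ρ δ (b' 1)) 0; 0, z] := by
      ext i j
      fin_cases i <;> fin_cases j <;> simp [LinearMap.toMatrix_apply, hb0, h11]
    change matOf ρ b δ * b.toMatrix b' = b.toMatrix b' * _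
    rw [← hT, matOf_apply, linearMap_toMatrix_mul_basis_toMatrix,
      basis_toMatrix_mul_linearMap_toMatrix]
  · have h1 := hL1 _ (hI δ hδI (b' 1))
    simp only [map_sub, Finsupp.sub_apply, h11, Module.Basis.repr_self, Finsupp.single_eq_same,
      sub_eq_zero] at h1
    exact h1

variable [Algebra (ZMod p) (ResidueField 𝒪)]

/-- The mod `p` cyclotomic character at `σ`, read in the residue field, is an exponent of `σ` on
`μ_p`. -/
theorem algebraMap_cycChar (σ : Γℚ) :
    ∃ a : ℕ, (∀ μ : ℚbar, μ ^ p = 1 → σ μ = μ ^ a) ∧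
      algebraMap (ZMod p) (ResidueField 𝒪) ((cycChar p σ : (ZMod p)ˣ) : ZMod p) =
        (a : ResidueField 𝒪) := by
  have : NeZero p := ⟨hp.out.ne_zero⟩
  refine ⟨((cycChar p σ : (ZMod p)ˣ) : ZMod p).val, fun μ hμ => apply_eq_pow_cycChar σ hμ, ?_⟩
  rw [← map_natCast (algebraMap (ZMod p) (ResidueField 𝒪)), ZMod.natCast_zmod_val]

/-- **The residual shape at `p`.** A strict ordinary deformation with cyclotomic determinant gives
the residual representation an ordinary shape (`OrdRes`) at a place over `p`. -/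
theorem nonempty_ordRes (F : Frame ρ r) (h : ρ.IsStrictOrdinaryAt p)
    (hdet : ρ.DetIsCyclotomic p) {A : ValuationSubring ℚbar} (hA : A.LiesOverPrime p) :
    Nonempty (OrdRes A r) := by
  obtain ⟨V, hV⟩ := exists_triangular F.b h hA
  -- reduce the triangular shape over `R`
  choose x y z hm hI hcyc using fun δ : A.decompositionSubgroup ℚ => hV δ.1 δ.2
  set U : (M2 (ResidueField 𝒪))ˣ := Units.map (F.π.mapMatrix (m := Fin 2)).toMonoidHom V
  let T : A.decompositionSubgroup ℚ →* M2 (ResidueField 𝒪) :=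
    { toFun := fun δ => (↑U⁻¹ : M2 (ResidueField 𝒪)) * r δ.1 * (U : M2 (ResidueField 𝒪))
      map_one' := by rw [OneMemClass.coe_one, map_one, mul_one, U.inv_mul]
      map_mul' := fun σ τ => by
        simp only [Subgroup.coe_mul, map_mul, mul_assoc, Units.mul_inv_cancel_left] }
  have hT : ∀ δ, T δ = !![F.π (x δ), F.π (y δ); 0, F.π (z δ)] := fun δ => by
    have h1 := congrArg (F.π.mapMatrix (m := Fin 2)) (hm δ)
    simp only [map_mul, RingHom.mapMatrix_apply] at h1
    rw [F.res] at h1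
    change (↑U⁻¹ : M2 (ResidueField 𝒪)) * r δ.1 * (U : M2 (ResidueField 𝒪)) = _
    rw [mul_assoc, show r δ.1 * (U : M2 (ResidueField 𝒪)) =
      (U : M2 (ResidueField 𝒪)) * (!![x δ, y δ; 0, z δ]).map F.π from h1, U.inv_mul_cancel_left]
    ext i j; fin_cases i <;> fin_cases j <;> simp
  have e11 : ∀ δ, T δ 1 1 = F.π (z δ) := fun δ => by simp [hT]
  -- the two diagonal characters
  let a : A.decompositionSubgroup ℚ →* ResidueField 𝒪 :=
    { toFun := fun δ => T δ 0 0
      map_one' := by rw [map_one, Matrix.one_apply_eq]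
      map_mul' := fun σ τ => by
        rw [map_mul, hT σ, hT τ]; simp [Matrix.mul_apply, Fin.sum_univ_two] }
  let d : A.decompositionSubgroup ℚ →* ResidueField 𝒪 :=
    { toFun := fun δ => T δ 1 1
      map_one' := by rw [map_one, Matrix.one_apply_eq]
      map_mul' := fun σ τ => by
        rw [map_mul, hT σ, hT τ]; simp [Matrix.mul_apply, Fin.sum_univ_two] }
  refine ⟨⟨U, a, d, fun δ => T δ 0 1, fun δ => ?_, fun δ => ?_, fun δ hδ => ?_⟩⟩
  · change T δ = !![T δ 0 0, T δ 0 1; 0, T δ 1 1]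
    rw [hT δ]; simp
  -- the lower character squares to one, the determinant being cyclotomic
  · change T δ 1 1 * T δ 1 1 = 1
    obtain ⟨c, hc, hω⟩ := algebraMap_cycChar (𝒪 := 𝒪) (p := p) δ.1
    have h1 : F.π (x δ) = (c : ResidueField 𝒪) * F.π (z δ) := by
      obtain ⟨w, hw⟩ := Ideal.mem_span_singleton'.mp (hcyc δ c hc)
      rw [pow_one] at hw
      rw [← sub_eq_zero, ← map_natCast F.π, ← map_mul, ← map_sub, ← hw, map_mul,
        (F.π_eq_zero _).mpr hdet.1, mul_zero]
    have h2 : (T δ).det = (c : ResidueField 𝒪) := by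
      change ((↑U⁻¹ : M2 (ResidueField 𝒪)) * r δ.1 * (U : M2 (ResidueField 𝒪))).det = _
      rw [Matrix.det_units_conj', F.det_residual hdet δ.1 hc]
    rw [hT δ, Matrix.det_fin_two_of, mul_zero, sub_zero, h1, mul_assoc] at h2
    have hc0 : (c : ResidueField 𝒪) ≠ 0 := by
      rw [← hω]
      exact ((cycChar p δ.1).isUnit.map _).ne_zero
    rw [e11]
    exact mul_left_cancel₀ hc0 (h2.trans (mul_one _).symm)
  · change T δ 1 1 = 1
    rw [e11, hI δ hδ, map_one]

/-- Intertwined triangular shapes, with `s 1 1 ≠ s' 0 0` at one element, have the same upper left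
entries. -/
theorem char_eq_of_tri {k : Type} [Field k] {W T T' : M2 k} {s s' : M2 k} (hW : IsUnit W)
    (hs : s 1 0 = 0) (hs' : s' 1 0 = 0) (hsW : s * W = W * s') (hne : s 1 1 ≠ s' 0 0)
    (hT' : T' 1 0 = 0) (hTW : T * W = W * T') :
    T 0 0 = T' 0 0 := by
  have h10 : W 1 0 = 0 := by
    have e := congrFun (congrFun hsW 1) 0
    simp only [Matrix.mul_apply, Fin.sum_univ_two, hs, hs', zero_mul, zero_add, mul_zero,
      add_zero] at e
    by_contra h
    exact hne (mul_right_cancel₀ h (e.trans (mul_comm _ _)))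
  have h00 : W 0 0 ≠ 0 := fun h => by
    have := (Matrix.isUnit_iff_isUnit_det W).mp hW
    rw [Matrix.det_fin_two, h, h10, zero_mul, mul_zero, sub_zero] at this
    exact not_isUnit_zero this
  have e := congrFun (congrFun hTW 0) 0
  simp only [Matrix.mul_apply, Fin.sum_univ_two, h10, hT', mul_zero, add_zero] at e
  exact mul_right_cancel₀ h00 (e.trans (mul_comm _ _))

variable [Finite (ResidueField 𝒪)]

/-- **The strict relation to first order.** -/
theorem strict_relation (F : Frame ρ r) (h2 : 2 < p) (h : ρ.IsStrictOrdinaryAt p)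
    (hdet : ρ.DetIsCyclotomic p)
    (hr : ∀ σ, (r σ).det =
      algebraMap (ZMod p) (ResidueField 𝒪) ((cycChar p σ : (ZMod p)ˣ) : ZMod p))
    {A : ValuationSubring ℚbar} (hA : A.LiesOverPrime p) (o : OrdRes A r)
    {d : R → ResidueField 𝒪} (hd : IsDeriv F.π d) (hdO : ∀ o, d (algebraMap 𝒪 R o) = 0)
    (σ τ : A.decompositionSubgroup ℚ) :
    tcoc F.π (matOf ρ F.b) d σ.1 * r σ.1 * (r τ.1 - o.d τ • (1 : M2 (ResidueField 𝒪))) +
      (r σ.1 - o.a σ • (1 : M2 (ResidueField 𝒪))) *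
        (tcoc F.π (matOf ρ F.b) d τ.1 * r τ.1) = 0 := by
  have h20 : (2 : ResidueField 𝒪) ≠ 0 := two_ne_zero_of_two_lt h2
  -- in the triangular basis `x` and `z` are killed by the derivation
  obtain ⟨V, hV⟩ := exists_triangular F.b h hA
  choose x y z hm hI hcyc using fun δ : A.decompositionSubgroup ℚ => hV δ.1 δ.2
  have key : ∀ δ : A.decompositionSubgroup ℚ, d (x δ) = 0 ∧ d (z δ) = 0 ∧
      F.π (x δ) * F.π (z δ) = (r δ.1).det ∧ F.π (x δ) = (r δ.1).det * F.π (z δ) := by
    intro δ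
    obtain ⟨c, hc, hω⟩ := algebraMap_cycChar (𝒪 := 𝒪) (p := p) δ.1
    have hdetr : (r δ.1).det = (c : ResidueField 𝒪) := by rw [hr, hω]
    obtain ⟨hdx, hπx⟩ := F.deriv_eq_of_span hd hdO hdet.1 (hcyc δ c hc)
    have hdd : (matOf ρ F.b δ.1).det = x δ * z δ := by
      have h1 := congrArg Matrix.det (hm δ)
      rw [Matrix.det_mul, Matrix.det_mul, Matrix.det_fin_two_of, mul_zero, sub_zero,
        mul_comm (V : M2 R).det] at h1
      exact ((Matrix.isUnit_iff_isUnit_det _).mp V.isUnit).mul_left_inj.mp h1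
    have h0 := F.deriv_det hdet hd hdO δ.1
    rw [hdd, hd.mul] at h0
    have hπ : F.π (x δ) * F.π (z δ) = (r δ.1).det := by
      rw [← map_mul, ← hdd, RingHom.map_det, RingHom.mapMatrix_apply, F.res]
    rw [map_mul, map_natCast, ← hdetr] at hπx
    rw [hd.mul, Frame.deriv_natCast hdO, mul_zero, add_zero, map_natCast, ← hdetr] at hdx
    have hne : (r δ.1).det ≠ 0 := by
      rw [hr]; exact ((cycChar p δ.1).isUnit.map _).ne_zero
    have hz0 : F.π (z δ) ≠ 0 := fun e => hne (by rw [← hπ, e, mul_zero])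
    have hdz : d (z δ) = 0 := by
      rw [hπx, hdx] at h0
      have h3 : 2 * ((r δ.1).det * F.π (z δ)) * d (z δ) = 0 := by linear_combination h0
      exact (mul_eq_zero.mp h3).resolve_left (mul_ne_zero h20 (mul_ne_zero hne hz0))
    exact ⟨by rw [hdx, hdz, mul_zero], hdz, hπ, hπx⟩
  -- the characters are those of the residual shape
  obtain ⟨σ₀, hσ₀, hc0⟩ := CFT.exists_mem_inertia_cycChar hA (-1 : (ZMod p)ˣ)
  set δ₀ : A.decompositionSubgroup ℚ := ⟨σ₀, Fermat.FLAT.inertia_le_decomposition A hσ₀⟩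
  set U : (M2 (ResidueField 𝒪))ˣ := Units.map (F.π.mapMatrix (m := Fin 2)).toMonoidHom V
  set W : M2 (ResidueField 𝒪) := (↑o.U⁻¹ : M2 (ResidueField 𝒪)) * (U : M2 (ResidueField 𝒪))
  have hWu : IsUnit W := (o.U⁻¹).isUnit.mul U.isUnit
  have hTW : ∀ δ : A.decompositionSubgroup ℚ,
      !![o.a δ, o.b δ; 0, o.d δ] * W = W * !![F.π (x δ), F.π (y δ); 0, F.π (z δ)] := fun δ => by
    have h1 := congrArg (F.π.mapMatrix (m := Fin 2)) (hm δ)
    simp only [map_mul, RingHom.mapMatrix_apply] at h1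
    rw [F.res] at h1
    have e : (!![x δ, y δ; 0, z δ]).map F.π = !![F.π (x δ), F.π (y δ); 0, F.π (z δ)] := by
      ext i j; fin_cases i <;> fin_cases j <;> simp
    rw [← o.tri, ← e]
    simp only [W, mul_assoc, Units.mul_inv_cancel_left]
    rw [show r δ.1 * (U : M2 (ResidueField 𝒪)) =
      (U : M2 (ResidueField 𝒪)) * (!![x δ, y δ; 0, z δ]).map F.π from h1]
  have hne0 : o.d δ₀ ≠ F.π (x δ₀) := by
    obtain ⟨-, -, -, h4⟩ := key δ₀
    rw [o.inertia δ₀ hσ₀, h4, hI δ₀ hσ₀, map_one, mul_one, hr, hc0, Units.val_neg, Units.val_one,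
      map_neg, map_one]
    intro e
    exact h20 (by linear_combination e)
  have hax : ∀ δ, o.a δ = F.π (x δ) := fun δ => by
    have := char_eq_of_tri hWu (s := !![o.a δ₀, o.b δ₀; 0, o.d δ₀]) rfl
      (s' := !![F.π (x δ₀), F.π (y δ₀); 0, F.π (z δ₀)]) rfl (hTW δ₀) (by simpa using hne0)
      (T := !![o.a δ, o.b δ; 0, o.d δ])
      (T' := !![F.π (x δ), F.π (y δ); 0, F.π (z δ)]) rfl (hTW δ)
    simpa using this
  have hdz : ∀ δ, o.d δ = F.π (z δ) := fun δ => by
    obtain ⟨-, -, h3, -⟩ := key δ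
    have h5 : o.a δ * o.d δ = (r δ.1).det := by
      have h1 := congrArg Matrix.det (o.tri δ)
      rw [Matrix.det_units_conj', Matrix.det_fin_two_of, mul_zero, sub_zero] at h1
      exact h1.symm
    rw [← h3, ← hax] at h5
    refine mul_left_cancel₀ (fun e => ?_) h5
    rw [hax] at e
    rw [e, zero_mul] at h3
    exact ((cycChar p δ.1).isUnit.map (algebraMap (ZMod p) (ResidueField 𝒪))).ne_zero
      ((hr δ.1).symm.trans h3.symm)
  -- the strict relation of the triangular matrices, carried to the given basis and to first order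
  have hrel := RT.sub_smul_mul_sub_smul_eq_zero (X := !![x σ, y σ; 0, z σ])
      (Y := !![x τ, y τ; 0, z τ]) rfl rfl
  have hrel' := conj_product_eq_zero V (x σ) (z τ) (X' := matOf ρ F.b σ.1)
    (Y' := matOf ρ F.b τ.1) (hm σ) (hm τ) (by simpa using hrel)
  have h' := strict_first_order hd (key σ).1 (key τ).2.1 hrel'
  rw [F.resHom_eq, ← hax σ, ← hdz τ] at h'
  exact h'

/-! ### Flat -/

/-- The map to the dual numbers of a derivation. -/
def dualHom (F : Frame ρ r) {d : R → ResidueField 𝒪} (hd : IsDeriv F.π d) :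
    R →+* DualNumber (ResidueField 𝒪) where
  toFun a := TrivSqZeroExt.inl (F.π a) + TrivSqZeroExt.inr (d a)
  map_one' := by simp [hd.one, TrivSqZeroExt.inl_one]
  map_zero' := by simp [hd.zero]
  map_add' a b := by refine TrivSqZeroExt.ext ?_ ?_ <;> simp [hd.add, add_comm]
  map_mul' a b := by
    refine TrivSqZeroExt.ext ?_ ?_
    · simp
    · simp [hd.mul, mul_comm]

/-- The first component of `dualHom d a` is the residue of `a`. -/
theorem fst_dualHom (F : Frame ρ r) {d : R → ResidueField 𝒪} (hd : IsDeriv F.π d) (a : R) :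
    TrivSqZeroExt.fst (dualHom F hd a) = F.π a := by simp [dualHom]

/-- The second component of `dualHom d a` is `d a`. -/
theorem snd_dualHom (F : Frame ρ r) {d : R → ResidueField 𝒪} (hd : IsDeriv F.π d) (a : R) :
    TrivSqZeroExt.snd (dualHom F hd a) = d a := by simp [dualHom]

/-- A nonzero derivation gives a surjection to the dual numbers. -/
theorem dualHom_surjective (F : Frame ρ r) {d : R → ResidueField 𝒪} (hd : IsDeriv F.π d)
    (hdO : ∀ o, d (algebraMap 𝒪 R o) = 0) (hne : d ≠ 0) :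
    Function.Surjective (dualHom F hd) := by
  obtain ⟨w, hw⟩ : ∃ w, d w ≠ 0 := by
    by_contra h
    push Not at h
    exact hne (funext h)
  have hπ : ∀ o, F.π (algebraMap 𝒪 R o) = residue 𝒪 o := fun o => RingHom.congr_fun F.π_alg o
  intro z
  obtain ⟨o₁, ho₁⟩ := residue_surjective (F.π w)
  obtain ⟨o₂, ho₂⟩ := residue_surjective (TrivSqZeroExt.fst z)
  obtain ⟨o₃, ho₃⟩ := residue_surjective (R := 𝒪) (TrivSqZeroExt.snd z / d w)
  refine ⟨algebraMap 𝒪 R o₂ + algebraMap 𝒪 R o₃ * (w - algebraMap 𝒪 R o₁),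
    TrivSqZeroExt.ext ?_ ?_⟩
  · rw [fst_dualHom, map_add, map_mul, map_sub, hπ, hπ, hπ, ho₁, ho₂, sub_self, mul_zero, add_zero]
  · rw [snd_dualHom, hd.add, hd.mul, hd.sub, hdO, hdO, hdO, sub_zero, mul_zero, add_zero, zero_add,
      hπ, ho₃, div_mul_cancel₀ _ hw]

/-- **Flat deformations give flat cocycles.** -/
theorem isFlatCocycle_tcoc (F : Frame ρ r) (hflat : ρ.IsFlatAt p) (hdet : ρ.DetIsCyclotomic p)
    {A : ValuationSubring ℚbar} (hA : A.LiesOverPrime p)
    (hlev : ∃ N, (galLevels Set.univ).IsLevel N ∧ ∀ s ∈ N, ∀ a c,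
      matOf ρ F.b s a c - (1 : M2 R) a c ∈ maximalIdeal R ^ 2)
    {d : R → ResidueField 𝒪} (hd : IsDeriv F.π d) (hdO : ∀ o, d (algebraMap 𝒪 R o) = 0)
    (hne : d ≠ 0) :
    haveI : CharP (ResidueField 𝒪) p :=
      charP_of_injective_algebraMap (algebraMap (ZMod p) (ResidueField 𝒪)).injective p
    IsFlatCocycle A r (tcoc F.π (matOf ρ F.b) d) := by
  have : CharP (ResidueField 𝒪) p :=
    charP_of_injective_algebraMap (algebraMap (ZMod p) (ResidueField 𝒪)).injective p
  have hπ0 : ∀ a ∈ maximalIdeal R, F.π a = 0 := fun a ha => (F.π_eq_zero a).mpr ha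
  refine ⟨⟨fun σ _ => trace_tcoc hd (F.deriv_det hdet hd hdO) σ, fun σ _ τ _ => ?_, ?_⟩, ?_⟩
  · rw [tcoc_mul hd, F.resHom_eq, add_comm]
  · obtain ⟨_, ⟨L, hL, hLn, -, rfl⟩, hN'⟩ := hlev
    refine ⟨L, hL, hLn, fun τ _ hτ => ?_⟩
    have h1 := tcoc_congr (rep := matOf ρ F.b) hd hπ0 (σ := τ) (τ := 1) fun i j => by
      rw [map_one]; exact hN' τ hτ i j
    rw [h1, tcoc, map_one, hd.map_one, zero_mul]
  -- flatness of the dual number lift gives a model of the extension by `d`
  have hsurj := dualHom_surjective F hd hdO hne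
  set φ := dualHom F hd with hφdef
  have : Finite (DualNumber (ResidueField 𝒪)) :=
    inferInstanceAs (Finite (ResidueField 𝒪 × ResidueField 𝒪))
  have hf := isFlatAt_pushRep φ hsurj ρ F.b hflat
  have : Finite (DualNumber (ResidueField 𝒪) ⧸ (⊥ : Ideal (DualNumber (ResidueField 𝒪)))) :=
    Finite.of_surjective (Ideal.Quotient.mk _) Ideal.Quotient.mk_surjective
  obtain ⟨G⟩ := nonempty_model_reduction (mapHom φ (matOf ρ F.b)) _ hf ⊥
    (⟨hp.out, hA⟩ : IsPlace A p)
  let e : DualNumber (ResidueField 𝒪) ⧸ (⊥ : Ideal (DualNumber (ResidueField 𝒪))) ≃+*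
    DualNumber (ResidueField 𝒪) := RingEquiv.quotientBot _
  -- read a dual number vector as a pair of residual vectors
  let g : (Fin 2 → DualNumber (ResidueField 𝒪) ⧸ (⊥ : Ideal (DualNumber (ResidueField 𝒪)))) →+
      (Fin 2 → ResidueField 𝒪) × (Fin 2 → ResidueField 𝒪) :=
    AddMonoidHom.mk' (fun y => (fun j => TrivSqZeroExt.snd (e (y j)),
      fun j => TrivSqZeroExt.fst (e (y j)))) fun x y => by
      refine Prod.ext (funext fun j => ?_) (funext fun j => ?_) <;> simp
  refine ⟨G.quot ⟨hp.out, hA⟩ g (fun v => ?_) fun σ _ y => ?_⟩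
  · refine ⟨fun j => e.symm (TrivSqZeroExt.inl (v.2 j) + TrivSqZeroExt.inr (v.1 j)), ?_⟩
    refine Prod.ext (funext fun j => ?_) (funext fun j => ?_) <;> simp [g]
  · have hc : ∀ a c, ((matOf ρ F.b σ).map d) a c =
        (tcoc F.π (matOf ρ F.b) d σ * r σ) a c := fun a c => by
      have h1 := map_eq_tcoc_mul (π := F.π) (rep := matOf ρ F.b) (d := d) σ
      rw [F.resHom_eq] at h1
      exact congrFun (congrFun h1 a) c
    have hval : ∀ x, e (Ideal.Quotient.mk ⊥ x) = x := fun x => rfl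
    have hr' : ∀ i j, F.π (matOf ρ F.b σ i j) = r σ i j := fun i j => by
      rw [← F.res σ]; rfl
    change g (Matrix.mulVec ((mapHom φ (matOf ρ F.b) σ).map (Ideal.Quotient.mk ⊥)) y) =
      dualAct r (tcoc F.π (matOf ρ F.b) d) σ (g y)
    simp only [g, AddMonoidHom.mk'_apply, dualAct_apply]
    rw [Matrix.mulVec_mulVec]
    refine Prod.ext (funext fun j => ?_) (funext fun j => ?_)
    · simp only [Pi.add_apply, Matrix.mulVec, dotProduct, Fin.sum_univ_two, map_add, map_mul,
        Matrix.map_apply, hval, mapHom_apply, TrivSqZeroExt.snd_add, TrivSqZeroExt.snd_mul, hφdef,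
        fst_dualHom, snd_dualHom, hr']
      rw [← hc, ← hc, Matrix.map_apply, Matrix.map_apply]
      simp [smul_eq_mul]
      ring
    · simp only [Matrix.mulVec, dotProduct, Fin.sum_univ_two, map_add, map_mul, Matrix.map_apply,
        hval, mapHom_apply, TrivSqZeroExt.fst_add, TrivSqZeroExt.fst_mul, hφdef, fst_dualHom, hr']

end Fermat.GR.S56

end
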