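import Mathlib

/-!
# Two by two matrices: trace zero parts, common eigenvectors

A representation without a common eigenvector, also after restriction to subgroups of index two,
and with split characteristic polynomials has no semi-invariant trace zero matrix.
-/

set_option autoImplicit false
set_option linter.unusedSectionVars false

noncomputable section

namespace Fermat.GR.S56

local notation "M2" R => Matrix (Fin 2) (Fin 2) R

variable {k : Type} [Field k]

/-- The trace zero part. -/
def sl (X : M2 k) : M2 k := X - (X.trace / 2) • 1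

/-- A matrix is a scalar plus its trace zero part. -/
theorem eq_sl_add (X : M2 k) : X = (X.trace / 2) • (1 : M2 k) + sl X := by
  rw [sl]; abel

/-- The trace zero part has trace zero. -/
theorem trace_sl (h2 : (2 : k) ≠ 0) (X : M2 k) : (sl X).trace = 0 := by
  rw [sl, Matrix.trace_sub, Matrix.trace_smul, Matrix.trace_one, Fintype.card_fin, Nat.cast_two,
    smul_eq_mul, div_mul_cancel₀ _ h2, sub_self]

/-- A matrix of trace zero squares to `-det`. -/
theorem mul_self_of_trace_zero {X : M2 k} (h : X.trace = 0) :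
    X * X = (-X.det) • (1 : M2 k) := by
  rw [Matrix.trace_fin_two] at h
  ext i j
  fin_cases i <;> fin_cases j <;>
    simp [Matrix.mul_apply, Fin.sum_univ_two, Matrix.det_fin_two]
  · linear_combination (X 0 0) * h
  · linear_combination (X 0 1) * h
  · linear_combination (X 1 0) * h
  · linear_combination (X 1 1) * h

/-- The determinant of the trace zero part is `det X - (trace X / 2) ^ 2`. -/
theorem det_sl (h2 : (2 : k) ≠ 0) (X : M2 k) :
    (sl X).det = X.det - (X.trace / 2) ^ 2 := by
  simp [sl, Matrix.det_fin_two, Matrix.trace_fin_two]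
  field_simp
  ring

/-- Two vectors with vanishing cross product are proportional. -/
theorem exists_eq_smul_vec {v w : Fin 2 → k} (hv : v ≠ 0) (h : v 0 * w 1 = v 1 * w 0) :
    ∃ c : k, w = c • v := by
  by_cases h0 : v 0 = 0
  · have h1 : v 1 ≠ 0 := fun h1 => hv (funext fun i => by fin_cases i <;> simpa)
    refine ⟨w 1 / v 1, funext fun i => ?_⟩
    fin_cases i <;> simp [h1, h0]
    rw [h0, zero_mul] at h
    exact (mul_eq_zero.mp h.symm).resolve_left h1
  · refine ⟨w 0 / v 0, funext fun i => ?_⟩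
    fin_cases i <;> simp [h0]
    field_simp
    linear_combination h

/-- A nonzero matrix kills at most a line. -/
theorem exists_eq_smul_of_mulVec_eq_zero {X : M2 k} (hX : X ≠ 0) {v w : Fin 2 → k} (hv : v ≠ 0)
    (h1 : Matrix.mulVec X v = 0) (h2 : Matrix.mulVec X w = 0) : ∃ c : k, w = c • v := by
  refine exists_eq_smul_vec hv ?_
  by_contra hne
  refine hX (Matrix.ext fun i j => ?_)
  have a := congrFun h1 i
  have b := congrFun h2 i
  simp [Matrix.mulVec, dotProduct, Fin.sum_univ_two] at a b
  have hne' : v 0 * w 1 - v 1 * w 0 ≠ 0 := sub_ne_zero.mpr hne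
  fin_cases j
  · exact (mul_eq_zero.mp (show X i 0 * (v 0 * w 1 - v 1 * w 0) = 0 by
      linear_combination w 1 * a - v 1 * b)).resolve_right hne'
  · exact (mul_eq_zero.mp (show X i 1 * (v 0 * w 1 - v 1 * w 0) = 0 by
      linear_combination v 0 * b - w 0 * a)).resolve_right hne'

/-- Trace zero matrices with vanishing cross product are proportional. -/
theorem exists_eq_smul_of_cross {Y X : M2 k} (hY0 : Y ≠ 0) (tY : Y.trace = 0) (tX : X.trace = 0)
    (e1 : X 0 0 * Y 0 1 = X 0 1 * Y 0 0) (e2 : X 0 0 * Y 1 0 = X 1 0 * Y 0 0)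
    (e3 : X 0 1 * Y 1 0 = X 1 0 * Y 0 1) : ∃ c : k, X = c • Y := by
  rw [Matrix.trace_fin_two] at tY tX
  have h11 : ∀ c : k, X 0 0 = c * Y 0 0 → X 1 1 = c * Y 1 1 := fun c h => by
    linear_combination tX - c * tY - h
  have key : ∀ c : k, X 0 0 = c * Y 0 0 → X 0 1 = c * Y 0 1 → X 1 0 = c * Y 1 0 → X = c • Y :=
    fun c h00 h01 h10 => Matrix.ext fun i j => by
      fin_cases i <;> fin_cases j <;> simp [h00, h01, h10, h11 c h00]
  by_cases a : Y 0 0 = 0
  · by_cases b : Y 0 1 = 0
    · have c0 : Y 1 0 ≠ 0 := fun c0 => hY0 (Matrix.ext fun i j => by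
        fin_cases i <;> fin_cases j <;> simp [a, b, c0]
        linear_combination tY - a)
      refine ⟨X 1 0 / Y 1 0, key _ ?_ ?_ (by field_simp)⟩
      · field_simp; linear_combination e2
      · field_simp; linear_combination e3
    · refine ⟨X 0 1 / Y 0 1, key _ ?_ (by field_simp) ?_⟩
      · field_simp; linear_combination e1
      · field_simp; linear_combination -e3
  · refine ⟨X 0 0 / Y 0 0, key _ (by field_simp) ?_ ?_⟩
    · field_simp; linear_combination -e1
    · field_simp; linear_combination -e2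

/-- The centraliser of a nonzero trace zero matrix among trace zero matrices is its line. -/
theorem exists_eq_smul_of_comm (h2 : (2 : k) ≠ 0) {Y X : M2 k} (hY0 : Y ≠ 0) (tY : Y.trace = 0)
    (tX : X.trace = 0) (h : Y * X = X * Y) : ∃ c : k, X = c • Y := by
  have h00 := congrFun (congrFun h 0) 0
  have h01 := congrFun (congrFun h 0) 1
  have h10 := congrFun (congrFun h 1) 0
  simp [Matrix.mul_apply, Fin.sum_univ_two] at h00 h01 h10
  have tY' := tY; have tX' := tX
  rw [Matrix.trace_fin_two] at tY' tX'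
  refine exists_eq_smul_of_cross hY0 tY tX (mul_left_cancel₀ h2 ?_) (mul_left_cancel₀ h2 ?_)
    (by linear_combination -h00)
  · linear_combination -h01 + Y 0 1 * tX' - X 0 1 * tY'
  · linear_combination h10 + Y 1 0 * tX' - X 1 0 * tY'

/-- The orthogonal line of a plane is spanned by the bracket. -/
theorem exists_eq_smul_of_orth {X Y Z : M2 k} (tX : X.trace = 0)
    (tY : Y.trace = 0) (tZ : Z.trace = 0) (hC : X * Y - Y * X ≠ 0) (oX : (Z * X).trace = 0)
    (oY : (Z * Y).trace = 0) : ∃ c : k, Z = c • (X * Y - Y * X) := by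
  have tC : (X * Y - Y * X).trace = 0 := by
    rw [Matrix.trace_sub, Matrix.trace_mul_comm, sub_self]
  rw [Matrix.trace_fin_two] at tX tY
  have tZ' := tZ
  rw [Matrix.trace_fin_two] at tZ'
  simp [Matrix.trace_fin_two, Matrix.mul_apply, Fin.sum_univ_two] at oX oY
  have hX11 : X 1 1 = -X 0 0 := by linear_combination tX
  have hY11 : Y 1 1 = -Y 0 0 := by linear_combination tY
  have hZ11 : Z 1 1 = -Z 0 0 := by linear_combination tZ'
  rw [hX11, hZ11] at oX
  rw [hY11, hZ11] at oY
  refine exists_eq_smul_of_cross hC tC tZ ?_ ?_ ?_ <;>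
    simp [Matrix.mul_apply, Fin.sum_univ_two, hX11, hY11]
  · linear_combination Y 0 1 * oX - X 0 1 * oY
  · linear_combination X 1 0 * oY - Y 1 0 * oX
  · linear_combination 2 * Y 0 0 * oX - 2 * X 0 0 * oY

/-- Orthogonal isotropic trace zero matrices are proportional. -/
theorem exists_eq_smul_of_isotropic {N M : M2 k} (hN : N ≠ 0) (tN : N.trace = 0)
    (tM : M.trace = 0) (dN : N.det = 0) (dM : M.det = 0) (h : (N * M).trace = 0) :
    ∃ c : k, M = c • N := by
  have tN' := tN; have tM' := tM
  rw [Matrix.trace_fin_two] at tN' tM'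
  have hN11 : N 1 1 = -N 0 0 := by linear_combination tN'
  have hM11 : M 1 1 = -M 0 0 := by linear_combination tM'
  rw [Matrix.det_fin_two, hN11] at dN
  rw [Matrix.det_fin_two, hM11] at dM
  simp [Matrix.trace_fin_two, Matrix.mul_apply, Fin.sum_univ_two, hN11, hM11] at h
  refine exists_eq_smul_of_cross hN tN tM ?_ ?_ ?_ <;> refine sub_eq_zero.mp ?_ <;>
    refine pow_eq_zero_iff two_ne_zero |>.mp ?_
  · linear_combination -(M 0 1 ^ 2) * dN - (N 0 1 ^ 2) * dM - (M 0 1 * N 0 1) * h
  · linear_combination -(M 1 0 ^ 2) * dN - (N 1 0 ^ 2) * dM - (M 1 0 * N 1 0) * h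
  · linear_combination (M 0 1 * N 1 0 + M 1 0 * N 0 1 - 2 * M 0 0 * N 0 0) * h
      + (4 * M 0 1 * M 1 0) * dN - (4 * N 0 0 ^ 2) * dM

/-- A matrix with vanishing discriminant keeps it on powers. -/
theorem disc_pow_eq_zero (h2 : (2 : k) ≠ 0) {X : M2 k} (h : X.trace ^ 2 = 4 * X.det) (i : ℕ) :
    (X ^ i).trace ^ 2 = 4 * (X ^ i).det := by
  set Y := sl X
  have hY : Y.trace = 0 := trace_sl h2 X
  have hd : Y.det = 0 := by
    rw [det_sl h2]; field_simp; linear_combination -h
  have hYY : Y * Y = 0 := by rw [mul_self_of_trace_zero hY, hd, neg_zero, zero_smul]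
  obtain ⟨c, e, hce⟩ : ∃ c e : k, X ^ i = c • (1 : M2 k) + e • Y := by
    induction i with
    | zero => exact ⟨1, 0, by rw [pow_zero, one_smul, zero_smul, add_zero]⟩
    | succ i ih =>
      obtain ⟨c, e, hce⟩ := ih
      refine ⟨c * (X.trace / 2), c + e * (X.trace / 2), ?_⟩
      rw [pow_succ, hce]
      conv_lhs => rw [eq_sl_add X]
      rw [show sl X = Y from rfl]
      simp only [add_mul, mul_add, Matrix.smul_mul, Matrix.mul_smul, one_mul, mul_one, hYY,
        smul_zero, add_zero]
      module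
  have htr : Y 0 0 + Y 1 1 = 0 := by rwa [Matrix.trace_fin_two] at hY
  rw [Matrix.det_fin_two] at hd
  rw [hce]
  simp [Matrix.trace_fin_two, Matrix.det_fin_two]
  linear_combination (e ^ 2) * (Y 0 0 + Y 1 1) * htr - 4 * e ^ 2 * hd

/-- A representation with split characteristic polynomials and no common eigenvector for
subgroups of index at most two. -/
structure IsBig {G : Type} [Group G] (r : G →* M2 k) : Prop where
  /-- `2` is invertible. -/
  two_ne : (2 : k) ≠ 0
  /-- The characteristic polynomials split. -/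
  split : ∀ g, ∃ a : k, a ^ 2 - (r g).trace * a + (r g).det = 0
  /-- No subgroup of index at most two has a common eigenvector. -/
  noEig : ∀ H : Subgroup G, (H = ⊤ ∨ H.index = 2) → ∀ v : Fin 2 → k, v ≠ 0 →
    ¬ ∀ g ∈ H, ∃ c : k, Matrix.mulVec (r g) v = c • v

namespace IsBig

variable {G : Type} [Group G] {r : G →* M2 k} (hr : IsBig r)
include hr

/-- Every element has an eigenvector over the field itself. -/
theorem exists_eigenvector (g : G) :
    ∃ (a : k) (v : Fin 2 → k), v ≠ 0 ∧ Matrix.mulVec (r g) v = a • v := by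
  obtain ⟨a, ha⟩ := hr.split g
  have hd : (r g - a • (1 : M2 k)).det = 0 := by
    simp [Matrix.det_fin_two, Matrix.trace_fin_two] at ha ⊢
    linear_combination ha
  obtain ⟨v, hv, hv0⟩ := Matrix.exists_mulVec_eq_zero_iff.mpr hd
  refine ⟨a, v, hv, ?_⟩
  rwa [Matrix.sub_mulVec, Matrix.smul_mulVec, Matrix.one_mulVec, sub_eq_zero] at hv0

omit hr in
/-- The values of a representation are invertible. -/
theorem isUnit_map (g : G) : IsUnit (r g) := (Group.isUnit g).map r

omit hr in
/-- The values of a representation have nonzero determinant. -/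
theorem det_ne_zero (g : G) : (r g).det ≠ 0 :=
  ((Matrix.isUnit_iff_isUnit_det _).mp (isUnit_map g)).ne_zero

/-- **No semi-invariant.** For a big representation no nonzero trace zero matrix commutes with the
image up to scalars. -/
theorem false_of_semiInvariant {X : M2 k} (hX : X ≠ 0) (tX : X.trace = 0)
    (h : ∀ g, ∃ c : k, r g * X = c • (X * r g)) : False := by
  -- a singular `X` would give a common eigenvector
  by_cases hd : X.det = 0
  · obtain ⟨v, hv, hv0⟩ := Matrix.exists_mulVec_eq_zero_iff.mpr hd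
    refine hr.noEig ⊤ (Or.inl rfl) v hv fun g _ => ?_
    obtain ⟨c, hc⟩ := h g
    have hc0 : c ≠ 0 := fun h0 => by
      rw [h0, zero_smul] at hc
      exact hX ((isUnit_map g).mul_right_eq_zero.mp hc)
    have h1 := congrArg (fun Z : M2 k => Matrix.mulVec Z v) hc
    simp only [← Matrix.mulVec_mulVec, Matrix.smul_mulVec, hv0, Matrix.mulVec_zero] at h1
    exact exists_eq_smul_of_mulVec_eq_zero hX hv hv0
      ((smul_eq_zero.mp h1.symm).resolve_left hc0)
  -- otherwise `r g` commutes or anticommutes with `X`, so the centraliser has index at most two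
  have hsign : ∀ g, r g * X = X * r g ∨ r g * X = -(X * r g) := by
    intro g
    obtain ⟨c, hc⟩ := h g
    have h1 := congrArg Matrix.det hc
    rw [Matrix.det_smul, Matrix.det_mul, Matrix.det_mul, Fintype.card_fin] at h1
    have hc2 : c * c = 1 := mul_right_cancel₀ (mul_ne_zero hd (det_ne_zero g))
      (by linear_combination -h1)
    rcases mul_self_eq_one_iff.mp hc2 with rfl | rfl
    · exact Or.inl (by rw [hc, one_smul])
    · exact Or.inr (by rw [hc, neg_one_smul])
  let H : Subgroup G :=
    { carrier := {g | Commute (r g) X}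
      mul_mem' := fun {a b} ha hb => by
        change Commute (r (a * b)) X
        rw [map_mul]; exact ha.mul_left hb
      one_mem' := by change Commute (r 1) X; rw [map_one]; exact Commute.one_left X
      inv_mem' := fun {a} ha => by
        change r a⁻¹ * X = X * r a⁻¹
        calc r a⁻¹ * X = r a⁻¹ * (X * r a) * r a⁻¹ := by
              rw [mul_assoc, mul_assoc X, ← map_mul, mul_inv_cancel, map_one, mul_one]
          _ = X * r a⁻¹ := by
              rw [← ha.eq, ← mul_assoc, ← map_mul, inv_mul_cancel, map_one, one_mul] }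
  have hH : H = ⊤ ∨ H.index = 2 := by
    by_cases hall : ∀ g, g ∈ H
    · exact Or.inl ((Subgroup.eq_top_iff' H).mpr hall)
    push Not at hall
    obtain ⟨a, ha⟩ := hall
    refine Or.inr (Subgroup.index_eq_two_iff.mpr ⟨a, fun b => ?_⟩)
    have haneg : r a * X = -(X * r a) := (hsign a).resolve_left ha
    have hne : ∀ g, r g * X = -(X * r g) → g ∉ H := fun g hg hmem => by
      have h1 : r g * X = X * r g := hmem
      have h3 : (2 : k) • (X * r g) = 0 := by
        rw [two_smul]
        nth_rewrite 1 [← h1]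
        rw [hg, neg_add_cancel]
      exact hX ((isUnit_map g).mul_left_eq_zero.mp
        ((smul_eq_zero.mp h3).resolve_left hr.two_ne))
    rcases hsign b with hb | hb
    · refine Or.inr ⟨hb, hne _ ?_⟩
      rw [map_mul, mul_assoc, haneg, mul_neg, ← mul_assoc, hb, mul_assoc]
    · refine Or.inl ⟨?_, hne _ hb⟩
      change r (b * a) * X = X * r (b * a)
      rw [map_mul, mul_assoc, haneg, mul_neg, ← mul_assoc, hb, neg_mul, neg_neg, mul_assoc]
  -- on it every trace zero part is a multiple of `X`, so an eigenvector of one is common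
  by_cases hsc : ∀ g ∈ H, sl (r g) = 0
  · refine hr.noEig H hH ![1, 0] (fun h0 => by simpa using congrFun h0 0) fun g hg =>
      ⟨(r g).trace / 2, ?_⟩
    conv_lhs => rw [eq_sl_add (r g), hsc g hg, add_zero]
    rw [Matrix.smul_mulVec, Matrix.one_mulVec]
  push Not at hsc
  obtain ⟨g₀, hg₀, hne⟩ := hsc
  have hcomm : ∀ g ∈ H, ∃ c : k, sl (r g) = c • X := fun g hg =>
    exists_eq_smul_of_comm hr.two_ne hX tX (trace_sl hr.two_ne _) (by
      have h1 : r g * X = X * r g := hg
      simp only [sl, sub_mul, mul_sub, Matrix.smul_mul, Matrix.mul_smul, one_mul, mul_one, h1])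
  obtain ⟨a, v, hv, hav⟩ := hr.exists_eigenvector g₀
  obtain ⟨c₀, hc₀⟩ := hcomm g₀ hg₀
  have hc₀' : c₀ ≠ 0 := fun h0 => hne (by rw [hc₀, h0, zero_smul])
  have hXv : Matrix.mulVec X v = ((a - (r g₀).trace / 2) / c₀) • v := by
    rw [eq_sl_add (r g₀), hc₀, Matrix.add_mulVec, Matrix.smul_mulVec, Matrix.one_mulVec,
      Matrix.smul_mulVec, ← eq_sub_iff_add_eq', ← sub_smul] at hav
    rw [div_eq_inv_mul, ← smul_smul, ← hav, smul_smul, inv_mul_cancel₀ hc₀', one_smul]
  refine hr.noEig H hH v hv fun g hg => ?_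
  obtain ⟨c, hc⟩ := hcomm g hg
  refine ⟨(r g).trace / 2 + c * ((a - (r g₀).trace / 2) / c₀), ?_⟩
  conv_lhs => rw [eq_sl_add (r g), hc]
  rw [Matrix.add_mulVec, Matrix.smul_mulVec, Matrix.one_mulVec, Matrix.smul_mulVec, hXv,
    smul_smul, ← add_smul]

/-- Some matrix in the orbit of a nonzero trace zero matrix pairs nontrivially with another. -/
theorem exists_trace_ne_zero {Y Z : M2 k} (hY : Y ≠ 0) (tY : Y.trace = 0) (hZ : Z ≠ 0)
    (tZ : Z.trace = 0) : ∃ g, (Z * (r g * Y * r g⁻¹)).trace ≠ 0 := by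
  by_contra hcon
  push Not at hcon
  have hconj : ∀ g (X : M2 k), (r g * X * r g⁻¹).trace = X.trace := fun g X => by
    rw [Matrix.trace_mul_comm, ← mul_assoc, ← map_mul, inv_mul_cancel, map_one, one_mul]
  -- `Y` cannot span a stable line, as `r` is irreducible
  by_cases hall : ∀ g, ∃ c : k, r g * Y * r g⁻¹ = c • Y
  · refine hr.false_of_semiInvariant hY tY fun g => ?_
    obtain ⟨c, hc⟩ := hall g
    refine ⟨c, ?_⟩
    rw [← Matrix.smul_mul, ← hc, mul_assoc _ (r g⁻¹), ← map_mul, inv_mul_cancel, map_one, mul_one]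
  push Not at hall
  obtain ⟨g₁, hg₁⟩ := hall
  set Y₁ := r g₁ * Y * r g₁⁻¹ with hY₁
  have tY₁ : Y₁.trace = 0 := by rw [hY₁, hconj, tY]
  have hC : Y * Y₁ - Y₁ * Y ≠ 0 := fun h0 => by
    obtain ⟨c, hc⟩ := exists_eq_smul_of_comm hr.two_ne hY tY tY₁ (sub_eq_zero.mp h0)
    exact hg₁ c hc
  -- so conjugates of `Z`, orthogonal to `Y` and `Y₁`, lie on the line of `[Y, Y₁]`
  have hline : ∀ h, ∃ c : k, r h * Z * r h⁻¹ = c • (Y * Y₁ - Y₁ * Y) := by
    intro h
    have hmove : ∀ X : M2 k, (r h * Z * r h⁻¹ * X).trace = (Z * (r h⁻¹ * X * r h)).trace := by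
      intro X
      rw [mul_assoc (r h), mul_assoc (r h), Matrix.trace_mul_comm (r h)]
      simp only [mul_assoc]
    refine exists_eq_smul_of_orth tY tY₁ (by rw [hconj, tZ]) hC ?_ ?_ <;> rw [hmove]
    · have := hcon h⁻¹
      rwa [inv_inv] at this
    · have := hcon (h⁻¹ * g₁)
      rw [mul_inv_rev, inv_inv, map_mul, map_mul] at this
      rw [hY₁]
      simpa only [mul_assoc] using this
  -- so `Z` spans a stable line
  obtain ⟨c₁, hc₁⟩ := hline 1
  rw [inv_one, map_one, one_mul, mul_one] at hc₁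
  have hc₁0 : c₁ ≠ 0 := fun h0 => hZ (by rw [hc₁, h0, zero_smul])
  refine hr.false_of_semiInvariant hZ tZ fun g => ?_
  obtain ⟨c, hc⟩ := hline g
  refine ⟨c / c₁, ?_⟩
  have h1 : r g * Z * r g⁻¹ = (c / c₁) • Z := by
    rw [hc, hc₁, smul_smul, div_mul_cancel₀ _ hc₁0]
  rw [← Matrix.smul_mul, ← h1, mul_assoc _ (r g⁻¹), ← map_mul, inv_mul_cancel, map_one, mul_one]

end IsBig

end Fermat.GR.S56

end
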