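import Mathlib

/-!
# Averaging crossed homomorphisms, and counting fixed points of a permutation group

A crossed homomorphism vanishing on a subgroup of index prime to `p` is a coboundary.  A group
acting with one or two fixed points for each element outside a pointwise fixed subgroup has a large
torus at a point fixed by `p`-elements.
-/

set_option autoImplicit false
set_option linter.unusedSectionVars false

noncomputable section

namespace Fermat.GR.S56

section Average

variable {p : ℕ} [Fact p.Prime] {G M : Type} [Group G] [AddCommGroup M] [Module (ZMod p) M]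
  (ρ : Representation (ZMod p) G M)

/-- A crossed homomorphism vanishing on a subgroup of index prime to `p` is a coboundary. -/
theorem exists_coboundary_of_index (z : G → M) (hz : ∀ g h, z (g * h) = ρ g (z h) + z g)
    (U : Subgroup G) (hidx : ¬ p ∣ U.index) (hU : ∀ u ∈ U, z u = 0) :
    ∃ m : M, ∀ g, z g = ρ g m - m := by
  have hne : U.index ≠ 0 := fun h => hidx (h ▸ dvd_zero p)
  have : U.FiniteIndex := ⟨hne⟩
  have : Fintype (G ⧸ U) := Fintype.ofFinite _
  let zQ : G ⧸ U → M := Quotient.lift z fun a b hab => by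
    have h := hz a (a⁻¹ * b)
    rw [mul_inv_cancel_left, hU _ (QuotientGroup.leftRel_apply.mp hab), map_zero, zero_add] at h
    exact h.symm
  set S : M := ∑ x : G ⧸ U, zQ x with hS
  have hcard : ((U.index : ℕ) : ZMod p) ≠ 0 := by
    rw [Ne, ZMod.natCast_eq_zero_iff]; exact hidx
  refine ⟨-(((U.index : ℕ) : ZMod p)⁻¹ • S), fun g => ?_⟩
  have h1 : S = ρ g S + U.index • z g := by
    rw [hS, map_sum, Subgroup.index, Nat.card_eq_fintype_card, ← Finset.card_univ,
      ← Finset.sum_const, ← Finset.sum_add_distrib]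
    refine (Fintype.sum_equiv (MulAction.toPerm g) _ _ fun y => ?_).symm
    obtain ⟨y, rfl⟩ := QuotientGroup.mk_surjective y
    exact (hz g y).symm
  have h2 : z g = ((U.index : ℕ) : ZMod p)⁻¹ • (S - ρ g S) := by
    rw [show S - ρ g S = U.index • z g from sub_eq_iff_eq_add'.mpr h1,
      ← Nat.cast_smul_eq_nsmul (ZMod p), smul_smul, inv_mul_cancel₀ hcard, one_smul]
  rw [h2, map_neg, map_smul, smul_sub]
  abel

/-- A coboundary on a normal subgroup without fixed vectors is a coboundary on the whole group. -/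
theorem eq_coboundary_of_normal (z : G → M) (hz : ∀ g h, z (g * h) = ρ g (z h) + z g)
    (H : Subgroup G) [H.Normal] (hfix : ∀ m : M, (∀ x ∈ H, ρ x m = m) → m = 0) {m : M}
    (hm : ∀ x ∈ H, z x = ρ x m - m) : ∀ g, z g = ρ g m - m := by
  intro g
  refine sub_eq_zero.mp (hfix _ fun x hx => ?_)
  have hconj : g⁻¹ * x * g ∈ H := by
    simpa using (Subgroup.Normal.conj_mem inferInstance x hx g⁻¹ : g⁻¹ * x * g⁻¹⁻¹ ∈ H)
  have e1 := hz x g
  have e2 := hz g (g⁻¹ * x * g)
  rw [show g * (g⁻¹ * x * g) = x * g by group, e1, hm x hx, hm _ hconj, map_sub,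
    show ρ g (ρ (g⁻¹ * x * g) m) = ρ x (ρ g m) by
      rw [← Module.End.mul_apply, ← map_mul, ← Module.End.mul_apply, ← map_mul]
      congr 2
      group] at e2
  rw [map_sub, map_sub, ← sub_eq_zero]
  rw [← sub_eq_zero] at e2
  rw [← e2]
  abel

end Average

section Orbit

open MulAction Finset

variable {G X : Type} [Group G] [Fintype G] [DecidableEq G] [MulAction G X] [Fintype X]
  [DecidableEq X]

/-- The number of fixed points. -/
def nFix (g : G) : ℕ := #{x : X | g • x = x}

/-- The number of elements outside `Z` fixing `x`. -/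
def nStab (Z : Finset G) (x : X) : ℕ := #{g ∈ Zᶜ | g • x = x}

/-- Fixed points counted by elements and by points. -/
theorem sum_nFix (Z : Finset G) :
    ∑ g ∈ Zᶜ, nFix (X := X) g = ∑ x : X, nStab Z x := by
  simp only [nFix, nStab, Finset.card_filter]
  exact Finset.sum_comm

/-- A stabiliser is `Z` together with the elements outside `Z` fixing the point. -/
theorem card_stab_eq (Z : Finset G) (hZ : ∀ g ∈ Z, ∀ x : X, g • x = x) (x : X) :
    Nat.card (stabilizer G x) = nStab Z x + #Z := by
  have h : ({g : G | g • x = x} : Finset G) = ({g ∈ Zᶜ | g • x = x} : Finset G) ∪ Z := by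
    ext g
    by_cases hg : g ∈ Z <;> simp [hg]
    exact hZ g hg x
  have hdisj : Disjoint ({g ∈ Zᶜ | g • x = x} : Finset G) Z :=
    Finset.disjoint_left.mpr fun g hg => Finset.mem_compl.mp (Finset.mem_filter.mp hg).1
  rw [nStab, ← Finset.card_union_of_disjoint hdisj, ← h, Nat.card_eq_fintype_card,
    ← Fintype.card_subtype]
  exact Fintype.card_congr (Equiv.subtypeEquivRight fun g => mem_stabilizer_iff)

/-- A point of an orbit has the same orbit. -/
theorem orbit_eq_of_mem {x y : X} (h : y ∈ orbit G x) : orbit G y = orbit G x :=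
  orbit_eq_iff.mpr h

omit [DecidableEq G] [DecidableEq X] in
/-- The orbit-stabiliser formula. -/
theorem natCard_orbit_mul_stabilizer (x : X) :
    Nat.card (orbit G x) * Nat.card (stabilizer G x) = Fintype.card G := by
  classical
  rw [Nat.card_eq_fintype_card, Nat.card_eq_fintype_card,
    MulAction.card_orbit_mul_card_stabilizer_eq_card_group]

omit [Fintype G] [DecidableEq G] in
/-- Conjugate elements have equally many fixed points. -/
theorem nFix_conj (h g : G) : nFix (X := X) (h * g * h⁻¹) = nFix (X := X) g := by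
  refine Finset.card_bij (fun x _ => h⁻¹ • x) (fun x hx => ?_) (fun a _ b _ hab => ?_)
    fun b hb => ⟨h • b, ?_, inv_smul_smul h b⟩
  · simp only [Finset.mem_filter, Finset.mem_univ, true_and] at hx ⊢
    calc g • h⁻¹ • x = h⁻¹ • (h * g * h⁻¹) • x := by
          simp only [smul_smul]; congr 1; group
      _ = h⁻¹ • x := by rw [hx]
  · exact (MulAction.toPerm h⁻¹).injective hab
  · simp only [Finset.mem_filter, Finset.mem_univ, true_and] at hb ⊢
    rw [smul_smul, inv_mul_cancel_right, mul_smul, hb]

/-- Points of one orbit have stabilisers of the same size. -/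
theorem card_stabilizer_of_mem_orbit {x y : X} (hy : y ∈ orbit G x) :
    Nat.card (stabilizer G y) = Nat.card (stabilizer G x) := by
  have hG := natCard_orbit_mul_stabilizer (G := G) (X := X)
  have h1 := hG y
  rw [orbit_eq_of_mem hy, ← hG x] at h1
  have : Nonempty (orbit G x) := ⟨⟨x, mem_orbit_self x⟩⟩
  exact Nat.eq_of_mul_eq_mul_left Nat.card_pos h1

variable [∀ x : X, Fintype (orbit G x)] {Z : Finset G} (hZ : ∀ g ∈ Z, ∀ x : X, g • x = x)

include hZ in
/-- The elements fixing points of an orbit, counted with `Z`, make up the group. -/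
theorem sum_nStab_orbit (x : X) :
    (∑ w ∈ (orbit G x).toFinset, nStab Z w) + Nat.card (orbit G x) * #Z = Fintype.card G := by
  have hc : #((orbit G x).toFinset) = Nat.card (orbit G x) := by
    rw [Nat.card_eq_fintype_card, Set.toFinset_card]
  rw [← hc, ← smul_eq_mul, ← Finset.sum_const, ← Finset.sum_add_distrib,
    Finset.sum_congr rfl fun w hw => ((card_stab_eq Z hZ w).symm.trans
      (card_stabilizer_of_mem_orbit (Set.mem_toFinset.mp hw))),
    Finset.sum_const, smul_eq_mul, hc, natCard_orbit_mul_stabilizer]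

variable (hfix : ∀ g ∉ Z, nFix (X := X) g = 1 ∨ nFix (X := X) g = 2) (hX : 2 < Fintype.card X)

include hfix hX in
/-- An element fixing every point lies in `Z`. -/
theorem mem_of_forall_smul_eq {g : G} (hg : ∀ x : X, g • x = x) : g ∈ Z := by
  by_contra hgZ
  have h1 : nFix (X := X) g = Fintype.card X := by simp [nFix, hg]
  rcases hfix g hgZ with h | h <;> omega

include hZ hfix hX in
/-- A point fixed outside `Z` has an orbit of at most half the possible size. -/
theorem two_mul_card_orbit_le {x : X} (hx : 0 < nStab Z x) :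
    2 * (Nat.card (orbit G x) * #Z) ≤ Fintype.card G := by
  -- the elements of `Z` and a coset
  have h2 : 2 * #Z ≤ Nat.card (stabilizer G x) := by
    obtain ⟨g, hg⟩ := Finset.card_pos.mp hx
    obtain ⟨hgZ, hgx⟩ := Finset.mem_filter.mp hg
    rw [card_stab_eq Z hZ x, two_mul]
    refine Nat.add_le_add_right ?_ _
    refine Finset.card_le_card_of_injOn (fun a => g * a) (fun a ha => ?_)
      fun a _ b _ h => mul_left_cancel h
    rw [Finset.mem_coe, Finset.mem_filter, Finset.mem_compl, mul_smul, hZ a ha, hgx]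
    refine ⟨fun hc => Finset.mem_compl.mp hgZ (mem_of_forall_smul_eq hfix hX fun w => ?_), rfl⟩
    have := hZ _ hc w
    rwa [mul_smul, hZ a ha] at this
  rw [← natCard_orbit_mul_stabilizer x, ← mul_assoc, mul_comm 2, mul_assoc]
  exact Nat.mul_le_mul_left _ h2

include hZ hfix hX in
/-- Each point of an orbit is fixed by equally many elements with a single fixed point. -/
theorem card_nFix_one_fixing (h : G) (x₀ : X) :
    #{g ∈ ({g ∈ Zᶜ | nFix (X := X) g = 1} : Finset G) | g • h • x₀ = h • x₀} =
      #{g ∈ Zᶜ | g • x₀ = x₀ ∧ nFix (X := X) g = 1} := by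
  have hconj : ∀ g, g ∉ Z → ∀ u : G, u * g * u⁻¹ ∉ Z := fun g hg u hu => by
    -- a conjugate of an element of `Z` fixes every point
    refine hg (mem_of_forall_smul_eq hfix hX fun x => ?_)
    have := hZ _ hu (u • x)
    rwa [smul_smul, inv_mul_cancel_right, mul_smul, smul_left_cancel_iff] at this
  refine Finset.card_bij (fun g _ => h⁻¹ * g * h) (fun g hg => ?_) (fun a _ b _ hab => ?_)
    fun b hb => ⟨h * b * h⁻¹, ?_, by group⟩
  · simp only [Finset.mem_filter, Finset.mem_compl] at hg ⊢
    refine ⟨fun hc => hconj g hg.1.1 h⁻¹ (by rwa [inv_inv]), ?_, ?_⟩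
    · rw [mul_smul, mul_smul, hg.2, inv_smul_smul]
    · have := nFix_conj (X := X) h (h⁻¹ * g * h)
      rw [show h * (h⁻¹ * g * h) * h⁻¹ = g by group, hg.1.2] at this
      exact this.symm
  · simpa using hab
  · simp only [Finset.mem_filter, Finset.mem_compl] at hb ⊢
    refine ⟨⟨fun hc => hconj b hb.1 h hc, by rw [nFix_conj, hb.2.2]⟩, ?_⟩
    rw [smul_smul, inv_mul_cancel_right, mul_smul, hb.2.1]

include hZ hfix hX in
/-- When the elements with a single fixed point fix in one orbit, they are counted by the orbit. -/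
theorem card_nFix_one (x₀ : X)
    (hout : ∀ g ∉ Z, nFix (X := X) g = 1 → ∀ x : X, g • x = x → x ∈ orbit G x₀) :
    #{g ∈ Zᶜ | nFix (X := X) g = 1} =
      Nat.card (orbit G x₀) * #{g ∈ Zᶜ | g • x₀ = x₀ ∧ nFix (X := X) g = 1} := by
  set Un : Finset G := {g ∈ Zᶜ | nFix (X := X) g = 1} with hUn
  set O : Finset X := (orbit G x₀).toFinset with hO
  have hOm : #O = Nat.card (orbit G x₀) := by
    rw [Nat.card_eq_fintype_card, hO, Set.toFinset_card]
  have hUnx : ∀ x ∈ O, #{g ∈ Un | g • x = x} =
      #{g ∈ Zᶜ | g • x₀ = x₀ ∧ nFix (X := X) g = 1} := by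
    intro x hx
    obtain ⟨h, rfl⟩ := Set.mem_toFinset.mp hx
    exact card_nFix_one_fixing hZ hfix hX h x₀
  have h1 : ∑ g ∈ Un, #{x ∈ O | g • x = x} = #Un := by
    rw [Finset.card_eq_sum_ones Un]
    refine Finset.sum_congr rfl fun g hg => ?_
    obtain ⟨hgZ, hg1⟩ := Finset.mem_filter.mp hg
    rw [← hg1, nFix]
    refine congrArg Finset.card (Finset.ext fun x => ?_)
    simp only [Finset.mem_filter, Finset.mem_univ, true_and, hO, Set.mem_toFinset]
    exact ⟨fun h => h.2, fun h => ⟨hout g (Finset.mem_compl.mp hgZ) hg1 x h, h⟩⟩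
  rw [← h1]
  simp only [Finset.card_filter]
  rw [Finset.sum_comm]
  simp only [← Finset.card_filter]
  rw [Finset.sum_congr rfl hUnx, Finset.sum_const, smul_eq_mul, hOm]

include hfix in
/-- Every element outside `Z` has two fixed points, except those with one. -/
theorem sum_nFix_add_card_one :
    (∑ g ∈ Zᶜ, nFix (X := X) g) + #{g ∈ Zᶜ | nFix (X := X) g = 1} = 2 * #(Zᶜ) := by
  rw [Finset.card_filter, ← Finset.sum_add_distrib, Finset.card_eq_sum_ones (Zᶜ), Finset.mul_sum]
  refine Finset.sum_congr rfl fun g hg => ?_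
  rcases hfix g (Finset.mem_compl.mp hg) with h | h <;> simp [h]

include hZ hfix hX in
/-- Off the orbit of `x₀` at most one orbit is fixed outside `Z`, when there is no room for two. -/
theorem sum_compl_eq_sum_orbit {x₀ y : X} (hy : y ∉ orbit G x₀) (hy0 : 0 < nStab Z y)
    (hlt : ∑ x ∈ (orbit G x₀).toFinsetᶜ, nStab Z x < Fintype.card G) :
    ∑ x ∈ (orbit G x₀).toFinsetᶜ, nStab Z x = ∑ w ∈ (orbit G y).toFinset, nStab Z w := by
  set O : Finset X := (orbit G x₀).toFinset
  set Oy : Finset X := (orbit G y).toFinset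
  have hsub : Oy ⊆ Oᶜ := fun w hw => Finset.mem_compl.mpr fun h => by
    have h1 := orbit_eq_of_mem (Set.mem_toFinset.mp hw)
    have h2 := orbit_eq_of_mem (Set.mem_toFinset.mp h)
    exact hy (by rw [← h2, h1]; exact mem_orbit_self y)
  rw [← Finset.sum_sdiff hsub] at hlt ⊢
  rw [add_eq_right]
  refine Finset.sum_eq_zero fun w hw => ?_
  by_contra hne
  obtain ⟨hw1, hw2⟩ := Finset.mem_sdiff.mp hw
  have hw' : w ∉ orbit G x₀ := fun h => Finset.mem_compl.mp hw1 (Set.mem_toFinset.mpr h)
  have hsub' : (orbit G w).toFinset ⊆ Oᶜ \ Oy := fun u hu => by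
    have h1 := orbit_eq_of_mem (Set.mem_toFinset.mp hu)
    refine Finset.mem_sdiff.mpr ⟨Finset.mem_compl.mpr fun h => ?_, fun h => ?_⟩
    · have h2 := orbit_eq_of_mem (Set.mem_toFinset.mp h)
      exact hw' (by rw [← h2, h1]; exact mem_orbit_self w)
    · have h2 := orbit_eq_of_mem (Set.mem_toFinset.mp h)
      exact hw2 (Set.mem_toFinset.mpr (by rw [← h2, h1]; exact mem_orbit_self w))
  have h3 : ∑ u ∈ (orbit G w).toFinset, nStab Z u ≤ ∑ u ∈ Oᶜ \ Oy, nStab Z u :=
    Finset.sum_le_sum_of_subset hsub'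
  have g1 := sum_nStab_orbit hZ w
  have g2 := two_mul_card_orbit_le hZ hfix hX (Nat.pos_of_ne_zero hne)
  have y1 : (∑ u ∈ Oy, nStab Z u) + Nat.card (orbit G y) * #Z = Fintype.card G :=
    sum_nStab_orbit hZ y
  have y2 := two_mul_card_orbit_le hZ hfix hX hy0
  omega

include hfix hX hZ in
/-- The class equation: what the orbit of `x₀` leaves for the other orbits. -/
theorem sum_compl_add {q e : ℕ} (x₀ : X) (hq : 2 ≤ q)
    (hU : #{g ∈ Zᶜ | g • x₀ = x₀ ∧ nFix (X := X) g = 1} = #Z * (q - 1))
    (hout : ∀ g ∉ Z, nFix (X := X) g = 1 → ∀ x : X, g • x = x → x ∈ orbit G x₀)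
    (hG : Fintype.card G = Nat.card (orbit G x₀) * (#Z * q * e)) :
    (∑ x ∈ (orbit G x₀).toFinsetᶜ, nStab Z x) + Nat.card (orbit G x₀) * (#Z * (q - 2)) + 2 * #Z =
      Nat.card (orbit G x₀) * (#Z * q * e) := by
  have hleft := sum_nFix_add_card_one hfix
  have hcompl : #(Zᶜ) + #Z = Fintype.card G := by
    rw [Finset.card_compl, Nat.sub_add_cancel (Finset.card_le_univ Z)]
  have hOsum := sum_nStab_orbit hZ x₀
  rw [sum_nFix, ← Finset.sum_add_sum_compl (orbit G x₀).toFinset,
    card_nFix_one hZ hfix hX x₀ hout, hU] at hleft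
  have hqm : Nat.card (orbit G x₀) * (#Z * (q - 1)) =
      Nat.card (orbit G x₀) * (#Z * (q - 2)) + Nat.card (orbit G x₀) * #Z := by
    rw [← mul_add]; congr 1
    rw [← Nat.mul_succ]; congr 1; omega
  omega

/-- The arithmetic of the two orbits. -/
theorem le_two_mul_of_orbit_dvd {z q e r M : ℕ} (hz : 0 < z) (he : 0 < e) (hr : 0 < r)
    (hq : 3 ≤ q) (hM : M * z = (1 + r * q) * (z * (q - 2)) + 2 * z)
    (hdvd : M * z ∣ (1 + r * q) * (z * q * e)) : q - 1 ≤ 2 * e := by
  set a := 1 + r * (q - 2) with ha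
  obtain ⟨q', rfl⟩ := Nat.exists_eq_add_of_le (show 2 ≤ q by omega)
  rw [Nat.add_sub_cancel_left] at hM ha
  have hM' : M = (2 + q') * a := by
    refine Nat.eq_of_mul_eq_mul_right hz (hM.trans ?_)
    rw [ha]; ring
  have h5 : a ∣ (1 + r * (2 + q')) * e := by
    refine Nat.dvd_of_mul_dvd_mul_left (show 0 < (2 + q') * z by positivity) ?_
    calc (2 + q') * z * a = M * z := by rw [hM']; ring
      _ ∣ (1 + r * (2 + q')) * (z * (2 + q') * e) := hdvd
      _ = (2 + q') * z * ((1 + r * (2 + q')) * e) := by ring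
  rw [show 1 + r * (2 + q') = a + 2 * r by rw [ha]; ring, add_mul, mul_assoc] at h5
  have h6 : a ∣ r * (2 * e) := by
    have := (Nat.dvd_add_right (dvd_mul_right a e)).mp h5
    rwa [mul_left_comm] at this
  have hcop : Nat.Coprime a r := by
    rw [ha, mul_comm, Nat.coprime_add_mul_right_left]
    exact Nat.coprime_one_left r
  refine le_trans ?_ (Nat.le_of_dvd (by omega) (hcop.dvd_of_dvd_mul_left h6))
  have : q' ≤ r * q' := Nat.le_mul_of_pos_left _ hr
  omega

end Orbit

section Bound

open MulAction Finset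

variable {G X : Type} [Group G] [Fintype G] [DecidableEq G] [MulAction G X] [Fintype X]
  [DecidableEq X]

/-- The counting data at a point `x₀`: the group fixes `Z` pointwise, every element outside `Z`
has one or two fixed points, and those with a single one fix in the orbit of `x₀`. The stabiliser
of `x₀` has `#Z * q * e` elements, of which `#Z * (q - 1)` outside `Z` fix no other point, and the
orbit has `1 + r * q` points. -/
structure OrbitData (Zs : Subgroup G) (Z : Finset G) (x₀ : X) (q e r : ℕ) : Prop where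
  /-- `Z` lists the elements of the subgroup `Zs`. -/
  mem_iff : ∀ g, g ∈ Z ↔ g ∈ Zs
  /-- The elements of `Z` fix every point. -/
  fixes : ∀ g ∈ Z, ∀ x : X, g • x = x
  /-- The other elements fix one or two points. -/
  few_fixed : ∀ g ∉ Z, nFix (X := X) g = 1 ∨ nFix (X := X) g = 2
  /-- The order of the stabiliser. -/
  card_stab : Nat.card (stabilizer G x₀) = #Z * q * e
  /-- The number of elements outside `Z` fixing only `x₀`. -/
  card_single : #{g ∈ Zᶜ | g • x₀ = x₀ ∧ nFix (X := X) g = 1} = #Z * (q - 1)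
  /-- A single fixed point lies in the orbit of `x₀`. -/
  single_mem : ∀ g ∉ Z, nFix (X := X) g = 1 → ∀ x : X, g • x = x → x ∈ orbit G x₀
  /-- The size of the orbit. -/
  card_orbit : Nat.card (orbit G x₀) = 1 + r * q

/-- **The torus is large.** In an action with these fixed point counts the torus part `e` of a
stabiliser satisfies `q - 1 ≤ 2 e`. -/
theorem orbit_bound {Zs : Subgroup G} {Z : Finset G} {x₀ : X} {q e r : ℕ}
    (h : OrbitData Zs Z x₀ q e r) (hr : 0 < r) (hq : 3 ≤ q) : q - 1 ≤ 2 * e := by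
  obtain ⟨hZs, hZ, hfix, hs, hU, hout, hm⟩ := h
  classical
  have hzpos : 0 < #Z := Finset.card_pos.mpr ⟨1, (hZs 1).mpr (one_mem Zs)⟩
  have hrq : 3 ≤ r * q := le_trans hq (Nat.le_mul_of_pos_left q hr)
  have hX : 2 < Fintype.card X := by
    have h1 : Nat.card (orbit G x₀) ≤ Fintype.card X := by
      rw [← Nat.card_eq_fintype_card]
      exact Nat.card_le_card_of_injective _ Subtype.val_injective
    omega
  have he0 : 0 < e := by
    have h1 : 0 < Nat.card (stabilizer G x₀) := Nat.card_pos
    rw [hs] at h1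
    exact Nat.pos_of_ne_zero fun h => by simp [h] at h1
  have hG := natCard_orbit_mul_stabilizer (G := G) (X := X)
  have hGq : Fintype.card G = Nat.card (orbit G x₀) * (#Z * q * e) := by rw [← hG x₀, hs]
  -- count the fixed points of the non-central elements
  have key := sum_compl_add hZ hfix hX x₀ (by omega) hU hout hGq
  rw [hm] at key hGq
  -- some point outside the orbit has a non-central stabiliser
  by_cases hnf : ∀ x ∈ (orbit G x₀).toFinsetᶜ, nStab Z x = 0
  · exfalso
    rw [Finset.sum_eq_zero hnf, zero_add] at key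
    have h3 : (1 + r * q) * (#Z * (q - 2)) + (1 + r * q) * (2 * #Z) ≤
        (1 + r * q) * (#Z * q * e) := by
      rw [← mul_add]
      refine Nat.mul_le_mul_left _ ?_
      calc #Z * (q - 2) + 2 * #Z = #Z * q := by
            rw [mul_comm 2 #Z, ← mul_add]; congr 1; omega
        _ ≤ #Z * q * e := Nat.le_mul_of_pos_right _ he0
    have h4 : 2 * #Z * 2 ≤ (1 + r * q) * (2 * #Z) := by
      rw [mul_comm (1 + r * q)]
      exact Nat.mul_le_mul_left _ (by omega)
    omega
  push Not at hnf
  obtain ⟨y, hyO, hy⟩ := hnf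
  have hy' : y ∉ orbit G x₀ := fun h => Finset.mem_compl.mp hyO (Set.mem_toFinset.mpr h)
  -- its orbit is then the whole complement, and its size divides the group order
  rw [sum_compl_eq_sum_orbit hZ hfix hX hy' (Nat.pos_of_ne_zero hy) (by omega)] at key
  have hy1 := sum_nStab_orbit hZ y
  refine le_two_mul_of_orbit_dvd hzpos he0 hr hq (M := Nat.card (orbit G y)) (by omega) ?_
  rw [← hGq, ← hG y]
  refine mul_dvd_mul_left _ ?_
  rw [show #Z = Nat.card Zs by
    rw [← Nat.card_eq_finsetCard]
    exact Nat.card_congr (Equiv.subtypeEquivRight hZs)]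
  exact Subgroup.card_dvd_of_le fun g hg => mem_stabilizer_iff.mpr (hZ g ((hZs g).mpr hg) y)

end Bound

end Fermat.GR.S56

end
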