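import Mathlib
import Fermat.Agent.GR.S56.Mat
import Fermat.Agent.GR.S56.Orbit

/-!
# The torus normalising a Sylow subgroup of a split group of two by two matrices

For a finite group of matrices of determinant one with split characteristic polynomials, moving the
line fixed by a nontrivial Sylow `p`-subgroup, the torus at this line is large.
-/

set_option autoImplicit false

noncomputable section

namespace Fermat.GR.S56

local notation "M2" R => Matrix (Fin 2) (Fin 2) R

variable {k : Type} [Field k]

/-- The upper unipotent matrix. -/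
def ux (x : k) : M2 k := !![1, x; 0, 1]

/-- `ux 0 = 1`. -/
theorem ux_zero : ux (0 : k) = 1 := Matrix.ext fun i j => by
  fin_cases i <;> fin_cases j <;> simp [ux]

/-- `x ↦ ux x` turns sums into products. -/
theorem ux_mul_ux (x y : k) : ux x * ux y = ux (x + y) := Matrix.ext fun i j => by
  fin_cases i <;> fin_cases j <;> simp [ux, Matrix.mul_apply, Fin.sum_univ_two, add_comm]

/-- `ux x ^ n = ux (n x)`. -/
theorem ux_pow (x : k) (n : ℕ) : ux x ^ n = ux (n * x) := by
  induction n with
  | zero => simp [ux_zero]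
  | succ n ih => rw [pow_succ, ih, ux_mul_ux]; push_cast; ring_nf

/-- `ux` is injective. -/
theorem ux_injective : Function.Injective (ux (k := k)) := fun x y h => by
  simpa [ux] using congrFun (congrFun h 0) 1

/-- An upper triangular matrix with both diagonal entries `ε = ±1` is `ε` times an upper
unipotent. -/
theorem eq_of_upper {g : M2 k} {ε : k} (h10 : g 1 0 = 0) (h00 : g 0 0 = ε) (h11 : g 1 1 = ε)
    (hε : ε * ε = 1) : g = ε • ux (ε * g 0 1) := Matrix.ext fun i j => by
  fin_cases i <;> fin_cases j <;> simp [ux, h10, h00, h11]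
  rw [← mul_assoc, hε, one_mul]

/-- A product of upper triangular matrices is upper triangular, with the product of the `(0, 0)`
entries. -/
theorem entry10_mul {g h : M2 k} (hg : g 1 0 = 0) (hh : h 1 0 = 0) :
    (g * h) 1 0 = 0 ∧ (g * h) 0 0 = g 0 0 * h 0 0 := by
  constructor <;> simp [Matrix.mul_apply, Fin.sum_univ_two, hg, hh]

variable [Finite k] {p : ℕ} [hp : Fact p.Prime] [CharP k p]

open scoped Classical

attribute [local instance] Fintype.ofFinite

namespace Torus

variable (P : Subgroup (M2 k)ˣ) (A : AddSubgroup k)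

omit [Finite k] in
/-- The action of `P` on vectors, as linear endomorphisms. -/
def toEnd : P →* Module.End k (Fin 2 → k) :=
  (Matrix.toLinAlgEquiv' : (M2 k) ≃ₐ[k] Module.End k (Fin 2 → k)).toMonoidHom.comp
    ((Units.coeHom (M2 k)).comp P.subtype)

/-- The action of `P` on vectors. -/
@[reducible] def vecAct : DistribMulAction P (Fin 2 → k) :=
  DistribMulAction.compHom (Fin 2 → k) (toEnd P)

attribute [local instance] vecAct

omit [Finite k] in
/-- The action is multiplication of a matrix and a vector. -/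
theorem smul_eq_mulVec (u : P) (v : Fin 2 → k) : u • v = Matrix.mulVec (u.1 : M2 k) v :=
  Matrix.toLinAlgEquiv'_apply _ _

omit [Finite k] in
/-- The fixed lines are the eigenlines. -/
theorem fix_mk_iff (u : P) (v : Fin 2 → k) (hv : v ≠ 0) :
    u • Projectivization.mk k v hv = Projectivization.mk k v hv ↔
      ∃ c : k, Matrix.mulVec (u.1 : M2 k) v = c • v := by
  refine (Projectivization.mk_eq_mk_iff' k _ _ _ _).trans ?_
  change (∃ a : k, a • v = u • v) ↔ _
  simp only [smul_eq_mulVec]
  exact ⟨fun ⟨c, hc⟩ => ⟨c, hc.symm⟩, fun ⟨c, hc⟩ => ⟨c, hc.symm⟩⟩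

omit [Finite k] in
/-- The first basis vector is nonzero. -/
theorem baseVec_ne_zero : (![1, 0] : (Fin 2 → k)) ≠ 0 := fun h => by simpa using congrFun h 0

/-- The line fixed by the upper unipotents. -/
def baseLine : Projectivization k (Fin 2 → k) := Projectivization.mk k ![1, 0] baseVec_ne_zero

omit [Finite k] in
/-- The stabiliser of the base line is the upper triangular part. -/
theorem baseLine_fix_iff (u : P) : u • baseLine = (baseLine (k := k)) ↔ (u.1 : M2 k) 1 0 = 0 := by
  rw [baseLine, fix_mk_iff]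
  constructor
  · rintro ⟨c, hc⟩
    simpa [Matrix.mulVec, dotProduct, Fin.sum_univ_two] using congrFun hc 1
  · intro h
    refine ⟨(u.1 : M2 k) 0 0, funext fun i => ?_⟩
    fin_cases i <;> simp [Matrix.mulVec, dotProduct, Fin.sum_univ_two, h]

omit [Finite k] in
/-- The scalar of an invertible scalar matrix is nonzero. -/
theorem scalar_ne_zero {u : (M2 k)ˣ} {c : k} {X : M2 k} (hc : (u : M2 k) = c • X) : c ≠ 0 :=
  fun h0 => by
    have := (Matrix.isUnit_iff_isUnit_det _).mp u.isUnit
    rw [hc, h0, zero_smul, Matrix.det_zero] at this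
    exact not_isUnit_zero this

/-- The scalar matrices in `P`. -/
def scalars : Subgroup P where
  carrier := {u | ∃ c : k, (u.1 : M2 k) = c • 1}
  mul_mem' := by
    rintro a b ⟨c, hc⟩ ⟨c', hc'⟩
    exact ⟨c * c', by
      rw [Subgroup.coe_mul, Units.val_mul, hc, hc', Matrix.smul_mul, one_mul, smul_smul]⟩
  one_mem' := ⟨1, by rw [OneMemClass.coe_one, Units.val_one, one_smul]⟩
  inv_mem' := by
    rintro a ⟨c, hc⟩
    refine ⟨c⁻¹, Units.inv_eq_of_mul_eq_one_right ?_⟩
    rw [hc, Matrix.smul_mul, one_mul, smul_smul, mul_inv_cancel₀ (scalar_ne_zero hc), one_smul]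

omit [Finite k] in
/-- Scalars fix every line. -/
theorem scalars_fix (u : P) (hu : u ∈ scalars P) (x : Projectivization k (Fin 2 → k)) :
    u • x = x := by
  obtain ⟨c, hc⟩ := hu
  induction x using Projectivization.ind with
  | h v hv => rw [fix_mk_iff]; exact ⟨c, by rw [hc, Matrix.smul_mulVec, Matrix.one_mulVec]⟩

variable (hdet : ∀ u ∈ P, (u : M2 k).det = 1)
  (hsplit : ∀ u ∈ P, ∃ a : k, a ^ 2 - (u : M2 k).trace * a + (u : M2 k).det = 0)

omit [Finite k] in
include hdet in
/-- A root of the characteristic polynomial of a non-scalar element has exactly one eigenline. -/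
theorem exists_eigenline {u : P} (hu : u ∉ scalars P) {c : k}
    (hc : c ^ 2 - (u.1 : M2 k).trace * c + 1 = 0) :
    ∃ v : Fin 2 → k, v ≠ 0 ∧ Matrix.mulVec (u.1 : M2 k) v = c • v ∧
      ∀ w, Matrix.mulVec (u.1 : M2 k) w = c • w → ∃ s : k, w = s • v := by
  set M := (u.1 : M2 k) with hM
  have hne : M - c • 1 ≠ 0 := fun h => hu ⟨c, sub_eq_zero.mp h⟩
  have hd : (M - c • (1 : M2 k)).det = 0 := by
    have hd1 := hdet u.1 u.2
    rw [← hM] at hd1
    simp [Matrix.det_fin_two, Matrix.trace_fin_two] at hc hd1 ⊢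
    linear_combination hc + hd1
  obtain ⟨v, hv, hv'⟩ := Matrix.exists_mulVec_eq_zero_iff.mpr hd
  refine ⟨v, hv, ?_, fun w hw => exists_eq_smul_of_mulVec_eq_zero hne hv hv' ?_⟩
  · rwa [Matrix.sub_mulVec, Matrix.smul_mulVec, Matrix.one_mulVec, sub_eq_zero] at hv'
  · rw [Matrix.sub_mulVec, Matrix.smul_mulVec, Matrix.one_mulVec, hw, sub_self]

include hdet hsplit in
/-- A non-scalar element fixes one or two lines, according to its discriminant. -/
theorem fix_cases {u : P} (hu : u ∉ scalars P) :
    (nFix (X := Projectivization k (Fin 2 → k)) u = 1 ∧ (u.1 : M2 k).trace ^ 2 = 4) ∨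
    (nFix (X := Projectivization k (Fin 2 → k)) u = 2 ∧ (u.1 : M2 k).trace ^ 2 ≠ 4) := by
  set M := (u.1 : M2 k) with hM
  obtain ⟨a, ha⟩ := hsplit u.1 u.2
  rw [hdet u.1 u.2] at ha
  set b := M.trace - a with hb
  obtain ⟨va, hva, hva', hva''⟩ := exists_eigenline P hdet hu ha
  obtain ⟨vb, hvb, hvb', hvb''⟩ :=
    exists_eigenline P hdet hu (c := b) (by rw [hb]; linear_combination ha)
  -- the fixed lines are the eigenlines of the two roots `a`, `b`
  have hset : ({x : Projectivization k (Fin 2 → k) | u • x = x} : Finset _) =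
      {Projectivization.mk k va hva, Projectivization.mk k vb hvb} := by
    ext x
    induction x using Projectivization.ind with
    | h v hv =>
      simp only [Finset.mem_filter, Finset.mem_univ, true_and, Finset.mem_insert,
        Finset.mem_singleton, fix_mk_iff, Projectivization.mk_eq_mk_iff']
      constructor
      · rintro ⟨c, hc⟩
        have hd : (M - c • (1 : M2 k)).det = 0 :=
          Matrix.exists_mulVec_eq_zero_iff.mp ⟨v, hv, by
            rw [Matrix.sub_mulVec, Matrix.smul_mulVec, Matrix.one_mulVec, hc, sub_self]⟩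
        have hd1 := hdet u.1 u.2
        rw [← hM] at hd1
        simp [Matrix.det_fin_two] at hd hd1
        have hab : (c - a) * (c - b) = 0 := by
          rw [hb]
          rw [Matrix.trace_fin_two] at ha ⊢
          linear_combination hd - hd1 - ha
        rcases mul_eq_zero.mp hab with h | h <;> rw [sub_eq_zero.mp h] at hc
        · obtain ⟨s, hs⟩ := hva'' v hc; exact Or.inl ⟨s, hs.symm⟩
        · obtain ⟨s, hs⟩ := hvb'' v hc; exact Or.inr ⟨s, hs.symm⟩
      · rintro (⟨s, rfl⟩ | ⟨s, rfl⟩)
        · exact ⟨a, by rw [Matrix.mulVec_smul, hva', smul_comm]⟩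
        · exact ⟨b, by rw [Matrix.mulVec_smul, hvb', smul_comm]⟩
  have hdisc : M.trace ^ 2 = 4 ↔ a = b := by
    rw [hb]
    constructor
    · intro h
      have : (2 * a - M.trace) ^ 2 = 0 := by linear_combination 4 * ha + h
      linear_combination pow_eq_zero_iff two_ne_zero |>.mp this
    · intro h
      linear_combination -4 * ha + (2 * a - M.trace) * h
  -- they coincide exactly when the discriminant vanishes
  by_cases hab : a = b
  · refine Or.inl ⟨?_, hdisc.mpr hab⟩
    obtain ⟨s, hs⟩ := hva'' vb (hab.symm ▸ hvb')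
    rw [nFix, hset, show Projectivization.mk k vb hvb = Projectivization.mk k va hva from
      (Projectivization.mk_eq_mk_iff' k _ _ _ _).mpr ⟨s, hs.symm⟩, Finset.pair_eq_singleton,
      Finset.card_singleton]
  · refine Or.inr ⟨?_, fun h => hab (hdisc.mp h)⟩
    rw [nFix, hset, Finset.card_pair]
    intro heq
    obtain ⟨s, hs⟩ := (Projectivization.mk_eq_mk_iff' k _ _ _ _).mp heq
    refine hab ?_
    have hs0 : (a - b) • va = 0 := by
      rw [sub_smul, ← hva', ← hs, Matrix.mulVec_smul, hvb', smul_comm, sub_self]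
    exact sub_eq_zero.mp ((smul_eq_zero.mp hs0).resolve_right hva)

include hdet hsplit in
/-- A non-scalar element fixes one line exactly when its discriminant vanishes. -/
theorem nFix_eq_one_iff {u : P} (hu : u ∉ scalars P) :
    nFix (X := Projectivization k (Fin 2 → k)) u = 1 ↔ (u.1 : M2 k).trace ^ 2 = 4 := by
  rcases fix_cases P hdet hsplit hu with ⟨h, h'⟩ | ⟨h, h'⟩ <;> simp [h, h']

variable (hA : ∀ x, x ∈ A ↔ ∃ u ∈ P, (u : M2 k) = ux x)

/-- A chosen upper unipotent of `P`. -/
def upperElt (x : A) : P :=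
  ⟨((hA x.1).mp x.2).choose, ((hA x.1).mp x.2).choose_spec.1⟩

omit [Finite k] in
/-- The matrix of the chosen upper unipotent. -/
theorem coe_upperElt (x : A) : ((upperElt P A hA x).1 : M2 k) = ux x.1 :=
  ((hA x.1).mp x.2).choose_spec.2

/-- A scalar times an upper unipotent. -/
def splitMap (cx : scalars P × A) : P := cx.1.1 * upperElt P A hA cx.2

omit [Finite k] in
/-- The matrix of a scalar times an upper unipotent. -/
theorem coe_splitMap (cx : scalars P × A) :
    ∃ c : k, (cx.1.1.1 : M2 k) = c • 1 ∧ c ≠ 0 ∧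
      ((splitMap P A hA cx).1 : M2 k) = c • ux cx.2.1 := by
  obtain ⟨c, hc⟩ := cx.1.2
  refine ⟨c, hc, scalar_ne_zero hc, ?_⟩
  rw [splitMap, Subgroup.coe_mul, Units.val_mul, hc, coe_upperElt, Matrix.smul_mul, one_mul]

omit [Finite k] in
/-- The decomposition into a scalar and an upper unipotent is unique. -/
theorem splitMap_injective : Function.Injective (splitMap P A hA) := by
  rintro ⟨a, x⟩ ⟨b, y⟩ h
  obtain ⟨c, hc, hc0, h1⟩ := coe_splitMap P A hA (a, x)
  obtain ⟨c', hc', -, h2⟩ := coe_splitMap P A hA (b, y)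
  have h' : c • ux x.1 = c' • ux y.1 := by rw [← h1, ← h2, h]
  have e00 : c = c' := by simpa [ux] using congrFun (congrFun h' 0) 0
  have e01 : c * x.1 = c' * y.1 := by simpa [ux] using congrFun (congrFun h' 0) 1
  subst e00
  exact Prod.ext (Subtype.ext (Subtype.ext (Units.ext (hc.trans hc'.symm))))
    (Subtype.ext (mul_left_cancel₀ hc0 e01))

omit [Finite k] in
include hdet in
/-- The products of a scalar and an upper unipotent fix the base line, with character one. -/
theorem splitMap_spec (cx : scalars P × A) :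
    ((splitMap P A hA cx).1 : M2 k) 1 0 = 0 ∧
      ((splitMap P A hA cx).1 : M2 k) 0 0 * ((splitMap P A hA cx).1 : M2 k) 0 0 = 1 ∧
      ((splitMap P A hA cx).1 : M2 k).trace ^ 2 = 4 := by
  obtain ⟨c, hc, -, h⟩ := coe_splitMap P A hA cx
  have hd := hdet cx.1.1.1 cx.1.1.2
  rw [hc, Matrix.det_smul, Matrix.det_one, mul_one, Fintype.card_fin] at hd
  rw [h]
  simp [ux, Matrix.trace_fin_two]
  exact ⟨by linear_combination hd, by linear_combination 4 * hd⟩

variable (h2 : (2 : k) ≠ 0)

omit [Finite k] in
include hA h2 hp in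
/-- If a scalar times a unipotent is in `P` then so is the unipotent. -/
theorem mem_of_eq_smul_ux {u : P} {ε x : k} (hε : ε * ε = 1) (hu : (u.1 : M2 k) = ε • ux x) :
    x ∈ A := by
  obtain ⟨n, hn⟩ : ∃ n : ℕ, p = 2 * n + 1 := by
    refine ⟨p / 2, ?_⟩
    rcases hp.out.eq_two_or_odd with h | h
    · exact absurd (by rw [← Nat.cast_two, ← h, CharP.cast_eq_zero]) h2
    · omega
  refine (hA x).mpr ⟨(u.1 * u.1) ^ (n + 1), pow_mem (mul_mem u.2 u.2) _, ?_⟩
  rw [Units.val_pow_eq_pow_val, Units.val_mul, hu, Matrix.smul_mul, Matrix.mul_smul, smul_smul, hε,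
    one_smul, ux_mul_ux, ux_pow]
  congr 1
  have hp0 : (2 * n + 1 : k) = 0 := by
    have := CharP.cast_eq_zero k p
    rw [hn] at this
    exact_mod_cast this
  push_cast
  linear_combination x * hp0

omit [Finite k] in
include hdet in
/-- Determinant one on the upper triangular part. -/
theorem diag_mul_eq_one {u : P} (h10 : (u.1 : M2 k) 1 0 = 0) :
    (u.1 : M2 k) 0 0 * (u.1 : M2 k) 1 1 = 1 := by
  have h := hdet u.1 u.2
  rwa [Matrix.det_fin_two, h10, mul_zero, sub_zero] at h

omit [Finite k] in
include hdet h2 hp in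
/-- The upper triangular elements of character one are scalars times upper unipotents. -/
theorem exists_splitMap {u : P} (h10 : (u.1 : M2 k) 1 0 = 0)
    (h00 : (u.1 : M2 k) 0 0 * (u.1 : M2 k) 0 0 = 1) : ∃ cx, splitMap P A hA cx = u := by
  set ε := (u.1 : M2 k) 0 0
  have hue : (u.1 : M2 k) = ε • ux (ε * (u.1 : M2 k) 0 1) := eq_of_upper h10 rfl
    (by linear_combination ε * diag_mul_eq_one P hdet h10 - (u.1 : M2 k) 1 1 * h00) h00
  set x : A := ⟨_, mem_of_eq_smul_ux (p := p) P A hA h2 h00 hue⟩
  let zz : P := u * (upperElt P A hA x)⁻¹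
  have hzz : (zz.1 : M2 k) = ε • 1 := by
    change ((u.1 * ((upperElt P A hA x).1)⁻¹ : (M2 k)ˣ) : M2 k) = _
    have h2' : (u.1 : M2 k) = ε • ((upperElt P A hA x).1 : M2 k) := by rw [coe_upperElt]; exact hue
    rw [Units.val_mul, h2', Matrix.smul_mul, ← Units.val_mul, mul_inv_cancel, Units.val_one]
  exact ⟨(⟨zz, ε, hzz⟩, x), inv_mul_cancel_right u _⟩

/-- The square of the diagonal entry on the stabiliser of the base line. -/
def stabChar : MulAction.stabilizer P (baseLine (k := k)) →* kˣ := MonoidHom.toHomUnits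
  { toFun := fun u => (u.1.1 : M2 k) 0 0 * (u.1.1 : M2 k) 0 0
    map_one' := by simp
    map_mul' := fun u v => by
      rw [Subgroup.coe_mul, Subgroup.coe_mul, Units.val_mul,
        (entry10_mul ((baseLine_fix_iff P u.1).mp u.2) ((baseLine_fix_iff P v.1).mp v.2)).2]
      ring }

omit [Finite k] in
/-- The value of the character. -/
theorem coe_stabChar (u : MulAction.stabilizer P (baseLine (k := k))) :
    ((stabChar P u : kˣ) : k) = (u.1.1 : M2 k) 0 0 * (u.1.1 : M2 k) 0 0 := rfl

omit [Finite k] in
include hdet hA h2 hp in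
/-- The order of the stabiliser of the base line. -/
theorem card_stabilizer :
    Nat.card (MulAction.stabilizer P (baseLine (k := k))) =
      Nat.card (scalars P) * Nat.card A * Nat.card (stabChar P).range := by
  let F : scalars P × A → (stabChar P).ker := fun cx =>
    ⟨⟨splitMap P A hA cx, (baseLine_fix_iff P _).mpr (splitMap_spec P A hdet hA cx).1⟩,
      MonoidHom.mem_ker.mpr (Units.ext (by
        rw [coe_stabChar, Units.val_one]; exact (splitMap_spec P A hdet hA cx).2.1))⟩
  have hF : Function.Bijective F := by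
    refine ⟨fun a b h => splitMap_injective P A hA (congrArg (fun u : (stabChar P).ker => u.1.1) h),
      fun u => ?_⟩
    obtain ⟨cx, hcx⟩ := exists_splitMap (p := p) P A hdet hA h2
      ((baseLine_fix_iff P _).mp u.1.2)
        (by rw [← coe_stabChar, MonoidHom.mem_ker.mp u.2, Units.val_one])
    exact ⟨cx, Subtype.ext (Subtype.ext hcx)⟩
  rw [Subgroup.card_eq_card_quotient_mul_card_subgroup (stabChar P).ker,
    Nat.card_congr (QuotientGroup.quotientKerEquivRange (stabChar P)).toEquiv,
    ← Nat.card_eq_of_bijective F hF, Nat.card_prod, mul_comm]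

include hdet hsplit hA h2 hp in
/-- The elements fixing the base line and no other. -/
theorem card_unipotent (Z : Finset P) (hZ : ∀ u, u ∈ Z ↔ u ∈ scalars P) :
    Finset.card ({u ∈ Zᶜ | u • baseLine = (baseLine (k := k)) ∧
      nFix (X := Projectivization k (Fin 2 → k)) u = 1} : Finset P) =
      Nat.card (scalars P) * (Nat.card A - 1) := by
  have h1 : ((Finset.univ : Finset (scalars P)) ×ˢ ({x : A | x ≠ 0} : Finset A)).card =
      Nat.card (scalars P) * (Nat.card A - 1) := by
    rw [Finset.card_product, Finset.card_univ, ← Nat.card_eq_fintype_card,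
      Finset.filter_ne' Finset.univ, Finset.card_erase_of_mem (Finset.mem_univ _), Finset.card_univ,
      ← Nat.card_eq_fintype_card]
  rw [← h1]
  -- `splitMap` is a bijection onto these elements
  refine (Finset.card_bij (fun cx _ => splitMap P A hA cx) (fun cx hcx => ?_)
    (fun a _ b _ hab => splitMap_injective P A hA hab) fun u hu => ?_).symm
  · simp only [Finset.mem_product, Finset.mem_univ, true_and, Finset.mem_filter] at hcx
    obtain ⟨s10, -, str⟩ := splitMap_spec P A hdet hA cx
    have hnz : splitMap P A hA cx ∉ scalars P := fun h => by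
      obtain ⟨c, -, hc0, hform⟩ := coe_splitMap P A hA cx
      obtain ⟨c', hc'⟩ := h
      have e01 := congrFun (congrFun (hform.symm.trans hc') 0) 1
      simp [ux] at e01
      exact e01.elim hc0 hcx
    rw [Finset.mem_filter, Finset.mem_compl, hZ, baseLine_fix_iff,
      nFix_eq_one_iff P hdet hsplit hnz]
    exact ⟨hnz, s10, str⟩
  · rw [Finset.mem_filter, Finset.mem_compl, hZ] at hu
    obtain ⟨hu1, hu2, hu3⟩ := hu
    rw [nFix_eq_one_iff P hdet hsplit hu1] at hu3
    rw [baseLine_fix_iff] at hu2
    have h11 := diag_mul_eq_one P hdet hu2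
    rw [Matrix.trace_fin_two] at hu3
    -- a single fixed point forces equal diagonal entries
    have h3 : ((u.1 : M2 k) 0 0 - (u.1 : M2 k) 1 1) ^ 2 = 0 := by linear_combination hu3 - 4 * h11
    rw [pow_eq_zero_iff two_ne_zero, sub_eq_zero] at h3
    obtain ⟨cx, hcx⟩ := exists_splitMap (p := p) P A hdet hA h2 hu2
      (by rw [← h11]; exact congrArg _ h3)
    refine ⟨cx, ?_, hcx⟩
    simp only [Finset.mem_product, Finset.mem_univ, true_and, Finset.mem_filter]
    intro hx0
    obtain ⟨c, -, -, hform⟩ := coe_splitMap P A hA cx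
    rw [hx0, ZeroMemClass.coe_zero, ux_zero, hcx] at hform
    exact hu1 ⟨c, hform⟩

omit [Finite k] hp in
include hdet in
/-- The square of an element with vanishing discriminant is unipotent of order `p`. -/
theorem sq_unipotent (h2 : (2 : k) ≠ 0) {u : P} (hu : u ∉ scalars P)
    (htr : (u.1 : M2 k).trace ^ 2 = 4) :
    ((u.1 : M2 k) * (u.1 : M2 k)) ^ p = 1 ∧ (u.1 : M2 k) * (u.1 : M2 k) ≠ 1 := by
  have : NeZero (2 : k) := ⟨h2⟩
  set M := (u.1 : M2 k) with hM
  have hY0 : sl M ≠ 0 := fun h0 => hu ⟨M.trace / 2, by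
    conv_lhs => rw [← hM, eq_sl_add M, h0, add_zero]⟩
  have hYd : (sl M).det = 0 := by
    rw [det_sl h2, hdet u.1 u.2, div_pow, htr, show (2 : k) ^ 2 = 4 by norm_num, div_self, sub_self]
    rw [show (4 : k) = 2 * 2 by norm_num]
    exact mul_ne_zero h2 h2
  -- the trace-free part squares to zero
  have hYY : sl M * sl M = 0 := by
    rw [mul_self_of_trace_zero (trace_sl h2 M), hYd, neg_zero, zero_smul]
  have h4 : (M.trace / 2) * (M.trace / 2) = 1 := by
    field_simp; linear_combination htr
  -- so `M * M = 1 + N` with `N ^ 2 = 0`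
  have hsq : M * M = 1 + M.trace • sl M := by
    conv_lhs => rw [eq_sl_add M]
    simp only [add_mul, mul_add, Matrix.smul_mul, Matrix.mul_smul, one_mul, mul_one, hYY,
      smul_smul, h4, one_smul, add_zero]
    rw [add_assoc, ← add_smul, add_halves]
  have htr0 : M.trace ≠ 0 := fun h0 => by
    rw [h0] at htr
    refine mul_ne_zero h2 h2 ?_
    linear_combination -htr
  set N := M.trace • sl M
  have hN2 : N * N = 0 := by rw [Matrix.smul_mul, Matrix.mul_smul, hYY, smul_zero, smul_zero]
  -- whose powers are linear in the exponent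
  have hpow : ∀ n : ℕ, (1 + N) ^ n = 1 + (n : k) • N := fun n => by
    induction n with
    | zero => simp
    | succ n ih =>
      rw [pow_succ, ih, mul_add, mul_one, add_mul, one_mul, Matrix.smul_mul, hN2, smul_zero,
        add_zero, Nat.cast_succ, add_smul, one_smul]
      abel
  exact ⟨by rw [hsq, hpow, CharP.cast_eq_zero, zero_smul, add_zero],
    fun e => smul_ne_zero htr0 hY0 (add_eq_left.mp (hsq.symm.trans e))⟩

omit hp in
include hdet hsplit h2 in
/-- The lines fixed by a single fixed line element lie in the orbit of the base line. -/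
theorem mem_orbit_of_fix
    (hsyl : ∀ u ∈ P, (u : M2 k) ^ p = 1 → (u : M2 k) ≠ 1 →
      ∃ h ∈ P, ∃ x, x ≠ 0 ∧ ((h⁻¹ * u * h : (M2 k)ˣ) : M2 k) = ux x)
    {u : P} (hu : u ∉ scalars P) (h1 : nFix (X := Projectivization k (Fin 2 → k)) u = 1)
    (x : Projectivization k (Fin 2 → k)) (hx : u • x = x) :
    x ∈ MulAction.orbit P (baseLine (k := k)) := by
  have htr := (nFix_eq_one_iff P hdet hsplit hu).mp h1
  obtain ⟨hp1, hne1⟩ := sq_unipotent (p := p) P hdet h2 hu htr
  obtain ⟨h, hh, y, hy, hconj⟩ := hsyl (u.1 * u.1) (mul_mem u.2 u.2)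
    (by rw [Units.val_mul]; exact hp1) (by rw [Units.val_mul]; exact hne1)
  refine ⟨⟨h, hh⟩, ?_⟩
  have huu : (u * u) • x = x := by rw [mul_smul, hx, hx]
  have hfix' : ((⟨h, hh⟩ : P)⁻¹ * (u * u) * ⟨h, hh⟩) • ((⟨h, hh⟩ : P)⁻¹ • x) =
      (⟨h, hh⟩ : P)⁻¹ • x := by
    rw [mul_smul, mul_smul, smul_inv_smul, huu]
  set w := (⟨h, hh⟩ : P)⁻¹ * (u * u) * ⟨h, hh⟩ with hw
  have hwv : (w.1 : M2 k) = ux y := hconj
  suffices hx' : (⟨h, hh⟩ : P)⁻¹ • x = baseLine by rw [← hx']; exact smul_inv_smul _ _
  generalize (⟨h, hh⟩ : P)⁻¹ • x = x' at hfix'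
  induction x' using Projectivization.ind with
  | h v hv =>
    obtain ⟨c, hc⟩ := (fix_mk_iff P w v hv).mp hfix'
    rw [hwv] at hc
    have c0 := congrFun hc 0
    have c1 := congrFun hc 1
    simp [ux, Matrix.mulVec, dotProduct, Fin.sum_univ_two] at c0 c1
    have hv1 : v 1 = 0 := by
      by_contra hne
      have hc1 : c = 1 := mul_right_cancel₀ hne (by linear_combination -c1)
      rw [hc1, one_mul] at c0
      exact mul_ne_zero hy hne (by linear_combination c0)
    rw [baseLine, Projectivization.mk_eq_mk_iff']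
    exact ⟨v 0, funext fun i => by fin_cases i <;> simp [hv1]⟩

omit [Finite k] in
/-- An affine vector is nonzero. -/
theorem affVec_ne_zero (s : k) : (![s, 1] : (Fin 2 → k)) ≠ 0 := fun h => by
  simpa using congrFun h 1

/-- The affine part of the orbit of the base line. -/
def affOrbit : Finset k :=
  {s : k | Projectivization.mk k ![s, 1] (affVec_ne_zero s) ∈ MulAction.orbit P baseLine}

/-- The orbit is the base line and its affine part. -/
theorem card_orbit :
    Nat.card (MulAction.orbit P (baseLine (k := k))) = 1 + (affOrbit P).card := by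
  rw [Nat.card_eq_fintype_card, ← Set.toFinset_card]
  have hins : (MulAction.orbit P baseLine).toFinset = insert baseLine
      ((affOrbit P).image fun s => Projectivization.mk k ![s, 1] (affVec_ne_zero s)) := by
    ext x
    simp only [Set.mem_toFinset, Finset.mem_insert, Finset.mem_image, affOrbit, Finset.mem_filter,
      Finset.mem_univ, true_and]
    constructor
    · intro hx
      induction x using Projectivization.ind with
      | h v hv =>
        by_cases hv1 : v 1 = 0
        · left
          rw [baseLine, Projectivization.mk_eq_mk_iff']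
          exact ⟨v 0, funext fun i => by fin_cases i <;> simp [hv1]⟩
        · right
          have heq : Projectivization.mk k ![v 0 / v 1, 1] (affVec_ne_zero _) =
              Projectivization.mk k v hv := by
            rw [Projectivization.mk_eq_mk_iff']
            exact ⟨(v 1)⁻¹, funext fun i => by fin_cases i <;> simp [hv1, div_eq_inv_mul]⟩
          exact ⟨_, heq.symm ▸ hx, heq⟩
    · rintro (rfl | ⟨s, hs, rfl⟩)
      · exact MulAction.mem_orbit_self _
      · exact hs
  -- the base line and the affine lines are distinct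
  rw [hins, Finset.card_insert_of_notMem, Finset.card_image_of_injective, add_comm]
  · intro s s' h
    obtain ⟨c, hc⟩ := (Projectivization.mk_eq_mk_iff' k _ _ _ _).mp h
    have c0 := congrFun hc 0
    have c1 := congrFun hc 1
    simp at c0 c1
    rw [c1, one_mul] at c0
    exact c0.symm
  · rw [Finset.mem_image]
    rintro ⟨s, -, hs⟩
    obtain ⟨c, hc⟩ := (Projectivization.mk_eq_mk_iff' k _ _ _ _).mp hs
    simpa using congrFun hc 1

include hA in
/-- The affine part of the orbit is stable under the translations by `A`. -/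
theorem add_mem_affOrbit (s : k) (hs : s ∈ affOrbit P) (x : A) : s + x.1 ∈ affOrbit P := by
  simp only [affOrbit, Finset.mem_filter, Finset.mem_univ, true_and] at hs ⊢
  obtain ⟨u, hu⟩ := hs
  refine ⟨upperElt P A hA x * u, ?_⟩
  simp only at hu
  change (upperElt P A hA x * u) • baseLine = _
  rw [mul_smul, hu]
  refine ((Projectivization.mk_eq_mk_iff' k _ _ _ _).mpr ⟨1, ?_⟩).symm
  change (1 : k) • (upperElt P A hA x • (![s, 1] : Fin 2 → k)) = ![s + x.1, 1]
  rw [one_smul, smul_eq_mulVec, coe_upperElt]
  funext i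
  fin_cases i <;> simp [ux, Matrix.mulVec, dotProduct, Fin.sum_univ_two]

omit [Finite k] in
/-- The order of a subgroup divides the size of a finite set stable under its translations. -/
theorem card_dvd_of_translate {M : Type} [AddCommGroup M] (B : AddSubgroup M) [Finite B]
    (S : Finset M) (htrans : ∀ s ∈ S, ∀ x : B, s + x.1 ∈ S) : Nat.card B ∣ S.card := by
  rw [Finset.card_eq_sum_card_image (QuotientAddGroup.mk (s := B)) S]
  refine Finset.dvd_sum fun c hc => dvd_of_eq ?_
  obtain ⟨s, hs, rfl⟩ := Finset.mem_image.mp hc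
  rw [Nat.card_eq_fintype_card, ← Finset.card_univ]
  refine Finset.card_bij (fun x _ => s + x.1) (fun x _ => ?_)
    (fun a _ b _ h => Subtype.ext (add_left_cancel h)) fun t ht => ?_
  · rw [Finset.mem_filter]
    exact ⟨htrans s hs x, QuotientAddGroup.mk_add_of_mem s x.2⟩
  · rw [Finset.mem_filter] at ht
    exact ⟨⟨-s + t, QuotientAddGroup.eq.mp ht.2.symm⟩, Finset.mem_univ _, add_neg_cancel_left _ _⟩

end Torus

attribute [local instance] Torus.vecAct

open Torus in
/-- **The torus is large.** Such a group of matrices has an upper triangular element whose squared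
upper left entry has order at least `(#A - 1) / 2`. -/
theorem exists_torus (h2 : (2 : k) ≠ 0) (P : Subgroup (M2 k)ˣ)
    (hdet : ∀ u ∈ P, (u : M2 k).det = 1)
    (hsplit : ∀ u ∈ P, ∃ a : k, a ^ 2 - (u : M2 k).trace * a + (u : M2 k).det = 0)
    (A : AddSubgroup k) (hA : ∀ x, x ∈ A ↔ ∃ u ∈ P, (u : M2 k) = ux x)
    (hsyl : ∀ u ∈ P, (u : M2 k) ^ p = 1 → (u : M2 k) ≠ 1 →
      ∃ h ∈ P, ∃ x, x ≠ 0 ∧ ((h⁻¹ * u * h : (M2 k)ˣ) : M2 k) = ux x)
    (hq : 3 ≤ Nat.card A) (hmove : ∃ u ∈ P, (u : M2 k) 1 0 ≠ 0) :
    ∃ u ∈ P, (u : M2 k) 1 0 = 0 ∧ Nat.card A - 1 ≤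
      2 * orderOf ((u : M2 k) 0 0 * (u : M2 k) 0 0) := by
  set Z : Finset P := {u : P | u ∈ scalars P} with hZdef
  have hZ : ∀ u, u ∈ Z ↔ u ∈ scalars P := fun u => by simp [hZdef]
  have hz : Nat.card (scalars P) = Z.card := by
    rw [← Nat.card_eq_finsetCard]
    exact (Nat.card_congr (Equiv.subtypeEquivRight hZ)).symm
  obtain ⟨r, hr⟩ : Nat.card A ∣ (affOrbit P).card :=
    card_dvd_of_translate A _ (add_mem_affOrbit P A hA)
  have hr0 : 0 < r := by
    by_contra hr0
    obtain rfl : r = 0 := by omega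
    have hm := card_orbit P
    rw [hr, mul_zero, add_zero] at hm
    obtain ⟨u, hu, hu10⟩ := hmove
    have : Subsingleton (MulAction.orbit P (baseLine (k := k))) :=
      (Nat.card_eq_one_iff_unique.mp hm).1
    exact hu10 ((baseLine_fix_iff P ⟨u, hu⟩).mp (congrArg Subtype.val (Subsingleton.elim
      (⟨_, MulAction.mem_orbit _ (⟨u, hu⟩ : P)⟩ : MulAction.orbit P (baseLine (k := k)))
      ⟨_, MulAction.mem_orbit_self _⟩)))
  -- count on the projective line: stabilisers and unipotents of the base line
  have hdata : OrbitData (scalars P) Z (baseLine (k := k)) (Nat.card A)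
      (Nat.card (stabChar P).range) r :=
    { mem_iff := hZ
      fixes := fun u hu => scalars_fix P u ((hZ u).mp hu)
      few_fixed := fun u hu =>
        (fix_cases P hdet hsplit (mt (hZ u).mpr hu)).imp And.left And.left
      card_stab := by rw [card_stabilizer (p := p) P A hdet hA h2, hz]
      card_single := by rw [card_unipotent (p := p) P A hdet hsplit hA h2 Z hZ, hz]
      single_mem := fun u hu h1 =>
        mem_orbit_of_fix (p := p) P hdet hsplit h2 hsyl (mt (hZ u).mpr hu) h1
      card_orbit := by rw [card_orbit, hr, mul_comm] }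
  have hbound := orbit_bound hdata hr0 hq
  -- a generator of the cyclic group of characters of the stabiliser
  obtain ⟨⟨t, u, rfl⟩, ht⟩ := IsCyclic.exists_generator (α := (stabChar P).range)
  refine ⟨u.1.1, u.1.2, (baseLine_fix_iff P u.1).mp u.2, ?_⟩
  have hord : orderOf (stabChar P u) = Nat.card (stabChar P).range := by
    rw [← orderOf_eq_card_of_forall_mem_zpowers ht, ← Subgroup.orderOf_coe]
  rw [← coe_stabChar, orderOf_units, hord]
  exact hbound

end Fermat.GR.S56

end
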