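import Mathlib
import Fermat.Agent.GR.RT.TWPrime
import Fermat.Agent.GR.S56.Torus
import Fermat.Agent.CFT.Density.Places
import Fermat.Agent.FLAT.Residual

/-!
# Crossed homomorphisms killing the joint kernel, for a big residual representation

They are coboundaries: this is reduced to a Sylow subgroup of the image, where the torus or an
element acting through a non-square of the cyclotomic character finishes.
-/

set_option autoImplicit false

noncomputable section

open Fermat.CFT ExtCitation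
open Fermat.GR.RT

namespace Fermat.GR.S56

local notation "ℚbar" => AlgebraicClosure ℚ
local notation "Γℚ" => (AlgebraicClosure ℚ ≃ₐ[ℚ] AlgebraicClosure ℚ)
local notation "M2" R => Matrix (Fin 2) (Fin 2) R

/-- Conjugation by an upper unipotent, entrywise. -/
theorem ux_conj {k : Type} [Field k] (x : k) (X : M2 k) :
    ux x * X * ux (-x) = !![X 0 0 + x * X 1 0, X 0 1 + x * X 1 1 - x * X 0 0 - x * x * X 1 0;
      X 1 0, X 1 1 - x * X 1 0] := by
  ext i j
  fin_cases i <;> fin_cases j <;> simp [ux, Matrix.mul_apply, Matrix.vecMul, dotProduct,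
    Fin.sum_univ_two] <;> ring

variable {p : ℕ} [hp : Fact p.Prime] {k : Type} [Field k] [Algebra (ZMod p) k] {r : Γℚ →* M2 k}
  (hr : IsBig r)
  (hdet : ∀ σ, (r σ).det = algebraMap (ZMod p) k ((cycloChar p σ : (ZMod p)ˣ) : ZMod p))
  {n : ℕ} {ζ : ℚbar} (hζ : IsPrimitiveRoot ζ (p ^ n)) (hn : 1 ≤ n)

include hdet hn in
/-- Where the `p ^ n`-th roots of unity are fixed the residual determinant is `1`. -/
theorem det_eq_one {σ : Γℚ} (h : σ ∈ (rootAct hζ).ker) : (r σ).det = 1 := by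
  rw [hdet, cycloChar_eq_one hζ hn h, Units.val_one, map_one]

include hn in
/-- Where the `p ^ n`-th roots of unity are fixed the twisted adjoint action is conjugation by `r
σ`. -/
theorem coe_adTw_ker {σ : Γℚ} (h : σ ∈ (rootAct hζ).ker) (X : adZero p k) :
    ((adTw p r σ X : adZero p k) : M2 k) = r σ * X.1 * r σ⁻¹ := by
  rw [coe_adTw, cycloChar_eq_one hζ hn h, Units.val_one, one_smul]

include hr hdet hn in
/-- Some element of the kernel of the roots of unity has distinct eigenvalues. -/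
theorem exists_regular : ∃ σ, rootAct hζ σ = 1 ∧ (r σ).trace ^ 2 ≠ 4 := by
  by_contra hcon
  push Not at hcon
  have h2 := hr.two_ne
  have hd : ∀ σ, rootAct hζ σ = 1 → (r σ).det = 1 := fun σ hσ => det_eq_one hdet hζ hn hσ
  have hYd : ∀ σ, rootAct hζ σ = 1 → (sl (r σ)).det = 0 := fun σ hσ => by
    rw [det_sl h2, hd σ hσ]; field_simp; linear_combination -(hcon σ hσ)
  have hnorm : ∀ g σ, rootAct hζ σ = 1 → rootAct hζ (g * σ * g⁻¹) = 1 := fun g σ hσ => by
    rw [map_mul, map_mul, hσ, mul_one, map_inv, mul_inv_cancel]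
  have hslconj : ∀ g σ, sl (r (g * σ * g⁻¹)) = r g * sl (r σ) * r g⁻¹ := fun g σ => by
    simp only [sl, map_mul, mul_sub, sub_mul, Matrix.mul_smul, Matrix.smul_mul, mul_one,
      hom_mul_inv, trace_conj_inv]
  -- if the kernel acts by scalars, a non-scalar `sl (r g)` would be semi-invariant
  by_cases hall : ∀ σ, rootAct hζ σ = 1 → sl (r σ) = 0
  · obtain ⟨g, hg⟩ : ∃ g, sl (r g) ≠ 0 := by
      by_contra hsc
      push Not at hsc
      refine hr.noEig ⊤ (Or.inl rfl) ![1, 0] (fun h0 => by simpa using congrFun h0 0) fun g _ =>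
        ⟨(r g).trace / 2, ?_⟩
      conv_lhs => rw [eq_sl_add (r g), hsc g, add_zero]
      rw [Matrix.smul_mulVec, Matrix.one_mulVec]
    refine hr.false_of_semiInvariant hg (trace_sl h2 _) fun h => ?_
    have hcom : rootAct hζ (h * g * h⁻¹ * g⁻¹) = 1 := by
      simp only [map_mul, map_inv]
      rw [mul_comm (rootAct hζ h), mul_inv_cancel_right, mul_inv_cancel]
    set c := (r (h * g * h⁻¹ * g⁻¹)).trace / 2
    have hc : r (h * g * h⁻¹) = c • r g := by
      have h1 : r (h * g * h⁻¹ * g⁻¹) = c • (1 : M2 k) := by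
        conv_lhs => rw [eq_sl_add (r (h * g * h⁻¹ * g⁻¹)), hall _ hcom, add_zero]
      rw [← one_mul (r g), ← Matrix.smul_mul, ← h1, ← map_mul, inv_mul_cancel_right]
    refine ⟨c, ?_⟩
    have h2' : r h * sl (r g) * r h⁻¹ = c • sl (r g) := by
      rw [← hslconj, hc]
      simp only [sl, Matrix.trace_smul, smul_eq_mul, smul_sub, smul_smul, mul_div_assoc]
    rw [← Matrix.smul_mul, ← h2', mul_assoc _ (r h⁻¹), hom_inv_mul, mul_one]
  push Not at hall
  obtain ⟨σ₀, hσ₀, hne⟩ := hall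
  -- otherwise the kernel has nilpotent trace-zero parts, and one of them is semi-invariant
  refine hr.false_of_semiInvariant hne (trace_sl h2 _) fun g => ?_
  set τ := g * σ₀ * g⁻¹
  have hτ : rootAct hζ τ = 1 := hnorm g σ₀ hσ₀
  set a := (r σ₀).trace / 2
  set b := (r τ).trace / 2
  set Y := sl (r σ₀)
  set Y' := sl (r τ)
  set s := (Y * Y').trace
  have hYY : Y * Y = 0 := by
    rw [mul_self_of_trace_zero (trace_sl h2 _), hYd σ₀ hσ₀, neg_zero, zero_smul]
  have hsq : ∀ σ, rootAct hζ σ = 1 → ((r σ).trace / 2) * ((r σ).trace / 2) = 1 := fun σ hσ => by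
    field_simp; linear_combination hcon σ hσ
  have ha : a * a = 1 := hsq σ₀ hσ₀
  have hb : b * b = 1 := hsq τ hτ
  -- the traces of `σ₀ τ` and `σ₀² τ` force `tr (Y Y') = 0`
  have e1 : (r (σ₀ * τ)).trace = 2 * (a * b) + s := by
    rw [map_mul]
    conv_lhs => rw [eq_sl_add (r σ₀), eq_sl_add (r τ)]
    simp only [add_mul, mul_add, Matrix.smul_mul, Matrix.mul_smul, one_mul, mul_one,
      Matrix.trace_add, Matrix.trace_smul, Matrix.trace_one, Fintype.card_fin, Nat.cast_ofNat,
      trace_sl h2, smul_eq_mul, mul_zero, add_zero]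
    ring
  have e2 : (r (σ₀ * σ₀ * τ)).trace = 2 * b + 2 * a * s := by
    rw [map_mul, map_mul]
    conv_lhs => rw [eq_sl_add (r σ₀), eq_sl_add (r τ)]
    rw [show sl (r σ₀) = Y from rfl, show sl (r τ) = Y' from rfl]
    simp only [add_mul, mul_add, Matrix.smul_mul, Matrix.mul_smul, one_mul, mul_one, hYY,
        smul_smul, add_zero, Matrix.trace_add, Matrix.trace_smul, Matrix.trace_one,
      Fintype.card_fin, Nat.cast_ofNat, smul_eq_mul, mul_zero,
      show Y.trace = 0 from trace_sl h2 _, show Y'.trace = 0 from trace_sl h2 _]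
    linear_combination (2 * b) * ha
  have f1 := hcon (σ₀ * τ) (by rw [map_mul, hσ₀, hτ, one_mul])
  have f2 := hcon (σ₀ * σ₀ * τ) (by rw [map_mul, map_mul, hσ₀, hτ, one_mul, one_mul])
  rw [e1] at f1
  rw [e2] at f2
  have g1 : s * (4 * (a * b) + s) = 0 := by
    linear_combination f1 - 4 * (b * b) * ha - 4 * hb
  have g2 : s * (2 * (a * b) + s) = 0 := by
    refine mul_left_cancel₀ (mul_ne_zero h2 h2) ?_
    linear_combination f2 - 4 * hb - 4 * s ^ 2 * ha
  have g3 : s * (2 * (a * b)) = 0 := by linear_combination g1 - g2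
  have hs : s = 0 := (mul_eq_zero.mp g3).resolve_right (by
    refine mul_ne_zero h2 (mul_ne_zero ?_ ?_) <;> intro h0
    · rw [h0, zero_mul] at ha; exact zero_ne_one ha
    · rw [h0, zero_mul] at hb; exact zero_ne_one hb)
  obtain ⟨c, hc⟩ := exists_eq_smul_of_isotropic hne (trace_sl h2 _) (trace_sl h2 _) (hYd σ₀ hσ₀)
    (hYd τ hτ) hs
  refine ⟨c, ?_⟩
  rw [← Matrix.smul_mul, ← hc, hslconj g σ₀, mul_assoc _ (r g⁻¹), hom_inv_mul, mul_one]

include hr hdet hn in
/-- The kernel of the roots of unity fixes no vector of the twist. -/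
theorem eq_zero_of_fixed (X : adZero p k) (hX : ∀ σ ∈ (rootAct hζ).ker, adTw p r σ X = X) :
    X = 0 := by
  obtain ⟨σ₀, hσ₀, hne⟩ := exists_regular hr hdet hζ hn
  by_contra hX0
  have hX0' : X.1 ≠ 0 := fun h => hX0 (Subtype.ext h)
  have hY0 : sl (r σ₀) ≠ 0 := fun h => hne (by
    have hd := det_eq_one hdet hζ hn hσ₀
    have h' := det_sl hr.two_ne (r σ₀)
    rw [h, hd, Matrix.det_zero] at h'
    have h2 := hr.two_ne
    field_simp at h'
    linear_combination h')
  -- trace-zero matrices commuting with `r σ₀` form a line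
  have hcomm : ∀ Z : M2 k, r σ₀ * Z * r σ₀⁻¹ = Z → Z.trace = 0 → ∃ c : k, Z = c • sl (r σ₀) := by
    intro Z hZ tZ
    refine exists_eq_smul_of_comm hr.two_ne hY0 (trace_sl hr.two_ne _) tZ ?_
    have h1 : r σ₀ * Z = Z * r σ₀ := by
      conv_rhs => rw [← hZ, mul_assoc, hom_inv_mul, mul_one]
    simp only [sl, sub_mul, mul_sub, Matrix.smul_mul, Matrix.mul_smul, one_mul, mul_one, h1]
  have hfix : ∀ σ ∈ (rootAct hζ).ker, r σ * X.1 * r σ⁻¹ = X.1 := fun σ hσ => by
    rw [← coe_adTw_ker hζ hn hσ, hX σ hσ]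
  -- `X` is on it
  obtain ⟨c₀, hc₀⟩ := hcomm X.1 (hfix σ₀ hσ₀) X.2
  have hc₀' : c₀ ≠ 0 := fun h => hX0' (by rw [hc₀, h, zero_smul])
  refine hr.false_of_semiInvariant hX0' X.2 fun g => ?_
  -- so is each conjugate, so `X` spans a stable line
  obtain ⟨c, hc⟩ := hcomm (r g * X.1 * r g⁻¹) (by
    have h1 := hfix (g⁻¹ * σ₀ * g) (by
      simpa using Subgroup.Normal.conj_mem (inferInstance : (rootAct hζ).ker.Normal) σ₀ hσ₀ g⁻¹)
    rw [show (g⁻¹ * σ₀ * g)⁻¹ = g⁻¹ * σ₀⁻¹ * g by group, map_mul, map_mul, map_mul, map_mul] at h1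
    have h2 := congrArg (fun Z : M2 k => r g * Z * r g⁻¹) h1
    simp only [← mul_assoc] at h2
    simp only [hom_mul_inv, one_mul] at h2
    simp only [mul_assoc, hom_mul_inv, mul_one] at h2 ⊢
    exact h2) (by rw [trace_conj_inv]; exact X.2)
  refine ⟨c / c₀, ?_⟩
  have h1 : r g * X.1 * r g⁻¹ = (c / c₀) • X.1 := by
    rw [hc, hc₀, smul_smul, div_mul_cancel₀ _ hc₀']
  rw [← Matrix.smul_mul, ← h1, mul_assoc _ (r g⁻¹), hom_inv_mul, mul_one]

/-- Changing a crossed homomorphism by a coboundary. -/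
theorem sub_coboundary_mul {G M : Type} [Group G] [AddCommGroup M] [Module (ZMod p) M]
    (ρ : Representation (ZMod p) G M) {z : G → M} (hz : ∀ g h, z (g * h) = ρ g (z h) + z g) (m : M)
    (g h : G) : z (g * h) - (ρ (g * h) m - m) = ρ g (z h - (ρ h m - m)) + (z g - (ρ g m - m)) := by
  rw [hz, map_mul, Module.End.mul_apply, map_sub, map_sub]
  abel

omit hp in
/-- The inverse of an element mapped to an upper unipotent. -/
theorem map_inv_ux {G : Type} [Group G] (r : G →* M2 k) {x : G} {a : k} (h : r x = ux a) :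
    r x⁻¹ = ux (-a) :=
  left_inv_eq_right_inv (hom_inv_mul r x) (by rw [h, ux_mul_ux, add_neg_cancel, ux_zero])

omit hp in
/-- The parameters of the upper unipotents in the image of a subgroup. -/
def upperVals {G : Type} [Group G] (r : G →* M2 k) (H : Subgroup G) : AddSubgroup k where
  carrier := {a | ∃ x ∈ H, r x = ux a}
  add_mem' := by
    rintro a b ⟨x, hx, hxa⟩ ⟨y, hy, hyb⟩
    exact ⟨x * y, mul_mem hx hy, by rw [map_mul, hxa, hyb, ux_mul_ux]⟩
  zero_mem' := ⟨1, one_mem H, by rw [map_one, ux_zero]⟩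
  neg_mem' := by
    rintro a ⟨x, hx, hxa⟩
    exact ⟨x⁻¹, inv_mem hx, map_inv_ux r hxa⟩

omit hp in
/-- The image of a subgroup, as a group of units. -/
def imUnits {G : Type} [Group G] (r : G →* M2 k) (H : Subgroup G) : Subgroup (M2 k)ˣ :=
  (r.toHomUnits.comp H.subtype).range

omit hp in
/-- The parameters of the upper unipotents of the image. -/
theorem mem_upperVals_iff {G : Type} [Group G] (r : G →* M2 k) (H : Subgroup G) (a : k) :
    a ∈ upperVals r H ↔ ∃ u ∈ imUnits r H, (u : M2 k) = ux a := by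
  constructor
  · rintro ⟨x, hx, hxa⟩
    exact ⟨_, ⟨⟨x, hx⟩, rfl⟩, hxa⟩
  · rintro ⟨u, ⟨x, rfl⟩, hua⟩
    exact ⟨x.1, x.2, hua⟩

omit hp in
/-- The upper unipotent subgroup of a group of matrices. -/
def upperSub (P : Subgroup (M2 k)ˣ) : Subgroup P where
  carrier := {u | ∃ a : k, (u.1 : M2 k) = ux a}
  mul_mem' := by
    rintro u v ⟨a, ha⟩ ⟨b, hb⟩
    exact ⟨a + b, by rw [Subgroup.coe_mul, Units.val_mul, ha, hb, ux_mul_ux]⟩
  one_mem' := ⟨0, by rw [OneMemClass.coe_one, Units.val_one, ux_zero]⟩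
  inv_mem' := by
    rintro u ⟨a, ha⟩
    refine ⟨-a, Units.inv_eq_of_mul_eq_one_right ?_⟩
    rw [ha, ux_mul_ux, add_neg_cancel, ux_zero]

omit hp in
/-- The upper unipotents are counted by their parameters. -/
theorem card_upperSub {G : Type} [Group G] (r : G →* M2 k) (H : Subgroup G) :
    Nat.card (upperVals r H) = Nat.card (upperSub (imUnits r H)) := by
  choose uA huA huA' using fun a : upperVals r H => (mem_upperVals_iff r H a.1).mp a.2
  refine Nat.card_eq_of_bijective
    (fun a => (⟨⟨uA a, huA a⟩, a.1, huA' a⟩ : upperSub (imUnits r H)))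
      ⟨fun a b h => ?_, fun u => ?_⟩
  · have := congrArg (fun v : upperSub (imUnits r H) => (v.1.1 : M2 k)) h
    simp only [huA'] at this
    exact Subtype.ext (ux_injective this)
  · obtain ⟨a, ha⟩ := u.2
    have haA : a ∈ upperVals r H := (mem_upperVals_iff r H a).mpr ⟨u.1.1, u.1.2, ha⟩
    exact ⟨⟨a, haA⟩, Subtype.ext (Subtype.ext (Units.ext ((huA' ⟨a, haA⟩).trans ha.symm)))⟩

omit [Algebra (ZMod p) k] in
/-- Matrices of order a power of the characteristic have trace two. -/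
theorem trace_eq_two_of_pow [CharP k p] {v : M2 k} {a : ℕ} (h : v ^ p ^ a = 1) : v.trace = 2 := by
  have h' : (v - 1) ^ p ^ a = 0 := by
    rw [sub_pow_char_pow_of_commute p _ (Commute.one_right _), one_pow, h, sub_self]
  have h'' := (Matrix.isNilpotent_trace_of_isNilpotent ⟨_, h'⟩).eq_zero
  rwa [Matrix.trace_sub, Matrix.trace_one, Fintype.card_fin, Nat.cast_two, sub_eq_zero] at h''

omit hp [Algebra (ZMod p) k] in
/-- The upper unipotents form a `p`-group. -/
theorem isPGroup_upperSub [CharP k p] (P : Subgroup (M2 k)ˣ) : IsPGroup p (upperSub P) :=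
  fun u => ⟨1, by
    obtain ⟨a, ha⟩ := u.2
    refine Subtype.ext (Subtype.ext (Units.ext ?_))
    simp only [SubmonoidClass.coe_pow, Units.val_pow_eq_pow_val, pow_one, ha, ux_pow,
      CharP.cast_eq_zero, zero_mul, ux_zero, OneMemClass.coe_one, Units.val_one]⟩

omit [Algebra (ZMod p) k] in
/-- In determinant one and containing the standard unipotent, they form a Sylow subgroup. -/
theorem exists_sylow_upperSub [CharP k p] [Finite k] (P : Subgroup (M2 k)ˣ)
    (hP : ∀ u ∈ P, (u : M2 k).det = 1) (h1 : ∃ u ∈ P, (u : M2 k) = ux 1) :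
    ∃ Sy : Sylow p P, (Sy : Subgroup P) = upperSub P := by
  have : Finite (M2 k) := inferInstanceAs (Finite (Fin 2 → Fin 2 → k))
  obtain ⟨e₁, he₁, he1⟩ := h1
  obtain ⟨Sy, hSy⟩ := (isPGroup_upperSub (p := p) P).exists_le_sylow
  refine ⟨Sy, le_antisymm (fun u hu => ?_) hSy⟩
  -- elements of `p`-power order have trace two, also after multiplying by `ux 1`
  have key : ∀ v ∈ (Sy : Subgroup P), (v.1 : M2 k).trace = 2 := fun v hv => by
    obtain ⟨a, ha⟩ := Sy.isPGroup' ⟨v, hv⟩
    refine trace_eq_two_of_pow (p := p) (a := a) ?_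
    simpa using congrArg (fun w : (Sy : Subgroup P) => (w.1.1 : M2 k)) ha
  have t1 := key u hu
  have t2 := key (u * ⟨e₁, he₁⟩) (mul_mem hu (hSy ⟨1, he1⟩))
  rw [Subgroup.coe_mul, Units.val_mul, he1] at t2
  have d1 := hP u.1 u.2
  set M := (u.1 : M2 k)
  simp [ux, Matrix.trace_fin_two, Matrix.mul_apply, Fin.sum_univ_two] at t2
  rw [Matrix.trace_fin_two] at t1
  have h10 : M 1 0 = 0 := by linear_combination t2 - t1
  rw [Matrix.det_fin_two, h10, mul_zero, sub_zero] at d1
  have h00 : M 0 0 = 1 := by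
    have : (M 0 0 - 1) ^ 2 = 0 := by linear_combination M 0 0 * t1 - d1
    exact sub_eq_zero.mp (pow_eq_zero_iff two_ne_zero |>.mp this)
  exact ⟨M 0 1, Matrix.ext fun i j => by
    fin_cases i <;> fin_cases j <;> simp [ux, M]
    · exact h00
    · exact h10
    · linear_combination t1 - h00⟩

omit [Algebra (ZMod p) k] in
/-- An element of order `p` is conjugate to an upper unipotent. -/
theorem exists_conj_upper [CharP k p] [Finite k] (P : Subgroup (M2 k)ˣ)
    (hP : ∀ u ∈ P, (u : M2 k).det = 1) (h1 : ∃ u ∈ P, (u : M2 k) = ux 1) (u : P)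
    (hup : (u.1 : M2 k) ^ p = 1) (hu1 : (u.1 : M2 k) ≠ 1) :
    ∃ w : P, ∃ a : k, a ≠ 0 ∧ ((w * u * w⁻¹).1 : M2 k) = ux a := by
  have : Finite (M2 k) := inferInstanceAs (Finite (Fin 2 → Fin 2 → k))
  obtain ⟨Sy, hSy⟩ := exists_sylow_upperSub (p := p) P hP h1
  have hu : IsPGroup p (Subgroup.zpowers u) := by
    refine IsPGroup.of_card (n := 1) ?_
    rw [pow_one, Nat.card_zpowers]
    exact orderOf_eq_prime (Subtype.ext (Units.ext (by
      rw [SubmonoidClass.coe_pow, Units.val_pow_eq_pow_val]; exact hup)))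
      fun h => hu1 (congrArg (fun v : P => (v.1 : M2 k)) h)
  obtain ⟨V, hV⟩ := hu.exists_le_sylow
  obtain ⟨w, hw⟩ := MulAction.exists_smul_eq P V Sy
  have hmem : w * u * w⁻¹ ∈ upperSub P := hSy ▸ (by
    rw [← hw, Sylow.coe_subgroup_smul, Subgroup.mem_pointwise_smul_iff_inv_smul_mem]
    have : (MulAut.conj w)⁻¹ • (w * u * w⁻¹) = u := by
      rw [MulAut.smul_def, MulAut.inv_apply, ← MulAut.conj_apply, MulEquiv.symm_apply_apply]
    rw [this]
    exact hV (Subgroup.mem_zpowers u))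
  obtain ⟨a, ha⟩ := hmem
  refine ⟨w, a, fun h0 => hu1 ?_, ha⟩
  rw [h0, ux_zero] at ha
  have h : w * u * w⁻¹ = 1 := Subtype.ext (Units.ext ha)
  rw [mul_inv_eq_one, mul_eq_left] at h
  exact congrArg (fun v : P => (v.1 : M2 k)) h

omit [Algebra (ZMod p) k] in
/-- An additive subgroup of order `p` containing one is the prime field. -/
theorem exists_natCast_eq [CharP k p] (A : AddSubgroup k) (h1 : (1 : k) ∈ A)
    (hq : Nat.card A = p) (a : k) (ha : a ∈ A) : ∃ m : ℕ, a = (m : k) := by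
  have : Finite A := Nat.finite_of_card_ne_zero (by rw [hq]; exact hp.out.ne_zero)
  have : Fintype A := Fintype.ofFinite A
  have hbij : Function.Bijective fun i : Fin p => (⟨((i : ℕ) : k), by
      simpa using AddSubgroup.nsmul_mem A h1 (i : ℕ)⟩ : A) := by
    refine (Fintype.bijective_iff_injective_and_card _).mpr ⟨fun i j h => Fin.ext ?_, by
      rw [Fintype.card_fin, ← Nat.card_eq_fintype_card, hq]⟩
    have h' : ((i : ℕ) : k) = ((j : ℕ) : k) := congrArg Subtype.val h
    rw [CharP.natCast_eq_natCast k p, Nat.ModEq, Nat.mod_eq_of_lt i.2, Nat.mod_eq_of_lt j.2] at h'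
    exact h'
  obtain ⟨i, hi⟩ := hbij.2 ⟨a, ha⟩
  exact ⟨i, (congrArg Subtype.val hi).symm⟩

omit [Algebra (ZMod p) k] in
/-- An additive map on a subgroup commuting with a multiplier of large order is linear. -/
theorem addHom_eq_mul (A : AddSubgroup k) [Finite A] {f : ℕ} (hA : Nat.card A = p ^ f) (hp3 : 3 ≤ p)
    (h1 : (1 : k) ∈ A) {t : k} (ht0 : t ≠ 0) (htA : ∀ x : A, t * x.1 ∈ A)
    (hord : Nat.card A - 1 ≤ 2 * orderOf t) (φ : A →+ k)
    (hφ : ∀ x : A, φ ⟨t * x.1, htA x⟩ = t * φ x) (x : A) : φ x = x.1 * φ ⟨1, h1⟩ := by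
  -- subtract the linear map with the same value at one
  let γ : A →+ k := φ - (AddMonoidHom.mulRight (φ ⟨1, h1⟩)).comp A.subtype
  have hγ : ∀ x : A, γ x = φ x - x.1 * φ ⟨1, h1⟩ := fun x => rfl
  suffices h : γ.ker = ⊤ by
    have := hγ x ▸ AddMonoidHom.mem_ker.mp (h ▸ AddSubgroup.mem_top x : x ∈ γ.ker)
    exact sub_eq_zero.mp this
  -- the difference kills the powers of `t`
  have hpow : ∀ i : ℕ, ∃ h : t ^ i ∈ A, (⟨t ^ i, h⟩ : A) ∈ γ.ker := by
    intro i
    induction i with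
    | zero =>
      refine ⟨by rw [pow_zero]; exact h1, AddMonoidHom.mem_ker.mpr ?_⟩
      rw [hγ, show (⟨t ^ 0, _⟩ : A) = ⟨1, h1⟩ from Subtype.ext (pow_zero t)]
      simp
    | succ i ih =>
      obtain ⟨hi, hi'⟩ := ih
      have hm : t ^ (i + 1) ∈ A := by rw [pow_succ']; exact htA ⟨_, hi⟩
      refine ⟨hm, AddMonoidHom.mem_ker.mpr ?_⟩
      rw [hγ, show (⟨t ^ (i + 1), hm⟩ : A) = ⟨t * t ^ i, htA ⟨_, hi⟩⟩ from Subtype.ext
        (pow_succ' t i), hφ ⟨_, hi⟩]
      rw [AddMonoidHom.mem_ker, hγ] at hi'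
      simp only at hi' ⊢
      linear_combination t * hi'
  choose hti htk using hpow
  -- so its kernel has more than a third of the elements
  have hcardS : orderOf t + 1 ≤ Nat.card γ.ker := by
    let F : Option (Fin (orderOf t)) → γ.ker := fun o => o.elim 0 fun i => ⟨_, htk i.1⟩
    have hF : Function.Injective F := by
      rintro (_ | i) (_ | j) h
      · rfl
      · exact absurd (congrArg (fun v : γ.ker => v.1.1) h).symm (pow_ne_zero _ ht0)
      · exact absurd (congrArg (fun v : γ.ker => v.1.1) h) (pow_ne_zero _ ht0)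
      · rw [pow_injOn_Iio_orderOf i.2 j.2 (congrArg (fun v : γ.ker => v.1.1) h) |> Fin.ext]
    simpa [Nat.card_eq_fintype_card] using Nat.card_le_card_of_injective F hF
  -- hence has index one, the index being a power of `p`
  have hlag := AddSubgroup.card_mul_index γ.ker
  obtain ⟨j, -, hj⟩ := (Nat.dvd_prime_pow hp.out).mp (hA ▸ AddSubgroup.index_dvd_card γ.ker :
    γ.ker.index ∣ p ^ f)
  rw [← AddSubgroup.index_eq_one, hj]
  by_contra hne
  have hj1 : 1 ≤ j := Nat.one_le_iff_ne_zero.mpr fun h => hne (by rw [h, pow_zero])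
  have hge : 3 * Nat.card γ.ker ≤ Nat.card A := by
    rw [← hlag, hj, mul_comm 3]
    exact Nat.mul_le_mul_left _ (le_trans hp3 (Nat.le_self_pow (by omega) p))
  omega

omit hp in
/-- A cocycle on the upper unipotents, equivariant for the torus, has no lower and diagonal part. -/
theorem upper_cocycle_corners (A : AddSubgroup k) [Finite A] (h1 : (1 : k) ∈ A) {a b d : k}
    (had : a * d = 1) (ht1 : a * a ≠ 1) (ht2 : a * a * (a * a) ≠ 1)
    (htA : ∀ x : A, a * a * x.1 ∈ A) (Z : A → M2 k)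
    (hadd : ∀ x y : A, Z (x + y) = ux x.1 * Z y * ux (-x.1) + Z x)
    (hZt : ∀ x : A, Z ⟨a * a * x.1, htA x⟩ = !![a, b; 0, d] * Z x * !![d, -b; 0, a]) (x : A) :
    Z x 1 0 = 0 ∧ Z x 0 0 = 0 := by
  have h00add : ∀ x y : A, Z (x + y) 0 0 = Z y 0 0 + x.1 * Z y 1 0 + Z x 0 0 := fun x y => by
    rw [hadd, ux_conj, Matrix.add_apply]; simp
  set one : A := ⟨1, h1⟩
  -- the lower corner is linear, and killed by the torus as `a⁴ ≠ 1`
  have hlam : ∀ x : A, Z x 1 0 = x.1 * Z one 1 0 := fun x => by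
    have h := h00add x one
    rw [add_comm x one, h00add] at h
    simp only [one, one_mul] at h ⊢
    linear_combination h
  have h10 : ∀ x : A, Z x 1 0 = 0 := by
    intro x
    have h := congrFun (congrFun (hZt one) 1) 0
    rw [hlam] at h
    simp [Matrix.mul_apply, Matrix.vecMul, dotProduct, Fin.sum_univ_two, one] at h
    rw [hlam]
    refine mul_eq_zero_of_right _ ((mul_eq_zero.mp
      (show (a * a * (a * a) - 1) * Z one 1 0 = 0 by
        simp only [one] at h ⊢
        linear_combination (a * a) * h + (a * d + 1) * Z ⟨1, h1⟩ 1 0 * had)).resolve_left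
      (sub_ne_zero.mpr ht2))
  have hconj00 : ∀ x : A, Z ⟨a * a * x.1, htA x⟩ 0 0 = Z x 0 0 := fun x => by
    rw [hZt]
    simp [Matrix.mul_apply, Matrix.vecMul, dotProduct, Fin.sum_univ_two, h10]
    linear_combination Z x 0 0 * had
  -- the upper corner is additive and torus invariant, and `a² - 1` is onto
  let S : A → A := fun x => ⟨a * a * x.1, htA x⟩ - x
  have hS : Function.Surjective S := Finite.injective_iff_surjective.mp fun x y h => by
    have h' : a * a * x.1 - x.1 = a * a * y.1 - y.1 := congrArg Subtype.val h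
    exact Subtype.ext (mul_left_cancel₀ (sub_ne_zero.mpr ht1) (by linear_combination h'))
  refine ⟨h10 x, ?_⟩
  obtain ⟨y, rfl⟩ := hS x
  have h := h00add (⟨a * a * y.1, htA y⟩ - y) y
  rw [sub_add_cancel, h10, mul_zero, add_zero, hconj00] at h
  exact left_eq_add.mp h

omit hp in
/-- A matrix of trace two and determinant one commuting with a regular upper triangular matrix
is `1`. -/
theorem eq_one_of_commute {a b d : k} (hne : a - d ≠ 0) {v : M2 k} (tv : v.trace = 2)
    (dv : v.det = 1) (hcomm : !![a, b; 0, d] * v = v * !![a, b; 0, d]) : v = 1 := by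
  have c00 := congrFun (congrFun hcomm 0) 0
  have c01 := congrFun (congrFun hcomm 0) 1
  simp [Matrix.mul_apply, Fin.sum_univ_two] at c00 c01
  rw [Matrix.trace_fin_two] at tv
  rw [Matrix.det_fin_two] at dv
  have hv10 : v 1 0 = 0 := by
    by_cases hb0 : b = 0
    · have c10 := congrFun (congrFun hcomm 1) 0
      simp [Matrix.mul_apply, Fin.sum_univ_two] at c10
      exact (mul_eq_zero.mp (show (a - d) * v 1 0 = 0 by linear_combination -c10)).resolve_left hne
    · exact (mul_eq_zero.mp (show b * v 1 0 = 0 by linear_combination c00)).resolve_left hb0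
  rw [hv10, mul_zero, sub_zero] at dv
  have hv00 : v 0 0 = 1 := by
    have : (v 0 0 - 1) ^ 2 = 0 := by linear_combination v 0 0 * tv - dv
    exact sub_eq_zero.mp (pow_eq_zero_iff two_ne_zero |>.mp this)
  have hv11 : v 1 1 = 1 := by linear_combination tv - hv00
  have hv01 : v 0 1 = 0 := (mul_eq_zero.mp (show (a - d) * v 0 1 = 0 by
    linear_combination c01 + b * (hv00 - hv11))).resolve_left hne
  ext i j
  fin_cases i <;> fin_cases j <;> simp [hv00, hv01, hv10, hv11]

include hdet hn in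
/-- The image of the kernel of the roots of unity has determinant one. -/
theorem det_imUnits : ∀ u ∈ imUnits r (rootAct hζ).ker, (u : M2 k).det = 1 := by
  rintro _ ⟨x, rfl⟩
  exact det_eq_one hdet hζ hn x.2

/-- A crossed homomorphism killing the joint kernel only depends on the image. -/
theorem eq_of_map_eq {z : Γℚ → adZero p k} (hz : ∀ g h, z (g * h) = adTw p r g (z h) + z g)
    (hzN : ∀ s ∈ jointKer (r := r) hζ, z s = 0) {x y : Γℚ} (hx : x ∈ (rootAct hζ).ker)
    (hy : y ∈ (rootAct hζ).ker) (hxy : r x = r y) : z x = z y := by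
  have hmem : y⁻¹ * x ∈ jointKer (r := r) hζ := (mem_jointKer hζ).mpr
    ⟨by rw [map_mul, hxy, hom_inv_mul], (mul_mem (inv_mem hy) hx : y⁻¹ * x ∈ (rootAct hζ).ker)⟩
  have h := hz y (y⁻¹ * x)
  rwa [mul_inv_cancel_left, hzN _ hmem, map_zero, zero_add] at h

section Upper

variable [Finite k] {z : Γℚ → adZero p k} (hz : ∀ g h, z (g * h) = adTw p r g (z h) + z g)
  (hzN : ∀ s ∈ jointKer (r := r) hζ, z s = 0)
  {h₁ : Γℚ} (hh₁ : h₁ ∈ (rootAct hζ).ker) (hr₁ : r h₁ = ux 1)

include hdet hn hz hh₁ hr₁ in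
/-- It suffices to split the crossed homomorphism on the upper unipotents. -/
theorem exists_coboundary_of_upper {m : adZero p k}
    (hm : ∀ x ∈ (rootAct hζ).ker, ∀ a : k, r x = ux a → z x = adTw p r x m - m) :
    ∃ m, ∀ x ∈ (rootAct hζ).ker, z x = adTw p r x m - m := by
  have : CharP k p := charP_of_injective_algebraMap (algebraMap (ZMod p) k).injective p
  have : Finite (M2 k) := inferInstanceAs (Finite (Fin 2 → Fin 2 → k))
  set H := (rootAct hζ).ker
  let f : H →* (M2 k)ˣ := r.toHomUnits.comp H.subtype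
  obtain ⟨Sy, hSy⟩ := exists_sylow_upperSub (p := p) (imUnits r H) (det_imUnits hdet hζ hn)
    ⟨_, ⟨⟨h₁, hh₁⟩, rfl⟩, hr₁⟩
  let UH : Subgroup H := (upperSub (imUnits r H)).comap f.rangeRestrict
  have hidxH : ¬ p ∣ UH.index := by
    rw [Subgroup.index_comap_of_surjective _ f.rangeRestrict_surjective, ← hSy]
    exact Sy.not_dvd_index
  obtain ⟨m', hm'⟩ := exists_coboundary_of_index ((adTw p r).comp H.subtype)
    (fun x => z x.1 - (adTw p r x.1 m - m)) (fun g h => sub_coboundary_mul _ hz m g.1 h.1) UH hidxH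
    fun u hu => by
      obtain ⟨a, ha⟩ := hu
      rw [sub_eq_zero]
      exact hm u.1 u.2 a ha
  refine ⟨m + m', fun x hx => ?_⟩
  have h := hm' ⟨x, hx⟩
  change z x - (adTw p r x m - m) = adTw p r x m' - m' at h
  rw [map_add]
  linear_combination (norm := abel) h

include hdet hn hh₁ hr₁ in
/-- A non-square of the cyclotomic character normalising the upper unipotents. -/
theorem exists_normalizer (h2 : 2 < p) :
    ∃ g : Γℚ, ∃ t ∈ upperVals r (rootAct hζ).ker, r (g * h₁ * g⁻¹) = ux t ∧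
      ∀ m : ZMod p, m ^ 2 ≠ ((cycloChar p g : (ZMod p)ˣ) : ZMod p) := by
  have : CharP k p := charP_of_injective_algebraMap (algebraMap (ZMod p) k).injective p
  set H := (rootAct hζ).ker
  obtain ⟨g, -, hns⟩ := Fermat.FLAT.exists_cycChar_not_square
    (A := placeAt (pPrime p)) ⟨hp.out, placeAt_spec (pPrime p)⟩ (by omega)
  have hgx : g * h₁ * g⁻¹ ∈ H := Subgroup.Normal.conj_mem inferInstance h₁ hh₁ g
  obtain ⟨w, a, -, ha⟩ := exists_conj_upper (p := p) (imUnits r H) (det_imUnits hdet hζ hn)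
    ⟨_, ⟨⟨h₁, hh₁⟩, rfl⟩, hr₁⟩ ⟨_, ⟨⟨_, hgx⟩, rfl⟩⟩ (by
      change r (g * h₁ * g⁻¹) ^ p = 1
      rw [← map_pow, conj_pow, map_mul, map_mul, map_pow, hr₁, ux_pow, CharP.cast_eq_zero,
        zero_mul, ux_zero, mul_one, hom_mul_inv]) (fun h1 => by
      change r (g * h₁ * g⁻¹) = 1 at h1
      have h3 : r h₁ = 1 := by
        calc r h₁ = r g⁻¹ * r (g * h₁ * g⁻¹) * r g := by
              simp only [map_mul, ← mul_assoc, hom_inv_mul, one_mul]
              rw [mul_assoc, hom_inv_mul, mul_one]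
          _ = 1 := by rw [h1, mul_one, hom_inv_mul]
      rw [hr₁] at h3
      exact one_ne_zero (ux_injective (h3.trans ux_zero.symm)))
  obtain ⟨⟨h, hh⟩, hw'⟩ := w.2
  have hwv : r h = (w.1 : M2 k) := congrArg Units.val hw'
  refine ⟨h * g, a, (mem_upperVals_iff r H a).mpr ⟨_, SetLike.coe_mem _, ha⟩, ?_, ?_⟩
  · rw [show h * g * h₁ * (h * g)⁻¹ = h * (g * h₁ * g⁻¹) *
      h⁻¹ by group, map_mul, map_mul, hwv, ← ha]
    have hwi : r h⁻¹ = ((w.1⁻¹ : (M2 k)ˣ) : M2 k) :=
      (Units.inv_eq_of_mul_eq_one_right (by rw [← hwv, hom_mul_inv])).symm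
    rw [hwi]
    rfl
  · rw [map_mul, cycloChar_eq_one hζ hn hh, one_mul]
    exact fun m hm => hns m hm.symm

include hdet hn hz hzN hh₁ hr₁ in
/-- If only the prime field is present the lower corner vanishes. -/
theorem corner_eq_zero (h2 : 2 < p) (hq : Nat.card (upperVals r (rootAct hζ).ker) = p) :
    (z h₁).1 1 0 = 0 := by
  have : CharP k p := charP_of_injective_algebraMap (algebraMap (ZMod p) k).injective p
  set H := (rootAct hζ).ker
  have hH : ∀ x ∈ H, ∀ X : adZero p k, ((adTw p r x X : adZero p k) : M2 k) = r x * X.1 * r x⁻¹ :=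
    fun x hx => coe_adTw_ker hζ hn hx
  -- some `g'` of non-square cyclotomic character conjugates `ux 1` to an upper unipotent `ux m₀`
  obtain ⟨g', t, ht, hconj, hns⟩ := exists_normalizer hdet hζ hn hh₁ hr₁ h2
  obtain ⟨m₀, rfl⟩ :=
    exists_natCast_eq (p := p) (upperVals r H) ⟨h₁, hh₁, hr₁⟩ hq t ht
  set M := r g' with hMdef
  have hmove : M * ux 1 = ux (m₀ : k) * M := by
    rw [← hr₁, ← hconj, hMdef, ← map_mul r g', ← map_mul r (g' * h₁ * g'⁻¹), inv_mul_cancel_right]
  have e11 := congrFun (congrFun hmove 1) 1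
  have e00 := congrFun (congrFun hmove 0) 1
  simp [ux, Matrix.mul_apply, Fin.sum_univ_two] at e11 e00
  have hM10 : M 1 0 = 0 := e11
  have hM00 : M 0 0 = (m₀ : k) * M 1 1 := by linear_combination e00
  have hdM : M 0 0 * M 1 1 ≠ 0 := by
    have := IsBig.det_ne_zero (r := r) g'
    rwa [← hMdef, Matrix.det_fin_two, hM10, mul_zero, sub_zero] at this
  obtain ⟨-, hM11'⟩ := mul_ne_zero_iff.mp hdM
  set X := (z h₁).1 with hX
  set Xg := r g' * X * r g'⁻¹ with hXg
  have hXg10 : Xg 1 0 * M 0 0 = M 1 1 * X 1 0 := by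
    have h' : Xg * M = M * X := by
      rw [hXg, hMdef, mul_assoc, hom_inv_mul, mul_one]
    have := congrFun (congrFun h' 1) 0
    simpa [Matrix.mul_apply, Matrix.vecMul, dotProduct, Fin.sum_univ_two, hM10] using this
  set s := g' * h₁ * g'⁻¹
  have hs : s ∈ H := Subgroup.Normal.conj_mem inferInstance h₁ hh₁ g'
  have hpowz : ∀ m : ℕ, (z (h₁ ^ m)).1 1 0 = m * X 1 0 := by
    intro m
    induction m with
    | zero =>
      have := hz 1 1
      rw [one_mul, map_one, Module.End.one_apply, left_eq_add] at this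
      simp [this]
    | succ m ih =>
      rw [pow_succ', hz, Submodule.coe_add, hH h₁ hh₁, hr₁, map_inv_ux r hr₁, ux_conj,
        Matrix.add_apply]
      simp [ih, ← hX]
      ring
  have hzs : z s = z (h₁ ^ m₀) := eq_of_map_eq hζ hz hzN hs (pow_mem hh₁ m₀)
    (by rw [map_pow, hr₁, ux_pow, mul_one]; exact hconj)
  -- the cocycle identity at `g' h₁ = s g'` makes that character a square
  have E1 := congrArg (fun Z : adZero p k => Z.1 1 0) (hz g' h₁)
  have E2 := congrArg (fun Z : adZero p k => Z.1 1 0) (hz s g')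
  simp only [Submodule.coe_add, Matrix.add_apply, hH s hs, hconj, map_inv_ux r hconj, ux_conj, hzs,
    hpowz, coe_adTw, Matrix.smul_apply] at E1 E2
  rw [show s * g' = g' * h₁ by simp [s]] at E2
  rw [E1, Algebra.smul_def] at E2
  simp at E2
  set ω := algebraMap (ZMod p) k ((cycloChar p g' : (ZMod p)ˣ) : ZMod p) with hω
  by_contra hne
  have hE : ω * Xg 1 0 = (m₀ : k) * X 1 0 := by linear_combination E2
  have hsq : ω = (m₀ : k) * m₀ := by
    refine mul_right_cancel₀ (mul_ne_zero hne hM11') ?_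
    linear_combination -ω * hXg10 + M 0 0 * hE + (m₀ : k) * X 1 0 * hM00
  refine hns (m₀ : ZMod p) ((algebraMap (ZMod p) k).injective ?_)
  rw [pow_two, map_mul, map_natCast]
  exact hsq.symm

include hr hdet hn hz hzN hh₁ hr₁ in
/-- The case of the prime field. -/
theorem exists_coboundary_prime (h2 : 2 < p) (hq : Nat.card (upperVals r (rootAct hζ).ker) = p) :
    ∃ m : adZero p k, ∀ x ∈ (rootAct hζ).ker, ∀ a : k, r x = ux a → z x = adTw p r x m - m := by
  have : CharP k p := charP_of_injective_algebraMap (algebraMap (ZMod p) k).injective p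
  have hk2 : (2 : k) ≠ 0 := hr.two_ne
  set H := (rootAct hζ).ker
  have hH : ∀ x ∈ H, ∀ X : adZero p k, ((adTw p r x X : adZero p k) : M2 k) = r x * X.1 * r x⁻¹ :=
    fun x hx => coe_adTw_ker hζ hn hx
  have hφ := corner_eq_zero hdet hζ hn hz hzN hh₁ hr₁ h2 hq
  set X := (z h₁).1 with hX
  set m : adZero p k := ⟨!![-(X 0 1 + X 0 0) / 2, 0; X 0 0, (X 0 1 + X 0 0) / 2], by
    simp [mem_adZero, Matrix.trace_fin_two]; ring⟩
  -- `z h₁` is the coboundary of `m`
  have hm1 : z h₁ = adTw p r h₁ m - m := by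
    refine Subtype.ext ?_
    rw [Submodule.coe_sub, hH h₁ hh₁, hr₁, map_inv_ux r hr₁, ux_conj]
    have htX : X 1 1 = -X 0 0 := by
      have := (z h₁).2
      rw [mem_adZero, Matrix.trace_fin_two, ← hX] at this
      linear_combination this
    refine Matrix.ext fun i j => ?_
    rw [← hX]
    fin_cases i <;> fin_cases j <;> simp [m, hφ, htX]
    all_goals (field_simp; try ring)
  refine ⟨m, fun x hx a ha => ?_⟩
  -- `r x` is a power of `r h₁`
  obtain ⟨b, rfl⟩ :=
    exists_natCast_eq (p := p) (upperVals r H) ⟨h₁, hh₁, hr₁⟩ hq a ⟨x, hx, ha⟩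
  -- on powers of `h₁` the cocycle identity propagates it
  have hpow : ∀ b : ℕ, z (h₁ ^ b) = adTw p r (h₁ ^ b) m - m := by
    intro b
    induction b with
    | zero =>
      have := hz 1 1
      rw [one_mul, map_one, Module.End.one_apply, left_eq_add] at this
      rw [pow_zero, this, map_one, Module.End.one_apply, sub_self]
    | succ b ih =>
      rw [pow_succ', hz, ih, hm1, map_mul, Module.End.mul_apply, map_sub]
      abel
  have hb : r (h₁ ^ b) = ux (b : k) := by rw [map_pow, hr₁, ux_pow, mul_one]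
  have hN1 : adTw p r x m = adTw p r (h₁ ^ b) m := Subtype.ext (by
    rw [hH x hx, hH _ (pow_mem hh₁ b), map_inv_ux r ha, map_inv_ux r hb, ha, hb])
  rw [eq_of_map_eq hζ hz hzN hx (pow_mem hh₁ b) (ha.trans hb.symm), hpow b, hN1]

omit [Finite k] [Algebra (ZMod p) k] in
include hr hh₁ hr₁ in
/-- The kernel of the roots of unity moves the line of the upper unipotents. -/
theorem exists_move : ∃ u ∈ imUnits r (rootAct hζ).ker, (u : M2 k) 1 0 ≠ 0 := by
  by_contra hc
  push Not at hc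
  refine hr.noEig ⊤ (Or.inl rfl) ![1, 0] (fun h0 => by simpa using congrFun h0 0) fun g _ =>
    ⟨r g 0 0, ?_⟩
  have hx : g * h₁ * g⁻¹ ∈ (rootAct hζ).ker := Subgroup.Normal.conj_mem inferInstance h₁ hh₁ g
  have h1 := hc _ ⟨⟨_, hx⟩, rfl⟩
  change r (g * h₁ * g⁻¹) 1 0 = 0 at h1
  have h2' : r (g * h₁ * g⁻¹) * r g = r g * ux 1 := by
    rw [← map_mul, inv_mul_cancel_right, map_mul, hr₁]
  generalize r (g * h₁ * g⁻¹) = W at h1 h2'
  have e := congrFun (congrFun h2' 1) 0
  have e' := congrFun (congrFun h2' 1) 1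
  simp [ux, Matrix.mul_apply, Fin.sum_univ_two, h1] at e e'
  have hg10 : r g 1 0 = 0 := by
    by_contra hne
    have hb : W 1 1 = 1 := mul_right_cancel₀ hne (by linear_combination e)
    rw [hb, one_mul, right_eq_add] at e'
    exact hne e'
  funext i
  fin_cases i <;> simp [Matrix.mulVec, dotProduct, Fin.sum_univ_two, hg10]

include hr hdet hn hh₁ hr₁ in
/-- A large torus normalising the upper unipotents, when these are more than the prime field. -/
theorem exists_torus_elt (h2 : 2 < p) {f : ℕ}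
    (hf : Nat.card (upperVals r (rootAct hζ).ker) = p ^ f) (hf2 : 2 ≤ f) :
    ∃ s₀ ∈ (rootAct hζ).ker, ∃ a b d : k, a * d = 1 ∧ r s₀ = !![a, b; 0, d] ∧
      r s₀⁻¹ = !![d, -b; 0, a] ∧ a * a ≠ 1 ∧ a * a * (a * a) ≠ 1 ∧
      Nat.card (upperVals r (rootAct hζ).ker) - 1 ≤ 2 * orderOf (a * a) := by
  have : CharP k p := charP_of_injective_algebraMap (algebraMap (ZMod p) k).injective p
  set H := (rootAct hζ).ker
  have hPmem : ∀ u ∈ imUnits r H, ∃ x ∈ H, (u : M2 k) = r x := by
    rintro u ⟨x, rfl⟩; exact ⟨x.1, x.2, rfl⟩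
  have hp3 : 3 ≤ p := by omega
  have hcard9 : 9 ≤ Nat.card (upperVals r H) := by
    rw [hf]
    calc 9 = 3 ^ 2 := by norm_num
      _ ≤ p ^ 2 := Nat.pow_le_pow_left hp3 2
      _ ≤ p ^ f := Nat.pow_le_pow_right hp.out.pos hf2
  -- an upper triangular element of large order in the image of the kernel
  obtain ⟨u₀, hu₀, hu₀10, hord⟩ := exists_torus (p := p) hr.two_ne (imUnits r H)
    (det_imUnits hdet hζ hn)
    (fun u hu => by obtain ⟨x, hx, hxu⟩ := hPmem u hu; rw [hxu]; exact hr.split x)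
    (upperVals r H) (mem_upperVals_iff r H)
    (fun u hu hup hu1 => by
      obtain ⟨w, a, ha0, ha⟩ := exists_conj_upper (p := p) _ (det_imUnits hdet hζ hn)
        ⟨_, ⟨⟨h₁, hh₁⟩, rfl⟩, hr₁⟩ ⟨u, hu⟩ hup hu1
      exact ⟨(w.1)⁻¹, inv_mem w.2, a, ha0, by rw [inv_inv]; exact ha⟩)
    (by omega) (exists_move hr hζ hh₁ hr₁)
  obtain ⟨s₀, hs₀, hrs₀⟩ := hPmem u₀ hu₀
  rw [hrs₀] at hu₀10 hord
  -- it has determinant `1`
  have had : r s₀ 0 0 * r s₀ 1 1 = 1 := by
    have := det_eq_one hdet hζ hn hs₀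
    rwa [Matrix.det_fin_two, hu₀10, mul_zero, sub_zero] at this
  have hrs : r s₀ = !![r s₀ 0 0, r s₀ 0 1; 0, r s₀ 1 1] := by
    ext i j; fin_cases i <;> fin_cases j <;> simp [hu₀10]
  refine ⟨s₀, hs₀, _, _, _, had, hrs, left_inv_eq_right_inv (hom_inv_mul r s₀) ?_, ?_, ?_, hord⟩
  · rw [hrs]
    ext i j; fin_cases i <;> fin_cases j <;> simp [Matrix.mul_apply, Fin.sum_univ_two, had] <;>
      first | linear_combination had | linear_combination (0 : k) * had
  -- its order excludes `a ^ 2 = 1` and `a ^ 4 = 1`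
  · intro h; rw [h, orderOf_one] at hord; omega
  · intro h
    have := orderOf_le_of_pow_eq_one two_pos
      (show (r s₀ 0 0 * r s₀ 0 0) ^ 2 = 1 by rw [pow_two, h])
    omega

include hdet hn hz hzN in
/-- A crossed homomorphism splits at a regular element of the torus. -/
theorem exists_split_at {s₀ : Γℚ} (hs₀ : s₀ ∈ (rootAct hζ).ker) {a b d : k} (had : a * d = 1)
    (hrs : r s₀ = !![a, b; 0, d]) (ht1 : a * a ≠ 1) : ∃ m, z s₀ = adTw p r s₀ m - m := by
  have : CharP k p := charP_of_injective_algebraMap (algebraMap (ZMod p) k).injective p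
  have : Finite (M2 k) := inferInstanceAs (Finite (Fin 2 → Fin 2 → k))
  let Gs : Subgroup Γℚ := Subgroup.zpowers s₀
  have hGsH : Gs ≤ (rootAct hζ).ker := Subgroup.zpowers_le.mpr hs₀
  let fs : Gs →* (M2 k)ˣ := r.toHomUnits.comp Gs.subtype
  have hcop : ¬ p ∣ fs.ker.index := by
    rw [Subgroup.index_ker]
    intro hdvd
    obtain ⟨⟨v, ⟨y, hy⟩, rfl⟩, hv⟩ := exists_prime_orderOf_dvd_card' p hdvd
    obtain ⟨i, rfl⟩ := Subgroup.mem_zpowers_iff.mp hy
    rw [← Subgroup.orderOf_coe] at hv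
    change orderOf (fs ⟨s₀ ^ i, hy⟩) = p at hv
    have hvne : fs ⟨s₀ ^ i, hy⟩ ≠ 1 := fun h => by
      rw [h, orderOf_one] at hv
      exact hp.out.one_lt.ne hv
    have hvp := pow_orderOf_eq_one (fs ⟨s₀ ^ i, hy⟩)
    rw [hv] at hvp
    refine hvne (Units.ext (eq_one_of_commute (a := a) (b := b) (d := d) (v := r (s₀ ^ i)) ?_
      (trace_eq_two_of_pow (p := p) (a := 1) (by rw [pow_one]; exact congrArg Units.val hvp))
      (det_eq_one hdet hζ hn (hGsH (Subgroup.zpow_mem _ (Subgroup.mem_zpowers s₀) i))) ?_))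
    · exact fun h0 => ht1 (by linear_combination had + a * h0)
    · rw [← hrs, ← map_mul, ← map_mul, ← zpow_one_add, ← zpow_add_one, add_comm]
  obtain ⟨m, hm⟩ := exists_coboundary_of_index ((adTw p r).comp Gs.subtype) (fun x => z x.1)
    (fun g h => hz g.1 h.1) fs.ker hcop fun u hu =>
      hzN _ ((mem_jointKer hζ).mpr ⟨congrArg Units.val (MonoidHom.mem_ker.mp hu), hGsH u.2⟩)
  exact ⟨m, hm ⟨s₀, Subgroup.mem_zpowers s₀⟩⟩

include hn hz hzN hh₁ hr₁ in
/-- Vanishing at a large torus, the crossed homomorphism is linear on the upper unipotents. -/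
theorem exists_upper_form {f : ℕ} (hf : Nat.card (upperVals r (rootAct hζ).ker) = p ^ f)
    (hp3 : 3 ≤ p) {s₀ : Γℚ} (hs₀ : s₀ ∈ (rootAct hζ).ker) {a b d : k} (had : a * d = 1)
    (hrs : r s₀ = !![a, b; 0, d]) (hrsinv : r s₀⁻¹ = !![d, -b; 0, a]) (ht1 : a * a ≠ 1)
    (ht2 : a * a * (a * a) ≠ 1)
    (hord : Nat.card (upperVals r (rootAct hζ).ker) - 1 ≤ 2 * orderOf (a * a)) (hzs : z s₀ = 0) :
    ∃ c : k, ∀ x ∈ (rootAct hζ).ker, ∀ e : k, r x = ux e → (z x).1 = !![0, e * c; 0, 0] := by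
  set H := (rootAct hζ).ker
  have hH : ∀ x ∈ H, ∀ X : adZero p k, ((adTw p r x X : adZero p k) : M2 k) = r x * X.1 * r x⁻¹ :=
    fun x hx => coe_adTw_ker hζ hn hx
  set A := upperVals r H
  choose hA hAH hAr using fun a : A => a.2
  let Z : A → M2 k := fun x => (z (hA x)).1
  -- the cocycle on the upper unipotents as a function of the parameter
  have hZ : ∀ (x : A) (y : Γℚ), y ∈ H → r y = ux x.1 → (z y).1 = Z x := fun x y hy hyx =>
    congrArg Subtype.val (eq_of_map_eq hζ hz hzN hy (hAH x) (hyx.trans (hAr x).symm))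
  have hadd : ∀ x y : A, Z (x + y) = ux x.1 * Z y * ux (-x.1) + Z x := fun x y => by
    rw [← hZ (x + y) (hA x * hA y) (mul_mem (hAH x) (hAH y))
      (by rw [map_mul, hAr, hAr, ux_mul_ux]; rfl), hz, Submodule.coe_add, hH _ (hAH x),
      map_inv_ux r (hAr x), hAr]
  have hsux : ∀ x : A, r (s₀ * hA x * s₀⁻¹) = ux (a * a * x.1) := fun x => by
    rw [map_mul, map_mul, hAr, hrs, hrsinv]
    ext i j
    fin_cases i <;> fin_cases j <;> simp [ux, Matrix.mul_apply, Fin.sum_univ_two, had] <;>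
      first | linear_combination had | linear_combination (0 : k) * had
  have htA : ∀ x : A, a * a * x.1 ∈ A := fun x =>
    ⟨_, Subgroup.Normal.conj_mem inferInstance (hA x) (hAH x) s₀, hsux x⟩
  have hZt : ∀ x : A, Z ⟨a * a * x.1, htA x⟩ = !![a, b; 0, d] * Z x * !![d, -b; 0, a] := fun x => by
    rw [← hrs, ← hrsinv,
      ← hZ ⟨a * a * x.1, htA x⟩ _ (Subgroup.Normal.conj_mem inferInstance (hA x)
        (hAH x) s₀) (hsux x)]
    have h1 := hz (s₀ * hA x * s₀⁻¹) s₀
    rw [inv_mul_cancel_right, hz, hzs, map_zero, zero_add, add_zero] at h1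
    rw [← h1, hH s₀ hs₀]
  have hZtr : ∀ x : A, Z x 1 1 = -(Z x 0 0) := fun x => by
    have := (z (hA x)).2
    rw [mem_adZero, Matrix.trace_fin_two] at this
    linear_combination this
  have : Finite A := inferInstance
  have h1A : (1 : k) ∈ A := ⟨h₁, hh₁, hr₁⟩
  -- its diagonal and lower entries vanish, and the upper one is additive and equivariant
  have hcor := upper_cocycle_corners A h1A had ht1 ht2 htA Z hadd hZt
  let β : A →+ k := AddMonoidHom.mk' (fun x => Z x 0 1) fun x y => by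
    rw [hadd, ux_conj, Matrix.add_apply]; simp [(hcor y).1, (hcor y).2, hZtr, add_comm]
  have hβt : ∀ x : A, β ⟨a * a * x.1, htA x⟩ = a * a * β x := fun x => by
    change Z ⟨a * a * x.1, htA x⟩ 0 1 = a * a * Z x 0 1
    rw [hZt]
    simp [Matrix.mul_apply, Matrix.vecMul, dotProduct, Fin.sum_univ_two, (hcor x).1, (hcor x).2,
      hZtr]
    ring
  have ht0 : a * a ≠ 0 := mul_ne_zero (left_ne_zero_of_mul_eq_one had)
    (left_ne_zero_of_mul_eq_one had)
  refine ⟨β ⟨1, h1A⟩, fun x hx e he => ?_⟩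
  have heA : e ∈ A := ⟨x, hx, he⟩
  rw [hZ ⟨e, heA⟩ x hx he]
  have hβe := addHom_eq_mul (p := p) A hf hp3 h1A ht0 htA hord β hβt ⟨e, heA⟩
  ext i j
  fin_cases i <;> fin_cases j
  · simpa using (hcor _).2
  · simpa using (show Z ⟨e, heA⟩ 0 1 = e * β ⟨1, h1A⟩ from hβe)
  · simpa using (hcor _).1
  · simpa [(hcor ⟨e, heA⟩).2] using hZtr ⟨e, heA⟩

include hr hdet hn hz hzN hh₁ hr₁ in
/-- The case of more than the prime field. -/
theorem exists_coboundary_large (h2 : 2 < p) {f : ℕ}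
    (hf : Nat.card (upperVals r (rootAct hζ).ker) = p ^ f) (hf2 : 2 ≤ f) :
    ∃ m : adZero p k, ∀ x ∈ (rootAct hζ).ker, ∀ a : k, r x = ux a → z x = adTw p r x m - m := by
  have hk2 : (2 : k) ≠ 0 := hr.two_ne
  obtain ⟨s₀, hs₀, a, b, d, had, hrs, hrsinv, ht1, ht2, hord⟩ :=
    exists_torus_elt hr hdet hζ hn hh₁ hr₁ h2 hf hf2
  obtain ⟨m₀, hm₀⟩ := exists_split_at hdet hζ hn hz hzN hs₀ had hrs ht1
  set z' : Γℚ → adZero p k := fun x => z x - (adTw p r x m₀ - m₀) with hz'
  have hzN' : ∀ s ∈ jointKer (r := r) hζ, z' s = 0 := fun s hs => by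
    obtain ⟨hs1, hs2⟩ := (mem_jointKer hζ).mp hs
    have hfix : adTw p r s m₀ = m₀ := Subtype.ext (by
      have hi : r s⁻¹ = 1 := left_inv_eq_right_inv (hom_inv_mul r s) (by rw [hs1, one_mul])
      rw [coe_adTw_ker hζ hn hs2, hs1, hi, one_mul, mul_one])
    simp only [hz', hzN s hs, hfix, sub_self]
  obtain ⟨c, hc⟩ := exists_upper_form hζ hn (z := z')
    (fun g h => sub_coboundary_mul _ hz m₀ g h) hzN' hh₁ hr₁ hf (by omega) hs₀ had hrs hrsinv ht1
    ht2 hord (by simp only [hz', hm₀, sub_self])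
  refine ⟨⟨!![-c / 2, 0; 0, c / 2], by
    simp [mem_adZero, Matrix.trace_fin_two]; ring⟩ + m₀, fun x hx e he => ?_⟩
  have hzx := hc x hx e he
  refine sub_eq_zero.mp (Subtype.ext ?_)
  rw [map_add]
  simp only [hz', Submodule.coe_sub, Submodule.coe_add, coe_adTw_ker hζ hn hx,
    ZeroMemClass.coe_zero] at hzx ⊢
  rw [map_inv_ux r he, he, ux_conj (X := !![_, _; _, _])] at *
  refine Matrix.ext fun i j => ?_
  have e' := congrFun (congrFun hzx i) j
  fin_cases i <;> fin_cases j <;> simp at e' ⊢ <;>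
    first | linear_combination e' | (field_simp; linear_combination (2 : k) * e')

end Upper

include hr hdet hn in
/-- With the standard unipotent in the image of the kernel of the roots of unity, a crossed
homomorphism is a coboundary on that kernel. -/
theorem exists_coboundary_upper [Finite k] (h2 : 2 < p) (z : Γℚ → adZero p k)
    (hz : ∀ g h, z (g * h) = adTw p r g (z h) + z g)
    (hzN : ∀ s ∈ jointKer (r := r) hζ, z s = 0)
    {h₁ : Γℚ} (hh₁ : h₁ ∈ (rootAct hζ).ker) (hr₁ : r h₁ = ux 1) :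
    ∃ m, ∀ x ∈ (rootAct hζ).ker, z x = adTw p r x m - m := by
  have : CharP k p := charP_of_injective_algebraMap (algebraMap (ZMod p) k).injective p
  have : Finite (M2 k) := inferInstanceAs (Finite (Fin 2 → Fin 2 → k))
  set H := (rootAct hζ).ker
  have h1A : (1 : k) ∈ upperVals r H := ⟨h₁, hh₁, hr₁⟩
  obtain ⟨f, hf⟩ := IsPGroup.iff_card.mp (isPGroup_upperSub (p := p) (imUnits r H))
  rw [← card_upperSub r H] at hf
  by_cases hq : Nat.card (upperVals r H) = p
  · obtain ⟨m, hm⟩ := exists_coboundary_prime hr hdet hζ hn hz hzN hh₁ hr₁ h2 hq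
    exact exists_coboundary_of_upper hdet hζ hn hz hh₁ hr₁ hm
  have hf2 : 2 ≤ f := by
    have : Nontrivial (upperVals r H) :=
      ⟨⟨⟨1, h1A⟩, 0, fun e => one_ne_zero (congrArg Subtype.val e)⟩⟩
    have hA1 : 1 < Nat.card (upperVals r H) := Finite.one_lt_card
    rcases Nat.lt_or_ge f 2 with h | h
    · interval_cases f
      · rw [hf, pow_zero] at hA1; omega
      · exact absurd (by rw [hf, pow_one]) hq
    · exact h
  obtain ⟨m, hm⟩ := exists_coboundary_large hr hdet hζ hn hz hzN hh₁ hr₁ h2 hf hf2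
  exact exists_coboundary_of_upper hdet hζ hn hz hh₁ hr₁ hm

end Fermat.GR.S56

end
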