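import Mathlib
import Fermat.Agent.GR.S56.Coboundary
import Fermat.Agent.GR.RT.Steinberg

/-!
# Detecting a class at an element with distinct eigenvalues

Such an element gives a Taylor-Wiles prime detecting the class (`exists_twPrime`).
-/

set_option autoImplicit false

noncomputable section

open Fermat.CFT ExtCitation
open Fermat.GR.RT
open scoped Pointwise

namespace Fermat.GR.S56

local notation "ℚbar" => AlgebraicClosure ℚ
local notation "Γℚ" => (AlgebraicClosure ℚ ≃ₐ[ℚ] AlgebraicClosure ℚ)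
local notation "M2" R => Matrix (Fin 2) (Fin 2) R

variable {p : ℕ} [hp : Fact p.Prime] {k : Type} [Field k] [Algebra (ZMod p) k] {r : Γℚ →* M2 k}
  (hr : IsBig r)
  (hdet : ∀ σ, (r σ).det = algebraMap (ZMod p) k ((cycloChar p σ : (ZMod p)ˣ) : ZMod p))
  (h2 : 2 < p)

/-- `conjHom Q r` is `r` conjugated by `Q`. -/
theorem conjHom_apply {k : Type} [Field k] (Q : (M2 k)ˣ) (r : Γℚ →* M2 k) (σ : Γℚ) :
    conjHom Q r σ = (Q : M2 k) * r σ * (↑Q⁻¹ : M2 k) := rfl

include hr in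
/-- Conjugation preserves bigness. -/
theorem IsBig.conj (Q : (M2 k)ˣ) : IsBig (conjHom Q r) where
  two_ne := hr.two_ne
  split σ := by
    rw [conjHom_apply, Matrix.trace_units_conj, Matrix.det_units_conj]
    exact hr.split σ
  noEig H hH v hv hall := by
    refine hr.noEig H hH (Matrix.mulVec (↑Q⁻¹ : M2 k) v) (fun h0 => hv ?_) fun g hg => ?_
    · have := congrArg (Matrix.mulVec (Q : M2 k)) h0
      rwa [Matrix.mulVec_mulVec, Q.mul_inv, Matrix.one_mulVec, Matrix.mulVec_zero] at this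
    · obtain ⟨c, hc⟩ := hall g hg
      refine ⟨c, ?_⟩
      have := congrArg (Matrix.mulVec (↑Q⁻¹ : M2 k)) hc
      rwa [conjHom_apply, Matrix.mulVec_mulVec, Matrix.mulVec_smul, ← mul_assoc, ← mul_assoc,
        Q.inv_mul, one_mul, ← Matrix.mulVec_mulVec] at this

section

variable {n : ℕ} {ζ : ℚbar} (hζ : IsPrimitiveRoot ζ (p ^ n))

include hr hdet h2 in
/-- A crossed homomorphism killing the joint kernel is a coboundary. -/
theorem exists_eq_coboundary_of_vanish [Finite k] (hn : 1 ≤ n) (z : Γℚ → adZero p k)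
    (hz : ∀ g h, z (g * h) = adTw p r g (z h) + z g)
    (hzN : ∀ s ∈ jointKer (r := r) hζ, z s = 0) :
    ∃ m, ∀ g, z g = adTw p r g m - m := by
  classical
  have : CharP k p := charP_of_injective_algebraMap (algebraMap (ZMod p) k).injective p
  set H := (rootAct hζ).ker
  -- enough on the kernel of the cyclotomic action; an image of order prime to `p` is easy
  suffices hH : ∃ m, ∀ x ∈ H, z x = adTw p r x m - m by
    obtain ⟨m, hm⟩ := hH
    exact ⟨m, eq_coboundary_of_normal (adTw p r) z hz H (eq_zero_of_fixed hr hdet hζ hn) hm⟩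
  have : Finite (M2 k) := inferInstanceAs (Finite (Fin 2 → Fin 2 → k))
  let f : H →* (M2 k)ˣ := r.toHomUnits.comp H.subtype
  by_cases hdvd : p ∣ Nat.card f.range
  swap
  · obtain ⟨m, hm⟩ := exists_coboundary_of_index ((adTw p r).comp H.subtype) (fun x => z x.1)
      (fun g h => hz g.1 h.1) f.ker (by rw [Subgroup.index_ker]; exact hdvd) fun u hu =>
        hzN _ ((mem_jointKer hζ).mpr ⟨congrArg Units.val (MonoidHom.mem_ker.mp hu), u.2⟩)
    exact ⟨m, fun x hx => hm ⟨x, hx⟩⟩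
  -- otherwise the image has an element of order `p`, `ux 1` in a suitable basis
  obtain ⟨⟨_, x, rfl⟩, hv⟩ := exists_prime_orderOf_dvd_card' p hdvd
  rw [← Subgroup.orderOf_coe] at hv
  set u := r x.1 with hu
  have hup : u ^ p = 1 := congrArg Units.val (show f x ^ p = 1 by
    conv_lhs => rw [← hv]
    exact pow_orderOf_eq_one _)
  have hu1 : u ≠ 1 := fun h => by
    have : f x = 1 := Units.ext h
    change orderOf (f x) = p at hv
    rw [this, orderOf_one] at hv
    exact hp.out.one_lt.ne hv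
  have hN : (u - 1) * (u - 1) = 0 := by
    have h1 : (u - 1) ^ p = 0 := by
      rw [sub_pow_char_of_commute p (Commute.one_right u), one_pow, hup, sub_self]
    have htr : (u - 1).trace = 0 := (Matrix.isNilpotent_trace_of_isNilpotent ⟨_, h1⟩).eq_zero
    have hd : (u - 1).det = 0 := pow_eq_zero_iff hp.out.ne_zero |>.mp (by
      rw [← Matrix.det_pow, h1, Matrix.det_zero])
    rw [mul_self_of_trace_zero htr, hd, neg_zero, zero_smul]
  obtain ⟨U, hU⟩ := exists_basis_of_sq_zero_field hN (sub_ne_zero.mpr hu1)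
  let r' := conjHom U⁻¹ r
  have hr' : IsBig r' := hr.conj U⁻¹
  have hdet' : ∀ σ, (r' σ).det = algebraMap (ZMod p) k ((cycloChar p σ : (ZMod p)ˣ) : ZMod p) := by
    intro σ; rw [conjHom_apply, Matrix.det_units_conj, hdet]
  let c : adZero p k →ₗ[ZMod p] adZero p k :=
    { toFun := fun X => ⟨(↑U⁻¹ : M2 k) * X.1 * (U : M2 k), by
        rw [mem_adZero, Matrix.trace_mul_cycle, U.mul_inv, one_mul]; exact X.2⟩
      map_add' := fun X Y => Subtype.ext (by simp only [Submodule.coe_add, mul_add, add_mul])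
      map_smul' := fun a X => Subtype.ext (by
        simp only [Submodule.coe_smul, RingHom.id_apply, Matrix.mul_smul, Matrix.smul_mul]) }
  have hcinj : Function.Injective c := fun X Y h => Subtype.ext
    (U.isUnit.mul_right_cancel (U⁻¹.isUnit.mul_left_cancel
      (show (↑U⁻¹ : M2 k) * (X.1 * (U : M2 k)) = (↑U⁻¹ : M2 k) * (Y.1 * (U : M2 k)) by
        have h' : (↑U⁻¹ : M2 k) * X.1 * (U : M2 k) = (↑U⁻¹ : M2 k) * Y.1 * (U : M2 k) :=
          congrArg Subtype.val h
        simpa only [← mul_assoc] using h')))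
  have : Finite (adZero p k) := Subtype.finite
  have hcsurj : Function.Surjective c := Finite.injective_iff_surjective.mp hcinj
  have hact : ∀ g X, c (adTw p r g X) = adTw p r' g (c X) := fun g X => Subtype.ext (by
    change (↑U⁻¹ : M2 k) * ((adTw p r g X : adZero p k) : M2 k) * (U : M2 k) = _
    rw [coe_adTw, coe_adTw, Matrix.mul_smul, Matrix.smul_mul]
    congr 1
    change _ = (↑U⁻¹ : M2 k) * r g * (U : M2 k) * ((↑U⁻¹ : M2 k) * X.1 * (U : M2 k)) *
      ((↑U⁻¹ : M2 k) * r g⁻¹ * (U : M2 k))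
    simp only [mul_assoc]
    simp only [← mul_assoc (U : M2 k) (↑U⁻¹ : M2 k), U.mul_inv, one_mul])
  have hker : ∀ s, s ∈ jointKer (r := r') hζ → s ∈ jointKer (r := r) hζ := by
    intro s hs
    refine (mem_jointKer hζ).mpr ⟨?_, hs.2⟩
    have h : (↑U⁻¹ : M2 k) * r s * (U : M2 k) = 1 := hs.1
    have := congrArg (fun Z : M2 k => (U : M2 k) * Z * (↑U⁻¹ : M2 k)) h
    simp only [← mul_assoc, U.mul_inv, one_mul, mul_one] at this
    simpa only [mul_assoc, U.mul_inv, mul_one] using this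
  -- the upper unipotent case, carried back through the change of basis
  obtain ⟨m', hm'⟩ := exists_coboundary_upper hr' hdet' hζ hn h2 (fun g => c (z g))
    (fun g h => by rw [hz, map_add, hact]) (fun s hs => by rw [hzN s (hker s hs), map_zero])
    x.2 (by
      change (↑U⁻¹ : M2 k) * u * (U : M2 k) = ux 1
      have h1 : (↑U⁻¹ : M2 k) * u * (U : M2 k) = (↑U⁻¹ : M2 k) * (u - 1) * (U : M2 k) + 1 := by
        rw [mul_sub, sub_mul, mul_one, U.inv_mul, sub_add_cancel]
      rw [h1, hU]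
      ext i j; fin_cases i <;> fin_cases j <;> simp [ux])
  obtain ⟨m, rfl⟩ := hcsurj m'
  exact ⟨m, fun y hy => hcinj (by rw [hm' y hy, map_sub, hact])⟩

include hr hdet h2 in
/-- An element detecting a crossed homomorphism. -/
theorem exists_detecting [Finite k] (hn : 1 ≤ n) (z : Γℚ → adZero p k)
    (hz : ∀ g h, z (g * h) = adTw p r g (z h) + z g)
    (hne : ¬ ∃ m, ∀ g, z g = adTw p r g m - m) :
    ∃ σ, rootAct hζ σ = 1 ∧ (r σ).trace ^ 2 ≠ 4 * (r σ).det ∧ ∀ m, z σ ≠ adTw p r σ m - m := by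
  set N := jointKer (r := r) hζ
  obtain ⟨σ₀, hσ₀, hreg⟩ := exists_regular hr hdet hζ hn
  have hd : ∀ σ, rootAct hζ σ = 1 → (r σ).det = 1 := fun σ hσ => det_eq_one hdet hζ hn hσ
  set Y := sl (r σ₀)
  have tY : Y.trace = 0 := trace_sl hr.two_ne _
  have hY0 : Y ≠ 0 := fun h => hreg (by
    have h' := det_sl hr.two_ne (r σ₀)
    rw [show sl (r σ₀) = 0 from h, hd σ₀ hσ₀, Matrix.det_zero] at h'
    have h2' := hr.two_ne
    field_simp at h'
    linear_combination h')
  -- pairing with the trace zero part of a regular element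
  let lam : adZero p k →+ k :=
    AddMonoidHom.mk' (fun X => (X.1 * Y).trace) fun a b => by
      rw [Submodule.coe_add, add_mul, Matrix.trace_add]
  have hlamv : ∀ X, lam X = (X.1 * Y).trace := fun X => rfl
  have hlam : ∀ σ, r σ = r σ₀ → rootAct hζ σ = 1 → ∀ m, lam (adTw p r σ m) = lam m := by
    intro σ hσ hσ' m
    rw [hlamv, hlamv, coe_adTw_ker hζ hn hσ', hσ]
    have hc : r σ⁻¹ = r σ₀⁻¹ := left_inv_eq_right_inv (hom_inv_mul r σ) (by rw [hσ, hom_mul_inv])
    have hcom : r σ₀⁻¹ * Y = Y * r σ₀⁻¹ := by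
      simp only [Y, sl, mul_sub, sub_mul, Matrix.mul_smul, Matrix.smul_mul, mul_one, one_mul,
        hom_mul_inv, hom_inv_mul]
    rw [hc, mul_assoc _ (r σ₀⁻¹), hcom, ← mul_assoc,
      Matrix.trace_mul_comm, ← mul_assoc, ← mul_assoc, hom_inv_mul, one_mul]
  -- otherwise the pairing kills the values of `z` on the joint kernel
  by_contra hcon
  push Not at hcon
  have hN1 : ∀ s ∈ N, ∀ X, adTw p r s X = X := fun s hs X => Subtype.ext (by
    have hs' : r s⁻¹ = 1 := by
      have := hom_mul_inv r s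
      rwa [hs.1, one_mul] at this
    rw [coe_adTw_ker hζ hn hs.2, hs.1, hs', one_mul, mul_one])
  have hzero : lam (z σ₀) = 0 := by
    obtain ⟨m, hm⟩ := hcon σ₀ hσ₀ (by rw [hd σ₀ hσ₀, mul_one]; exact hreg)
    rw [hm, map_sub, hlam σ₀ rfl hσ₀, sub_self]
  have hlam0 : ∀ s ∈ N, lam (z s) = 0 := by
    intro s hs
    have hra : rootAct hζ (σ₀ * s) = 1 := by
      rw [map_mul, hσ₀, show rootAct hζ s = 1 from hs.2, one_mul]
    have hrr : r (σ₀ * s) = r σ₀ := by rw [map_mul, hs.1, mul_one]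
    obtain ⟨m, hm⟩ := hcon (σ₀ * s) hra (by rw [hrr, hd σ₀ hσ₀, mul_one]; exact hreg)
    have h := congrArg lam hm
    rw [hz, map_add, map_sub, hlam _ hrr hra, sub_self, hzero, add_zero, hlam σ₀ rfl hσ₀] at h
    exact h
  -- by conjugation these values then vanish, so `z` would be a coboundary
  refine hne (exists_eq_coboundary_of_vanish hr hdet h2 hζ hn z hz fun s hs => ?_)
  by_contra hzs
  obtain ⟨g, hg⟩ := hr.exists_trace_ne_zero hY0 tY (fun h => hzs (Subtype.ext h)) (z s).2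
  refine hg ?_
  have hs' : g⁻¹ * s * g ∈ N := by
    simpa using (Subgroup.Normal.conj_mem inferInstance s hs g⁻¹ : g⁻¹ * s * g⁻¹⁻¹ ∈ N)
  have e := hz g⁻¹ s
  have e2 := hz (g⁻¹ * s * g) g⁻¹
  rw [mul_inv_cancel_right, e, hN1 _ hs', add_comm, add_right_inj] at e2
  have h := hlam0 _ hs'
  rw [← e2, hlamv, coe_adTw, inv_inv, Matrix.smul_mul, Matrix.trace_smul, smul_eq_zero] at h
  have h' := h.resolve_left (Units.ne_zero _)
  rw [← h', mul_assoc (r g⁻¹), mul_assoc (r g⁻¹), Matrix.trace_mul_comm (r g⁻¹)]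
  simp only [mul_assoc]

end

include hr hdet h2 in
/-- **A Taylor–Wiles prime detecting a class.** -/
theorem exists_twPrime [Finite k] {T : Set Nat.Primes}
    (hsm : Coh.IsSmooth (galLevels T) (adTw p r))
    (hrl : ∃ N, (galLevels T).IsLevel N ∧ ∀ s ∈ N, r s = 1)
    (x : Coh.H1 (galLevels T) (adTw p r)) (hx : x ≠ 0) (n : ℕ) (hn : 1 ≤ n) (avoid : Finset ℕ) :
    ∃ v : Nat.Primes, (v : ℕ) ∉ avoid ∧ (v : ℕ) ≠ p ∧ p ^ n ∣ (v : ℕ) - 1 ∧
      (∀ s ∈ (placeAt v).inertiaSubgroupIn ℚ, r s = 1) ∧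
      (∃ φ : Γℚ, (placeAt v).IsFrobeniusAt φ v ∧ (r φ).trace ^ 2 ≠ 4 * (r φ).det) ∧
      Coh.map₁ (locHom T v) (Coh.IsEquivariant.restrict (adTw p r) (decAt v).subtype) x ≠ 0 := by
  classical
  obtain ⟨z, rfl⟩ := Coh.cl₁_surjective x
  have hne : ¬ ∃ m, ∀ g, z.1 g = adTw p r g m - m := by
    rintro ⟨m, hm⟩
    exact hx (Coh.cl₁_eq_zero.mpr ⟨m, funext fun g => (hm g).symm⟩)
  have : NeZero (p ^ n) := ⟨pow_ne_zero _ hp.out.ne_zero⟩
  have : NeZero ((p ^ n : ℕ) : ℚbar) := ⟨Nat.cast_ne_zero.mpr (NeZero.ne _)⟩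
  obtain ⟨ζ, hζ⟩ := HasEnoughRootsOfUnity.exists_primitiveRoot ℚbar (p ^ n)
  obtain ⟨σ, hσa, hσr, hσz⟩ := exists_detecting hr hdet h2 hζ hn z.1 (Coh.cocycle₁ z.2) hne
  obtain ⟨v, hv, hvp, hvn, hvI, ⟨φ, hφ, A, i, j, hi, -, htr, hd⟩, hvx⟩ :=
    exists_prime_detecting hsm hrl z hζ hσa hσz avoid
  refine ⟨v, hv, hvp, hvn, hvI, ⟨φ, hφ, fun h => hσr ?_⟩, hvx⟩
  rw [htr, hd] at h
  rw [← hi]
  exact disc_pow_eq_zero hr.two_ne h i

end Fermat.GR.S56

end
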