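import Mathlib
import Fermat.Agent.GR.S56.Detect
import Fermat.Agent.GR.RT.Count

/-!
# The Selmer count at Taylor–Wiles levels for a big residual representation

A fixed number of primes of every depth suffices (`exists_twPrimes_selmer_le`).
-/

set_option autoImplicit false
set_option linter.unusedSectionVars false

noncomputable section

open Fermat.CFT ExtCitation
open Fermat.GR.RT
open scoped Pointwise

namespace Fermat.GR.S56

local notation "Γℚ" => (AlgebraicClosure ℚ ≃ₐ[ℚ] AlgebraicClosure ℚ)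
local notation "M2" R => Matrix (Fin 2) (Fin 2) R

variable {p : ℕ} [hp : Fact p.Prime] {k : Type} [Field k] [Algebra (ZMod p) k] {r : Γℚ →* M2 k}

/-- The centraliser of a regular element among trace zero matrices is at most a line. -/
theorem card_centraliser_regular_le [Finite k] (h2 : (2 : k) ≠ 0) {g : M2 k}
    (hg : g.trace ^ 2 ≠ 4 * g.det) :
    Nat.card {X : adZero p k // g * X.1 = X.1 * g} ≤ Nat.card k := by
  have hY0 : sl g ≠ 0 := fun h => hg (by
    have h' := det_sl h2 g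
    rw [h, Matrix.det_zero] at h'
    field_simp at h'
    linear_combination h')
  choose c hc using fun X : {X : adZero p k // g * X.1 = X.1 * g} =>
    exists_eq_smul_of_comm h2 hY0 (trace_sl h2 g) X.1.2 (by
      simp only [sl, sub_mul, mul_sub, Matrix.smul_mul, Matrix.mul_smul, one_mul, mul_one, X.2])
  exact Nat.card_le_card_of_injective c fun X Y h =>
    Subtype.ext (Subtype.ext (by rw [hc X, hc Y, h]))

/-- The conditions on a Taylor–Wiles prime of depth `n`. -/
def IsBigTWPrime (p : ℕ) (r : Γℚ →* M2 k) (n : ℕ) (v : Nat.Primes) : Prop :=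
  (v : ℕ) ≠ p ∧ p ^ n ∣ (v : ℕ) - 1 ∧ (∀ s ∈ (placeAt v).inertiaSubgroupIn ℚ, r s = 1) ∧
    ∃ φ : Γℚ, (placeAt v).IsFrobeniusAt φ v ∧ (r φ).trace ^ 2 ≠ 4 * (r φ).det

/-- A Taylor–Wiles prime of depth `m` is one of every smaller depth. -/
theorem IsBigTWPrime.mono {n m : ℕ} (h : n ≤ m) {v : Nat.Primes} (hv : IsBigTWPrime p r m v) :
    IsBigTWPrime p r n v := ⟨hv.1, (pow_dvd_pow p h).trans hv.2.1, hv.2.2⟩

variable (hbig : IsBig r)
  (hdet : ∀ σ, (r σ).det = algebraMap (ZMod p) k ((cycloChar p σ : (ZMod p)ˣ) : ZMod p))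
  (h2 : 2 < p) [Finite k] {T : Set Nat.Primes}
  (hsm : Coh.IsSmooth (galLevels T) (adTw p r))
  (hr : ∃ N, (galLevels T).IsLevel N ∧ ∀ s ∈ N, r s = 1)

include hbig hdet h2 hsm hr in
/-- **A fixed number of Taylor–Wiles primes of every depth detects `W`.** -/
theorem exists_twSet (W : Submodule (ZMod p) (Coh.H1 (galLevels T) (adTw p r)))
    [FiniteDimensional (ZMod p) W] (avoid : Finset ℕ) :
    ∃ R : ℕ, ∀ n : ℕ, ∃ vs : Fin R → Nat.Primes, Function.Injective vs ∧
      (∀ i, ((vs i : Nat.Primes) : ℕ) ∉ avoid ∧ IsBigTWPrime p r n (vs i)) ∧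
      ∀ x ∈ W, (∀ i, locAt T (adTw p r) (vs i) x = 0) → x = 0 := by
  exact RT.exists_detecting_family (P := IsBigTWPrime p r)
    (fun _ _ _ h hv => IsBigTWPrime.mono h hv) (fun x hx n hn avoid => by
    obtain ⟨v, hv, hvp, hvn, hvI, hvF, hvx⟩ := exists_twPrime hbig hdet h2 hsm hr x hx n hn avoid
    exact ⟨v, hv, ⟨hvp, hvn, hvI, hvF⟩, hvx⟩) W avoid

include hbig hdet in
/-- There are no global invariants in either representation. -/
private theorem eq_zero_of_global_invariant (X : adZero p k)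
    (hX : (∀ σ, adRep p r σ X = X) ∨ ∀ σ, adTw p r σ X = X) : X = 0 := by
  obtain ⟨ζ, hζ⟩ := exists_primitiveRoot_qbar (q := p)
  have hζ1 : IsPrimitiveRoot ζ (p ^ 1) := by rwa [pow_one]
  refine eq_zero_of_fixed hbig hdet hζ1 le_rfl X fun σ hσ => Subtype.ext ?_
  rw [coe_adTw_ker hζ1 le_rfl hσ]
  rcases hX with h | h
  · exact congrArg Subtype.val (h σ)
  · exact (coe_adTw_ker hζ1 le_rfl hσ X).symm.trans (congrArg Subtype.val (h σ))

include hbig hdet h2 in
/-- **The count.** There are sets of `R` Taylor–Wiles primes of every level for which the Selmer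
group with conditions `L`, times the local invariants at `Afr`, has order at most `#k ^ R`. -/
theorem exists_twPrimes_selmer_le (hGW : GWBound p) {T : Finset Nat.Primes} (hpT : pPrime p ∈ T)
    (hsm : Coh.IsSmooth (galLevels (T : Set Nat.Primes)) (adRep p r))
    (hr : ∃ N, (galLevels (T : Set Nat.Primes)).IsLevel N ∧ ∀ s ∈ N, r s = 1)
    (Afr : Finset Nat.Primes) (hAT : Afr ⊆ T) (hpA : pPrime p ∉ Afr)
    (L : ∀ v : Nat.Primes, Submodule (ZMod p) (LH1 v (adRep p r)))
    (hLA : ∀ v ∈ Afr, L v = ⊥)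
    (hL : ∀ v ∈ T, v ∉ Afr → Nat.card (L v) ≤
      Nat.card (Coh.H0 (repAt v (adRep p r))) * if v = pPrime p then Nat.card k else 1)
    (avoid : Finset ℕ) :
    ∃ R : ℕ, ∀ n : ℕ, ∃ vs : Fin R → Nat.Primes, Function.Injective vs ∧
      (∀ i, ((vs i : Nat.Primes) : ℕ) ∉ avoid ∧ vs i ∉ T ∧ IsBigTWPrime p r n (vs i)) ∧
      Finite (selAt (T ∪ Finset.univ.image vs) (adRep p r)
        fun v => if v ∈ T then L v else ⊤) ∧
      Nat.card (selAt (T ∪ Finset.univ.image vs) (adRep p r)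
          fun v => if v ∈ T then L v else ⊤) *
        ∏ v ∈ Afr, Nat.card (Coh.H0 (repAt v (adRep p r))) ≤ Nat.card k ^ R := by
  obtain ⟨R, hR⟩ := exists_selmer_family_of_detecting hdet h2 (P := IsBigTWPrime p r)
    (fun _ _ _ h hv => IsBigTWPrime.mono h hv)
    (fun hsm hr W _ => exists_twSet hbig hdet h2 hsm hr W) (eq_zero_of_global_invariant hbig hdet)
    (fun hsm _ hn v ⟨hvp, hvn, hI, φ, hφ, ht⟩ => card_LH1_le_of_card_centraliser hsm hn hvp hvn
      hI hφ (card_centraliser_regular_le (RT.two_ne_zero_of_two_lt h2) ht))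
    hGW hpT hsm hr Afr hAT hpA L avoid
  refine ⟨R, fun n => ?_⟩
  obtain ⟨vs, hinj, hvs, hsel⟩ := hR n
  obtain ⟨hfin, hle⟩ := hsel L (fun _ _ => le_rfl) hLA (Nat.card k) hL
  exact ⟨vs, hinj, hvs, hfin, Nat.le_of_mul_le_mul_right (hle.trans_eq (mul_comm _ _)) Nat.card_pos⟩

end Fermat.GR.S56

end
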