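import Mathlib
import Fermat.Agent.GR.RT.LocalCount
import Fermat.Agent.GR.RT.Count
import Fermat.Agent.GR.RT.Steinberg

/-!
# The local condition at a prime with unipotent inertia

Where inertia acts through a nontrivial unipotent group, the classes orthogonal to inertia are no
more than the invariants.
-/

set_option autoImplicit false

noncomputable section

open Fermat.CFT Fermat.EC.Val
open Fermat.GR.RT

namespace Fermat.GR.S56

local notation "ℚbar" => AlgebraicClosure ℚ
local notation "Γℚ" => (AlgebraicClosure ℚ ≃ₐ[ℚ] AlgebraicClosure ℚ)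
local notation "M2" R => Matrix (Fin 2) (Fin 2) R

/-- A square of a power under a homomorphism. -/
private theorem map_pow_sq {G M : Type*} [Monoid G] [Monoid M] (f : G →* M) (x : G) (n : ℕ) :
    f x ^ n ^ 2 = f (x ^ n) ^ n := by
  rw [map_pow, ← pow_mul, pow_two]

variable {p : ℕ} [hp : Fact p.Prime] {k : Type} [Field k]

/-- A trace zero matrix orthogonal to a unipotent one is in the image of its conjugation minus
one. -/
theorem exists_of_trace_eq_zero (h2 : (2 : k) ≠ 0) {u u' X : M2 k} (hu : (u - 1) * (u - 1) = 0)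
    (hu1 : u ≠ 1) (hinv : u * u' = 1) (tX : X.trace = 0) (h : (X * u).trace = 0) :
    ∃ m : M2 k, m.trace = 0 ∧ u * m * u' - m = X := by
  -- work in a basis where `u` is the standard unipotent
  obtain ⟨U, hU⟩ := exists_basis_of_sq_zero_field hu (sub_ne_zero.mpr hu1)
  set Y := (↑U⁻¹ : M2 k) * X * (U : M2 k) with hY
  have hT : (↑U⁻¹ : M2 k) * u * (U : M2 k) = !![1, 1; 0, 1] := by
    have : (↑U⁻¹ : M2 k) * (u - 1) * (U : M2 k) = (↑U⁻¹ : M2 k) * u * (U : M2 k) - 1 := by
      rw [mul_sub, sub_mul, mul_one, U.inv_mul]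
    rw [this, sub_eq_iff_eq_add] at hU
    rw [hU]; ext i j; fin_cases i <;> fin_cases j <;> simp
  have hT' : (↑U⁻¹ : M2 k) * u' * (U : M2 k) = !![1, -1; 0, 1] := by
    refine left_inv_eq_right_inv (a := (↑U⁻¹ : M2 k) * u * (U : M2 k)) ?_ ?_
    · rw [show (↑U⁻¹ : M2 k) * u' * (U : M2 k) * ((↑U⁻¹ : M2 k) * u * (U : M2 k)) =
        (↑U⁻¹ : M2 k) * (u' * u) * (U : M2 k) by
          simp only [mul_assoc]
          rw [← mul_assoc (U : M2 k) (↑U⁻¹ : M2 k), U.mul_inv, one_mul],
        mul_eq_one_comm.mp hinv, mul_one, U.inv_mul]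
    · rw [hT]; ext i j; fin_cases i <;> fin_cases j <;> simp [Matrix.mul_apply]
  -- the image `Y` of `X` has trace zero and lower left entry zero
  have tY : Y 0 0 + Y 1 1 = 0 := by
    rw [← Matrix.trace_fin_two, hY, Matrix.trace_mul_cycle, U.mul_inv, one_mul, tX]
  have hY10 : Y 1 0 = 0 := by
    have h' : (Y * !![1, 1; 0, 1]).trace = 0 := by
      rw [← hT, hY, show (↑U⁻¹ : M2 k) * X * (U : M2 k) * ((↑U⁻¹ : M2 k) * u * (U : M2 k)) =
        (↑U⁻¹ : M2 k) * (X * u) * (U : M2 k) by
          simp only [mul_assoc]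
          rw [← mul_assoc (U : M2 k) (↑U⁻¹ : M2 k), U.mul_inv, one_mul],
        Matrix.trace_mul_cycle, U.mul_inv, one_mul, h]
    simp [Matrix.trace_fin_two, Matrix.mul_apply, Fin.sum_univ_two] at h'
    linear_combination h' - tY
  -- so it is the coboundary of `M`
  set M : M2 k := !![-(Y 0 1 + Y 0 0) / 2, 0; Y 0 0, (Y 0 1 + Y 0 0) / 2]
  refine ⟨(U : M2 k) * M * (↑U⁻¹ : M2 k), ?_, ?_⟩
  · rw [Matrix.trace_mul_cycle, U.inv_mul, one_mul, Matrix.trace_fin_two]
    simp [M]; ring
  · have hM : !![1, 1; 0, 1] * M * !![1, -1; 0, 1] - M = Y := by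
      ext i j
      fin_cases i <;> fin_cases j <;>
        simp [M, hY10]
      all_goals first
        | linear_combination -tY
        | (field_simp; ring)
    rw [← hT, ← hT', hY] at hM
    have := congrArg (fun Z : M2 k => (U : M2 k) * Z * (↑U⁻¹ : M2 k)) hM
    simp only [mul_sub, sub_mul, ← mul_assoc, U.mul_inv, one_mul] at this
    simp only [mul_assoc, U.mul_inv, mul_one] at this ⊢
    exact this

omit hp in
/-- A vector fixed by a power prime to the order is fixed. -/
theorem eq_of_pow_fixed {R M : Type*} [Semiring R] [AddCommMonoid M] [Module R M]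
    (f : Module.End R M) {n : ℕ} (hn : Nat.Coprime n p) (h1 : 1 < p) (hf : f ^ p = 1) {m : M}
    (hm : (f ^ n) m = m) : f m = m := by
  obtain ⟨j, hj⟩ := Nat.exists_mul_mod_eq_one_of_coprime hn h1
  have h1 : (f ^ (n * j)) m = m := by
    rw [pow_mul, Module.End.coe_pow]
    exact Function.iterate_fixed hm j
  rwa [← Nat.mod_add_div (n * j) p, hj.2, pow_add, pow_one, pow_mul, hf, one_pow, mul_one] at h1

/-- A unipotent matrix has order dividing the characteristic. -/
theorem pow_char_eq_one_of_sq_zero [CharP k p] {u : M2 k} (hu : (u - 1) * (u - 1) = 0) :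
    u ^ p = 1 := by
  have hsub : (u - 1) ^ p = 0 := by
    rw [← Nat.sub_add_cancel (hp.out.two_le), pow_add, pow_two, hu, mul_zero]
  rwa [sub_pow_char_of_commute p (Commute.one_right _), one_pow, sub_eq_zero] at hsub

section Count

variable {A : ValuationSubring ℚbar} {M : Type} [AddCommGroup M] [Module (ZMod p) M]
  {ρ : Representation (ZMod p) (A.decompositionSubgroup ℚ) M}
  {φD τD : A.decompositionSubgroup ℚ} {n : ℕ}

/-- The difference of an affine action at two points is linear. -/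
theorem affineAct_sub_apply (z : Coh.Z1 (glev (A.decompositionSubgroup ℚ).subtype) ρ)
    (g : A.decompositionSubgroup ℚ) (a b : M) :
    affineAct z.2 g a - affineAct z.2 g b = ρ g (a - b) := by
  rw [affineAct_apply, affineAct_apply, map_sub]; abel

/-- Cocycles with a fixed point at `τ` are at most as many, up to coboundaries, as the invariants,
when a conjugate of `τ` by `φ` is a power prime to the order. -/
theorem card_le_card_H0_of_fixed_points [Finite M] {ι : Type*}
    (z : ι → Coh.Z1 (glev (A.decompositionSubgroup ℚ).subtype) ρ)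
    (hz : Function.Injective fun x => Coh.cl₁ (glev (A.decompositionSubgroup ℚ).subtype) ρ (z x))
    (hn : Nat.Coprime n p) (hτ : ρ τD ^ p = 1)
    (hconj : ρ (φD * τD * φD⁻¹) = ρ (τD ^ n))
    (hconjA : ∀ x, affineAct (z x).2 (φD * τD * φD⁻¹) = affineAct (z x).2 (τD ^ n))
    (hgen : ∀ δ, ∃ i j : ℕ, ρ δ = ρ (φD ^ i * τD ^ j) ∧
      ∀ x, affineAct (z x).2 δ = affineAct (z x).2 (φD ^ i * τD ^ j))
    {P : ι → M} (hP : ∀ x, affineAct (z x).2 τD (P x) = P x) :
    Nat.card ι ≤ Nat.card (Coh.H0 ρ) := by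
  let W₀ := LinearMap.ker (ρ τD - 1)
  have hmemW : ∀ m, m ∈ W₀ ↔ ρ τD m = m := fun m => by
    rw [LinearMap.mem_ker, LinearMap.sub_apply, Module.End.one_apply, sub_eq_zero]
  -- the invariants of a power prime to `p` are those of the generator
  have hpow : ∀ m, ρ (τD ^ n) m = m → ρ τD m = m := fun m hm =>
    eq_of_pow_fixed _ hn hp.out.one_lt hτ (by rwa [← map_pow])
  have hD : ∀ x, affineAct (z x).2 φD (P x) - P x ∈ W₀ := fun x => by
    have h1 : affineAct (z x).2 (τD ^ n) (P x) = P x := by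
      rw [map_pow, Equiv.Perm.coe_pow]
      exact Function.iterate_fixed (hP x) _
    have h3 : affineAct (z x).2 (τD ^ n) (affineAct (z x).2 φD (P x)) =
        affineAct (z x).2 φD (P x) := by
      rw [← hconjA x, ← Equiv.Perm.mul_apply, ← map_mul, inv_mul_cancel_right, map_mul,
        Equiv.Perm.mul_apply, hP x]
    rw [hmemW]
    refine hpow _ ?_
    rw [← affineAct_sub_apply (z x), h3, h1]
  have hTW : ∀ w ∈ W₀, ρ φD w ∈ W₀ := fun w hw => by
    rw [hmemW] at hw ⊢
    refine hpow _ ?_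
    rw [← hconj, map_mul, map_mul, Module.End.mul_apply, Module.End.mul_apply,
      ← Module.End.mul_apply (ρ φD⁻¹), ← map_mul, inv_mul_cancel, map_one, Module.End.one_apply, hw]
  let Tφ : W₀ →ₗ[ZMod p] W₀ := (ρ φD - 1).restrict fun w hw => sub_mem (hTW w hw) hw
  let Θ : ι → W₀ ⧸ LinearMap.range Tφ := fun x => Submodule.Quotient.mk ⟨_, hD x⟩
  have hΘ : Function.Injective Θ := by
    intro x y hxy
    obtain ⟨w, hw⟩ := (Submodule.Quotient.eq _).mp hxy
    have hw' : ρ φD w.1 - w.1 =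
        (affineAct (z x).2 φD (P x) - P x) - (affineAct (z y).2 φD (P y) - P y) :=
      congrArg Subtype.val hw
    refine hz (cl₁_eq_of_intertwine (g₁ := φD) (g₂ := τD) (P y - P x + w.1) (fun δ => ?_)
      (fun a => ?_) fun a => ?_)
    · obtain ⟨i, j, -, hij⟩ := hgen δ
      exact ⟨i, j, hij x, hij y⟩
    · have h1 := affineAct_sub_apply (z y) φD (a + (P y - P x + w.1)) (P y)
      have h2' := affineAct_sub_apply (z x) φD a (P x)
      rw [sub_eq_iff_eq_add] at h1 h2'
      rw [h1, h2', show a + (P y - P x + w.1) - P y = (a - P x) + w.1 by abel, map_add]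
      linear_combination (norm := abel) hw'
    · have h1 := affineAct_sub_apply (z y) τD (a + (P y - P x + w.1)) (P y)
      have h2' := affineAct_sub_apply (z x) τD a (P x)
      rw [sub_eq_iff_eq_add, hP y] at h1
      rw [sub_eq_iff_eq_add, hP x] at h2'
      rw [h1, h2', show a + (P y - P x + w.1) - P y = (a - P x) + w.1 by abel, map_add,
        (hmemW w.1).mp w.2]
      abel
  have : Finite (W₀ ⧸ LinearMap.range Tφ) := Finite.of_surjective _ (Submodule.mkQ_surjective _)
  refine (Nat.card_le_card_of_injective Θ hΘ).trans ?_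
  rw [card_quotient_range_eq_card_ker]
  have : Finite (Coh.H0 ρ) := Subtype.finite
  refine Nat.card_le_card_of_injective
    (fun m => (⟨m.1.1, Coh.mem_ker_d₀.mpr fun δ => ?_⟩ : Coh.H0 ρ))
    fun a b hab => Subtype.ext (Subtype.ext (congrArg (fun z : Coh.H0 ρ => z.1) hab))
  obtain ⟨i, j, hij, -⟩ := hgen δ
  have hm1 : ρ φD m.1.1 = m.1.1 :=
    sub_eq_zero.mp (congrArg Subtype.val (LinearMap.mem_ker.mp m.2))
  rw [hij, map_mul, Module.End.mul_apply, map_pow, map_pow, Module.End.coe_pow, Module.End.coe_pow,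
    Function.iterate_fixed ((hmemW _).mp m.1.2) j, Function.iterate_fixed hm1 i]

end Count

section Local

variable [Algebra (ZMod p) k] {r : Γℚ →* M2 k} {v : Nat.Primes}

/-- Elements with the same matrix act alike on trace zero matrices. -/
theorem repAt_adRep_congr {δ δ' : decAt v} (e : r δ.1 = r δ'.1) :
    repAt v (adRep p r) δ = repAt v (adRep p r) δ' :=
  LinearMap.ext fun X => Subtype.ext (by
    change r δ.1 * X.1 * r δ.1⁻¹ = r δ'.1 * X.1 * r δ'.1⁻¹
    rw [← e, left_inv_eq_right_inv (hom_inv_mul r δ.1) (by rw [e]; exact hom_mul_inv r _)])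

variable (r v) in
/-- The cocycles orthogonal to inertia. -/
def orthInertiaCocycles :
    Submodule (ZMod p) (Coh.Z1 (glev (decAt v).subtype) (repAt v (adRep p r))) where
  carrier := {z | ∀ δ : decAt v, δ.1 ∈ (placeAt v).inertiaSubgroupIn ℚ →
    (((z.1 δ : adZero p k) : M2 k) * r δ.1).trace = 0}
  add_mem' := by
    intro z w hz hw δ hδ
    change (((z.1 δ + w.1 δ : adZero p k) : M2 k) * r δ.1).trace = 0
    rw [Submodule.coe_add, add_mul, Matrix.trace_add, hz δ hδ, hw δ hδ, add_zero]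
  zero_mem' := fun δ _ => by simp
  smul_mem' := by
    intro c z hz δ hδ
    change (((c • z.1 δ : adZero p k) : M2 k) * r δ.1).trace = 0
    rw [Submodule.coe_smul, Matrix.smul_mul, Matrix.trace_smul, hz δ hδ, smul_zero]

/-- A cocycle orthogonal to a nontrivial unipotent `τ` has a fixed point there. -/
theorem exists_affineAct_fixed (h2 : (2 : k) ≠ 0) {τ : (placeAt v).inertiaSubgroupIn ℚ}
    (hun : (r τ.1 - 1) * (r τ.1 - 1) = 0) (hrτ : r τ.1 ≠ 1)
    {z : Coh.Z1 (glev (decAt v).subtype) (repAt v (adRep p r))}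
    (hz : z ∈ orthInertiaCocycles r v) :
    ∃ P : adZero p k, affineAct z.2 (inD τ) P = P := by
  obtain ⟨m, tm, hm⟩ := exists_of_trace_eq_zero h2 hun hrτ (hom_mul_inv r τ.1)
    (z.1 (inD τ)).2 (hz (inD τ) τ.2)
  refine ⟨-⟨m, tm⟩, ?_⟩
  rw [affineAct_apply, map_neg]
  refine Subtype.ext ?_
  rw [Submodule.coe_add, Submodule.coe_neg, Submodule.coe_neg, ← hm]
  change -(r τ.1 * m * r τ.1⁻¹) + (r τ.1 * m * r τ.1⁻¹ - m) = -m
  abel

variable [CharP k p]

/-- Unipotent inertia elements act through order `p`. -/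
theorem repAt_pow_char {σ : (placeAt v).inertiaSubgroupIn ℚ}
    (hun : (r σ.1 - 1) * (r σ.1 - 1) = 0) : repAt v (adRep p r) (inD σ ^ p) = 1 :=
  (repAt_adRep_congr (δ' := 1) (by
    rw [SubmonoidClass.coe_pow, map_pow, OneMemClass.coe_one, map_one]
    exact pow_char_eq_one_of_sq_zero hun)).trans (map_one _)

/-- Unipotent inertia elements have order dividing `p²` in the affine action. -/
theorem affineAct_pow_char_sq {σ : (placeAt v).inertiaSubgroupIn ℚ}
    (hun : (r σ.1 - 1) * (r σ.1 - 1) = 0)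
    (z : Coh.Z1 (glev (decAt v).subtype) (repAt v (adRep p r))) :
    affineAct z.2 (inD σ ^ p) ^ p = 1 :=
  Equiv.ext fun m => by
    rw [affineAct_pow_of_trivial _ (repAt_pow_char hun), ← Nat.cast_smul_eq_nsmul (ZMod p),
      ZMod.natCast_self, zero_smul, add_zero]
    rfl

end Local

variable [Algebra (ZMod p) k] [Finite k] {r : Γℚ →* M2 k}

/-- **The classes orthogonal to unipotent inertia.** -/
theorem exists_unipCond (h2 : (2 : k) ≠ 0) {T : Set Nat.Primes}
    (hsm : Coh.IsSmooth (galLevels T) (adRep p r))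
    (hrl : ∃ N, (galLevels T).IsLevel N ∧ ∀ s ∈ N, r s = 1) {v : Nat.Primes} (hvp : (v : ℕ) ≠ p)
    (hun : ∀ σ ∈ (placeAt v).inertiaSubgroupIn ℚ, (r σ - 1) * (r σ - 1) = 0)
    (hram : ∃ σ ∈ (placeAt v).inertiaSubgroupIn ℚ, r σ ≠ 1) :
    ∃ S : Submodule (ZMod p) (LH1 v (adRep p r)),
      Nat.card S ≤ Nat.card (Coh.H0 (repAt v (adRep p r))) ∧
      ∀ z : Coh.Z1 (glev (decAt v).subtype) (repAt v (adRep p r)),
        (∀ δ : decAt v, δ.1 ∈ (placeAt v).inertiaSubgroupIn ℚ →
          (((z.1 δ : adZero p k) : M2 k) * r δ.1).trace = 0) →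
        Coh.cl₁ (glev (decAt v).subtype) (repAt v (adRep p r)) z ∈ S := by
  classical
  have : Finite (adZero p k) := Subtype.finite
  have : CharP k p := charP_of_injective_algebraMap (algebraMap (ZMod p) k).injective p
  set lv := glev (decAt v).subtype
  set ρ := repAt v (adRep p r)
  refine ⟨(orthInertiaCocycles r v).map (Coh.cl₁ lv ρ), ?_, fun z hz => ⟨z, hz, rfl⟩⟩
  have h : IsPlace (placeAt v) (v : ℕ) := ⟨v.2, placeAt_spec v⟩
  obtain ⟨φ, hφ⟩ := exists_isFrobeniusAt v.2 (placeAt_spec v)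
  set φD : decAt v := ⟨φ, hφ.mem_decompositionSubgroup⟩
  have hcop : Nat.Coprime p v := (Nat.coprime_primes hp.out v.2).mpr (Ne.symm hvp)
  refine (finite_of_forall_finset fun F => ?_).2
  -- a finite set of classes is seen on a finite level, where inertia is generated by one `τ`
  choose rep hrep hreps using fun x : (orthInertiaCocycles r v).map (Coh.cl₁ lv ρ) => x.2
  obtain ⟨L, hL, hLn, hfix⟩ :=
    exists_common_field (Coh.IsSmooth.comp (locHom T v) hsm : Coh.IsSmooth lv ρ) (F.image rep)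
  obtain ⟨N, hN, hrN⟩ := hrl
  obtain ⟨F₀, hF₀, hF₀n, -, rfl⟩ := hN
  have := hF₀; have := hF₀n; have := hL; have := hLn
  let L' := L ⊔ F₀
  let ρD : decAt v →* (F → Equiv.Perm (adZero p k)) × (M2 k)ˣ :=
    (MonoidHom.pi fun x : F => affineAct (rep x.1).2).prod
      ((r.toHomUnits).comp (decAt v).subtype)
  have hLρ : ∀ δ : decAt v, δ.1 ∈ L'.fixingSubgroup → ρD δ = 1 := fun δ hδ => by
    have hδL := IntermediateField.fixingSubgroup_le (show L ≤ L' from le_sup_left) hδ
    have hδF := IntermediateField.fixingSubgroup_le (show F₀ ≤ L' from le_sup_right) hδ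
    refine Prod.ext (funext fun x => Equiv.ext fun m => ?_) (Units.ext (hrN _ hδF))
    change ρ δ m + (rep x.1).1 δ = m
    rw [(hfix δ hδL).1, (hfix δ hδL).2 _ (Finset.mem_image_of_mem _ x.2), add_zero]
  have hIρ : ∀ σ : (placeAt v).inertiaSubgroupIn ℚ, ∃ b : ℕ, ρD (inD σ) ^ p ^ b = 1 := fun σ => by
    refine ⟨2, (map_pow_sq ρD (inD σ) p).trans ?_⟩
    refine Prod.ext (funext fun x => affineAct_pow_char_sq (hun σ.1 σ.2) _) (Units.ext ?_)
    change r ((inD σ ^ p : decAt v).1) ^ p = 1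
    rw [SubmonoidClass.coe_pow, map_pow,
      show r (inD σ).1 ^ p = 1 from pow_char_eq_one_of_sq_zero (hun σ.1 σ.2), one_pow]
  have : Normal ℚ L' := @IntermediateField.normal_sup ℚ _ _ _ _ L F₀ hLn hF₀n
  obtain ⟨τ, hconj, hgenI, hgen⟩ := exists_generators_decomposition h hLρ hcop hIρ hφ
  have hpR : ∀ {a b : decAt v}, ρD a = ρD b → r a.1 = r b.1 := fun e =>
    congrArg Units.val (congrArg Prod.snd e)
  have hpA : ∀ {a b : decAt v}, ρD a = ρD b → ∀ x : F,
      affineAct (rep x.1).2 a = affineAct (rep x.1).2 b := fun e x =>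
    congrFun (congrArg Prod.fst e) x
  have hrτ : r τ.1 ≠ 1 := fun h1 => by
    obtain ⟨σ, hσ, hσ1⟩ := hram
    obtain ⟨j, hj⟩ := hgenI ⟨σ, hσ⟩
    refine hσ1 ?_
    have := hpR (hj.trans (map_pow ρD (inD τ) j).symm)
    rw [SubmonoidClass.coe_pow, map_pow] at this
    refine this.trans ?_
    change r τ.1 ^ j = 1
    rw [h1, one_pow]
  -- every class in it has a fixed point of `τ`, so there are no more of them than invariants
  choose P hP using fun x : F => exists_affineAct_fixed h2 (hun τ.1 τ.2) hrτ (hrep x.1)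
  have hconj' : ρD (φD * inD τ * φD⁻¹) = ρD (inD τ ^ (v : ℕ)) :=
    hconj.trans (map_pow ρD (inD τ) (v : ℕ)).symm
  rw [← Nat.card_eq_finsetCard]
  refine card_le_card_H0_of_fixed_points (fun x : F => rep x.1) (fun x y e => ?_) hcop.symm
    ((map_pow ρ (inD τ) p).symm.trans (repAt_pow_char (hun τ.1 τ.2)))
    (repAt_adRep_congr (hpR hconj')) (hpA hconj') (fun δ => ?_) hP
  · exact Subtype.ext (Subtype.ext ((hreps x.1).symm.trans (e.trans (hreps y.1))))
  · obtain ⟨i, j, hij⟩ := hgen δ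
    have e : ρD δ = ρD (φD ^ i * inD τ ^ j) := hij.trans ((map_mul ρD _ _).trans
      (congrArg₂ (· * ·) (map_pow ρD φD i) (map_pow ρD (inD τ) j))).symm
    exact ⟨i, j, repAt_adRep_congr (hpR e), hpA e⟩

end Fermat.GR.S56

end
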