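import Mathlib
import Fermat.Agent.GR.S56.AtP
import Fermat.Agent.GR.RT.Count
import Fermat.Agent.GR.RT.DualSelmer
import Fermat.Agent.GR.Patch.Base
import Fermat.Agent.GR.Patch.Generators

/-!
# Generators of a deformation ring from a bound on its Selmer group

A derivation gives a class; if it is a coboundary the derivation vanishes.

`exists_surjective_of_selmer`; `Main` uses it for both conditions at `p`.
-/

set_option autoImplicit false
set_option linter.unusedSectionVars false

noncomputable section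

open IsLocalRing Fermat.GR.RT Fermat.CFT

namespace Fermat.GR.S56

local notation "Γℚ" => (AlgebraicClosure ℚ ≃ₐ[ℚ] AlgebraicClosure ℚ)
local notation "M2" R => Matrix (Fin 2) (Fin 2) R

variable {𝒪 : Type} [CommRing 𝒪] [IsDomain 𝒪] [IsDiscreteValuationRing 𝒪]
  [IsAdicComplete (maximalIdeal 𝒪) 𝒪] [Finite (ResidueField 𝒪)]

/-- The dual numbers over a field are complete, their maximal ideal squaring to zero. -/
theorem isAdicComplete_dualNumber (k : Type) [Field k] :
    IsAdicComplete (maximalIdeal (DualNumber k)) (DualNumber k) := by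
  have h2 : maximalIdeal (DualNumber k) ^ 2 = ⊥ := by
    rw [eq_bot_iff, pow_two, Ideal.mul_le]
    intro a ha b hb
    have hf : ∀ x ∈ maximalIdeal (DualNumber k), TrivSqZeroExt.fst x = 0 := fun x hx => by
      by_contra h
      exact hx (TrivSqZeroExt.isUnit_iff_isUnit_fst.mpr (Ne.isUnit h))
    rw [Ideal.mem_bot]
    refine TrivSqZeroExt.ext ?_ ?_ <;> simp [hf a ha, hf b hb]
  refine { toIsHausdorff := ⟨fun x hx => ?_⟩, toIsPrecomplete := ⟨fun f hf => ⟨f 2, fun n => ?_⟩⟩ }
  · have h := hx 2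
    rw [h2, Submodule.bot_smul, SModEq.bot] at h
    exact h
  · rcases le_total n 2 with h | h
    · exact hf h
    · have h' := hf h
      rw [h2, Submodule.bot_smul, SModEq.bot] at h'
      rw [h']
      exact SModEq.refl _

/-- A dual number is congruent to its constant part. -/
theorem residue_inl_fst {k : Type} [Field k] (z : DualNumber k) :
    residue _ z = residue _ (TrivSqZeroExt.inl (TrivSqZeroExt.fst z) : DualNumber k) := by
  rw [← sub_eq_zero, ← map_sub, residue_eq_zero_iff, IsLocalRing.mem_maximalIdeal,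
    mem_nonunits_iff, TrivSqZeroExt.isUnit_iff_isUnit_fst, TrivSqZeroExt.fst_sub,
    TrivSqZeroExt.fst_inl, sub_self, isUnit_zero_iff]
  exact zero_ne_one

variable (𝒪) in
/-- The residue field of the dual numbers is that of the base. -/
theorem residue_algebraMap_dualNumber_surjective : Function.Surjective
    (residue (DualNumber (ResidueField 𝒪)) ∘ algebraMap 𝒪 (DualNumber (ResidueField 𝒪))) :=
  fun z => by
    obtain ⟨x, rfl⟩ := residue_surjective z
    obtain ⟨o, ho⟩ := residue_surjective (R := 𝒪) (TrivSqZeroExt.fst x)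
    exact ⟨o, by rw [residue_inl_fst x, ← ho]; rfl⟩

variable {p : ℕ} [hp : Fact p.Prime] [Algebra (ZMod p) (ResidueField 𝒪)]

section Cocycle

variable {R : Type} [CommRing R] [IsLocalRing R] [Algebra 𝒪 R] [IsLocalHom (algebraMap 𝒪 R)]
  {ρ : GaloisRepAdic R} {r : Γℚ →* M2 (ResidueField 𝒪)} (F : Frame ρ r)
  {T : Finset Nat.Primes} (hdet : ρ.DetIsCyclotomic p)
  (hun : ∀ q : Nat.Primes, q ∉ T → ρ.IsUnramifiedAt (q : ℕ))

include hun in
/-- Some level ramified only in `T` has matrices congruent to `1` modulo `𝔪²`. -/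
theorem exists_level_of : ∃ N, (galLevels (T : Set Nat.Primes)).IsLevel N ∧ ∀ s ∈ N, ∀ a c,
    matOf ρ F.b s a c - (1 : M2 R) a c ∈ maximalIdeal R ^ 2 :=
  F.exists_level fun q hq => hun q hq

/-- The global cocycle of a derivation. -/
def globZ {d : R → ResidueField 𝒪} (hd : IsDeriv F.π d) (hdO : ∀ o, d (algebraMap 𝒪 R o) = 0) :
    Coh.Z1 (galLevels (T : Set Nat.Primes)) (adRep p r) :=
  ⟨fun σ => ⟨tcoc F.π (matOf ρ F.b) d σ, trace_tcoc hd (F.deriv_det hdet hd hdO) σ⟩, by
    have hI : ∀ a ∈ maximalIdeal R, F.π a = 0 := fun a ha => (F.π_eq_zero a).mpr ha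
    refine Coh.mem_Z1.mpr ⟨?_, ?_⟩
    · obtain ⟨N, hN, hN'⟩ := exists_level_of F hun
      refine ⟨N, hN, fun γ s hs => Subtype.ext (tcoc_congr hd hI fun a b => ?_)⟩
      rw [map_mul, Matrix.mul_apply, Fin.sum_univ_two]
      have h0 := hN' s hs 0 b
      have h1 := hN' s hs 1 b
      have e : matOf ρ F.b γ a b = matOf ρ F.b γ a 0 * (1 : M2 R) 0 b +
          matOf ρ F.b γ a 1 * (1 : M2 R) 1 b := by
        conv_lhs => rw [← mul_one (matOf ρ F.b γ), Matrix.mul_apply, Fin.sum_univ_two]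
      rw [e, add_sub_add_comm, ← mul_sub, ← mul_sub]
      exact add_mem (Ideal.mul_mem_left _ _ h0) (Ideal.mul_mem_left _ _ h1)
    · funext σ σ'
      refine Subtype.ext ?_
      simp only [Coh.d₁_apply, Submodule.coe_add, AddSubgroupClass.coe_sub, coe_adRep,
        Pi.zero_apply, ZeroMemClass.coe_zero]
      rw [tcoc_mul hd, F.resHom_eq]
      abel⟩

/-- The values of `globZ` are the first order changes `tcoc`. -/
theorem coe_globZ {d : R → ResidueField 𝒪} (hd : IsDeriv F.π d)
    (hdO : ∀ o, d (algebraMap 𝒪 R o) = 0) (σ : Γℚ) :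
    (((globZ F hdet hun hd hdO).1 σ : adZero p (ResidueField 𝒪)) : M2 (ResidueField 𝒪)) =
      tcoc F.π (matOf ρ F.b) d σ := rfl

/-- A first order deformation which is a coboundary is conjugate to the constant one. -/
theorem exists_conj_dualHom {d : R → ResidueField 𝒪} (hd : IsDeriv F.π d)
    {m : M2 (ResidueField 𝒪)}
    (hm : ∀ σ, tcoc F.π (matOf ρ F.b) d σ = r σ * m * r σ⁻¹ - m) :
    ∃ P : (M2 (DualNumber (ResidueField 𝒪)))ˣ, ∀ σ,
      (P : M2 (DualNumber (ResidueField 𝒪))) *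
          mapHom ((TrivSqZeroExt.inlHom (ResidueField 𝒪) (ResidueField 𝒪)).comp F.π)
            (matOf ρ F.b) σ =
        mapHom (dualHom F hd) (matOf ρ F.b) σ * (P : M2 (DualNumber (ResidueField 𝒪))) := by
  set E : M2 (DualNumber (ResidueField 𝒪)) := m.map fun x => TrivSqZeroExt.inr x
  have hEE : E * E = 0 := by
    refine Matrix.ext fun i j => ?_
    rw [Matrix.mul_apply, Matrix.zero_apply]
    exact Finset.sum_eq_zero fun c _ => TrivSqZeroExt.inr_mul_inr _ _ _
  refine ⟨⟨1 - E, 1 + E, by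
      rw [sub_mul, mul_add, mul_add, one_mul, one_mul, mul_one, hEE]; abel,
    by rw [add_mul, mul_sub, mul_sub, one_mul, one_mul, mul_one, hEE]; abel⟩, fun σ => ?_⟩
  have hc : ∀ a c, d (matOf ρ F.b σ a c) = (r σ * m - m * r σ) a c := fun a c => by
    have h1 := map_eq_tcoc_mul (π := F.π) (rep := matOf ρ F.b) (d := d) σ
    rw [hm σ, F.resHom_eq, sub_mul, mul_assoc (r σ * m), hom_inv_mul, mul_one] at h1
    exact congrFun (congrFun h1 a) c
  have hr' : ∀ a c, F.π (matOf ρ F.b σ a c) = r σ a c := fun a c => by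
    rw [← F.res σ]; rfl
  refine Matrix.ext fun i j => TrivSqZeroExt.ext ?_ ?_
  · fin_cases i <;> fin_cases j <;>
      simp [E, Matrix.mul_apply, Fin.sum_univ_two, mapHom_apply, fst_dualHom, hr']
  · fin_cases i <;> fin_cases j <;>
      simp [E, Matrix.mul_apply, Fin.sum_univ_two, mapHom_apply, fst_dualHom,
        snd_dualHom, hr', hc] <;> ring

end Cocycle

variable {ρbar : ResidualGaloisRep (ResidueField 𝒪)}
  {𝒟 : ∀ ⦃A : Type⦄ [CommRing A] [IsLocalRing A] [Algebra 𝒪 A], GaloisRepAdic A → Prop}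
  (DQ : GaloisRep.DeformationRingData 𝒪 ρbar 𝒟) (b₀ : Module.Basis (Fin 2) (ResidueField 𝒪) ρbar.V)
  (F : Frame DQ.ρ (resMat ρbar b₀))

/-- **A first order deformation which is a coboundary is trivial.** -/
theorem deriv_eq_zero
    (hpush : ∀ (φ : DQ.R →+* DualNumber (ResidueField 𝒪)) (hφ : Function.Surjective φ),
      𝒟 (pushRep φ hφ DQ.ρ F.b))
    {d : DQ.R → ResidueField 𝒪} (hd : IsDeriv F.π d) (hdO : ∀ o, d (algebraMap 𝒪 DQ.R o) = 0)
    {m : M2 (ResidueField 𝒪)}
    (hm : ∀ σ, tcoc F.π (matOf DQ.ρ F.b) d σ =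
      resMat ρbar b₀ σ * m * resMat ρbar b₀ σ⁻¹ - m) : d = 0 := by
  by_contra hne
  -- `d` and `0` give two homomorphisms to the dual numbers with conjugate representations
  have hsurj := dualHom_surjective F hd hdO hne
  have hπ : ∀ o, F.π (algebraMap 𝒪 DQ.R o) = residue 𝒪 o := fun o => RingHom.congr_fun F.π_alg o
  set rep := matOf DQ.ρ F.b
  let φd : DQ.R →ₐ[𝒪] DualNumber (ResidueField 𝒪) :=
    { dualHom F hd with
      commutes' := fun o => by
        refine TrivSqZeroExt.ext ?_ ?_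
        · exact (fst_dualHom F hd _).trans (hπ o)
        · exact (snd_dualHom F hd _).trans (hdO o) }
  let φ0 : DQ.R →ₐ[𝒪] DualNumber (ResidueField 𝒪) :=
    { (TrivSqZeroExt.inlHom (ResidueField 𝒪) (ResidueField 𝒪)).comp F.π with
      commutes' := fun o => by
        change TrivSqZeroExt.inl (F.π (algebraMap 𝒪 DQ.R o)) = _
        rw [hπ]; rfl }
  have : Finite (DualNumber (ResidueField 𝒪)) :=
    inferInstanceAs (Finite (ResidueField 𝒪 × ResidueField 𝒪))
  have := isAdicComplete_dualNumber (ResidueField 𝒪)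
  have : IsLocalHom (algebraMap 𝒪 (DualNumber (ResidueField 𝒪))) := ⟨fun o ho => by
    have h1 := ho.map (TrivSqZeroExt.fstHom (ResidueField 𝒪) (ResidueField 𝒪) (ResidueField 𝒪))
    by_contra hu
    exact h1.ne_zero ((residue_eq_zero_iff o).mpr hu)⟩
  have hres := residue_algebraMap_dualNumber_surjective 𝒪
  have hl : ∀ φ : DQ.R →ₐ[𝒪] DualNumber (ResidueField 𝒪),
      (∀ a, TrivSqZeroExt.fst (φ a) = F.π a) →
        IsLocalHom (φ : DQ.R →+* DualNumber (ResidueField 𝒪)) := by
    refine fun φ hφ => ⟨fun a ha => ?_⟩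
    have h1 := TrivSqZeroExt.isUnit_iff_isUnit_fst.mp ha
    rw [show ((φ : DQ.R →+* DualNumber (ResidueField 𝒪)) a) = φ a from rfl, hφ] at h1
    by_contra hu
    exact h1.ne_zero ((F.π_eq_zero a).mpr hu)
  have hld := hl φd fun a => fst_dualHom F hd a
  have hl0 := hl φ0 fun a => TrivSqZeroExt.fst_inl _ _
  set φ : DQ.R →+* DualNumber (ResidueField 𝒪) := (φd : DQ.R →+* DualNumber (ResidueField 𝒪))
  have hφs : Function.Surjective φ := hsurj
  set ρA := pushRep φ hφs DQ.ρ F.b
  have hresA : ρA.residual.IsEquiv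
      (ρbar.baseChangeAlong (ResidueField.map (algebraMap 𝒪 (DualNumber (ResidueField 𝒪))))) := by
    refine (residual_isEquiv_iff ρbar _ b₀ _).mpr ⟨1, fun σ => ?_⟩
    rw [Units.val_one, one_mul, mul_one]
    refine Matrix.ext fun i j => ?_
    obtain ⟨o, ho⟩ := residue_surjective (resMat ρbar b₀ σ i j)
    change residue _ (φ (rep σ i j)) = ResidueField.map _ (resMat ρbar b₀ σ i j)
    have h1 : F.π (rep σ i j) = resMat ρbar b₀ σ i j := by
      rw [← F.res σ]; rfl
    rw [residue_inl_fst, show TrivSqZeroExt.fst (φ (rep σ i j)) = F.π (rep σ i j) from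
      fst_dualHom F hd _, h1, ← ho, ResidueField.map_residue]
    rfl
  obtain ⟨e₀⟩ := equiv_repOf_matOf DQ.ρ F.b
  have hbc : ∀ ψ : DQ.R →+* DualNumber (ResidueField 𝒪), ∀ hψ : IsLocalHom ψ,
      (DQ.ρ.baseChangeAlong ψ hψ).IsEquiv
        (repOf (mapHom ψ rep) (matCont_mapHom (matCont_matOf DQ.ρ F.b) ψ hψ)) := fun ψ hψ => by
    obtain ⟨e₁⟩ := isEquiv_baseChange (matCont_matOf DQ.ρ F.b) ψ hψ
    exact ⟨(e₀.baseChangeAlong ψ hψ).trans e₁⟩
  -- both represent the same deformation, so they are equal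
  obtain ⟨φu, -, huniq⟩ := DQ.universal (DualNumber (ResidueField 𝒪)) hres ρA (hpush φ hφs) hresA
  have hd' := huniq φd ⟨hld, hbc φ hld⟩
  have h0' := huniq φ0 ⟨hl0, by
    obtain ⟨e₁⟩ := hbc (φ0 : DQ.R →+* DualNumber (ResidueField 𝒪)) hl0
    obtain ⟨P, hP⟩ := exists_conj_dualHom F hd hm
    obtain ⟨e₂⟩ := (isEquiv_repOf_iff _ _ (matCont_mapHom (matCont_matOf DQ.ρ F.b) _ hl0)
      (matCont_mapHom (matCont_matOf DQ.ρ F.b) φ hld)).mpr ⟨P, hP⟩
    exact ⟨e₁.trans e₂⟩⟩
  refine hne (funext fun a => ?_)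
  have h := congrArg TrivSqZeroExt.snd (DFunLike.congr_fun (hd'.trans h0'.symm) a)
  rw [show TrivSqZeroExt.snd (φd a) = d a from snd_dualHom F hd a] at h
  exact h.trans (TrivSqZeroExt.snd_inl _ _)

/-- **Generators.** If the Selmer group of the local conditions has order at most `#k ^ N`, the
deformation ring is a quotient of the power series in `N` variables. -/
theorem exists_surjective_of_selmer {T T' : Finset Nat.Primes}
    (hdet : DQ.ρ.DetIsCyclotomic p)
    (hun : ∀ q : Nat.Primes, q ∉ T' → DQ.ρ.IsUnramifiedAt (q : ℕ))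
    (hpush : ∀ (φ : DQ.R →+* DualNumber (ResidueField 𝒪)) (hφ : Function.Surjective φ),
      𝒟 (pushRep φ hφ DQ.ρ F.b))
    (L : ∀ v : Nat.Primes, Submodule (ZMod p) (LH1 v (adRep p (resMat ρbar b₀))))
    (hloc : ∀ (d : DQ.R → ResidueField 𝒪), IsDeriv F.π d → (∀ o, d (algebraMap 𝒪 DQ.R o) = 0) →
      ∀ v ∈ T, ∀ z : Coh.Z1 (glev (decAt v).subtype) (repAt v (adRep p (resMat ρbar b₀))),
        (∀ δ, ((z.1 δ : adZero p (ResidueField 𝒪)) : M2 (ResidueField 𝒪)) =
          tcoc F.π (matOf DQ.ρ F.b) d δ.1) →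
        Coh.cl₁ (glev (decAt v).subtype) (repAt v (adRep p (resMat ρbar b₀))) z ∈ L v)
    {N : ℕ}
    (hfin : Finite (selAt T' (adRep p (resMat ρbar b₀)) fun v => if v ∈ T then L v else ⊤))
    (hcard : Nat.card (selAt T' (adRep p (resMat ρbar b₀)) fun v => if v ∈ T then L v else ⊤) ≤
      Nat.card (ResidueField 𝒪) ^ N) :
    ∃ γ : MvPowerSeries (Fin N) 𝒪 →ₐ[𝒪] DQ.R, Function.Surjective γ := by
  classical
  have : Finite (ResidueField DQ.R) := Finite.of_equiv _ F.e.toEquiv
  have := hfin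
  -- a tangent vector gives a class in the Selmer group, injectively
  set K := Patch.tangentSpace 𝒪 DQ.R
  let der : K → DQ.R → ResidueField 𝒪 := fun l a => F.e.symm (l.1 a)
  have hder : ∀ l, IsDeriv F.π (der l) := fun l =>
    ⟨fun a b => by simp only [der, l.2.1, map_add], fun a b => by
      simp only [der, l.2.2.1, map_add, map_mul, ← F.e_π, RingEquiv.symm_apply_apply]⟩
  have hderO : ∀ l o, der l (algebraMap 𝒪 DQ.R o) = 0 := fun l o => by
    simp only [der, l.2.2.2, map_zero]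
  set Sel := selAt T' (adRep p (resMat ρbar b₀)) fun v => if v ∈ T then L v else ⊤
  have hmem : ∀ l, Coh.cl₁ (galLevels (T' : Set Nat.Primes)) (adRep p (resMat ρbar b₀))
      (globZ F hdet hun (hder l) (hderO l)) ∈ Sel := fun l => mem_selAt.mpr fun v hv => by
    change _ ∈ if v ∈ T then L v else ⊤
    split_ifs with hvT
    · exact hloc _ (hder l) (hderO l) v hvT _ fun δ => rfl
    · exact Submodule.mem_top
  let Φ : K → Sel := fun l => ⟨_, hmem l⟩
  have hΦ : Function.Injective Φ := fun l l' h => by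
    obtain ⟨m, hm⟩ := Coh.cl₁_eq_iff.mp (congrArg Subtype.val h)
    have hsub : ∀ a, der (l - l') a = der l a - der l' a := fun a => map_sub F.e.symm _ _
    have h0 := deriv_eq_zero DQ b₀ F hpush (hder (l - l')) (hderO (l - l')) (m := m.1) fun σ => by
      have h1 := congrArg (Subtype.val) (congrFun hm σ)
      have h2 : tcoc F.π (matOf DQ.ρ F.b) (der (l - l')) σ =
          tcoc F.π (matOf DQ.ρ F.b) (der l) σ - tcoc F.π (matOf DQ.ρ F.b) (der l') σ := by
        rw [tcoc, tcoc, tcoc, ← sub_mul]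
        congr 1
        exact Matrix.ext fun i j => hsub _
      rw [h2]
      simp only [Coh.d₀_apply, AddSubgroupClass.coe_sub, coe_adRep, Pi.sub_apply] at h1
      rw [coe_globZ, coe_globZ] at h1
      exact h1.symm
    refine Subtype.ext (funext fun a => F.e.symm.injective (sub_eq_zero.mp ?_))
    rw [← hsub]
    exact congrFun h0 a
  have : Finite K := Finite.of_injective Φ hΦ
  -- so `N` elements separate the tangent space and generate the ring
  obtain ⟨z, hz, hsep⟩ := Patch.exists_separating DQ.residue_surjective N K le_rfl ‹_›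
    ((Nat.card_le_card_of_injective Φ hΦ).trans (hcard.trans (le_of_eq (by
      rw [Nat.card_congr F.e.toEquiv]))))
  obtain ⟨θ, hθ⟩ := exists_evalHom (𝒪 := 𝒪) z hz
  have : IsLocalHom (θ : MvPowerSeries (Fin N) 𝒪 →+* DQ.R) := by
    refine ⟨fun f hf => ?_⟩
    by_contra hu
    exact map_mem_maximalIdeal θ (fun v => by rw [hθ]; exact hz v)
      (fun h => hu (MvPowerSeries.isUnit_iff_constantCoeff.mpr h)) hf
  exact ⟨θ, Patch.surjective_of_tangent θ DQ.residue_surjective fun l hl hlf =>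
    hsep l hl fun i => by rw [← hθ i]; exact hlf _⟩

end Fermat.GR.S56

end
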