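import Mathlib
import Fermat.Agent.GR.S56.Count
import Fermat.Agent.GR.S56.LocalUnip
import Fermat.Agent.GR.S56.Tangent
import Fermat.Agent.CFT.Global.GW

/-!
# Taylor–Wiles primes bounding the generators of the deformation rings

The residual representation is big (`isBig_resMat`); the Selmer count with the unipotent conditions
at the ramified primes and a condition at `p` gives the primes (`exists_primes`).  The condition at
`p` is strict ordinary (`exists_primes_strict`) or flat (`exists_primes_flat`).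
-/

set_option autoImplicit false
set_option linter.unusedSectionVars false

noncomputable section

open IsLocalRing Fermat.CFT Fermat.GR.RT ExtCitation Polynomial
open scoped TensorProduct Pointwise

namespace Fermat.GR.S56

local notation "ℚbar" => AlgebraicClosure ℚ
local notation "Γℚ" => (AlgebraicClosure ℚ ≃ₐ[ℚ] AlgebraicClosure ℚ)
local notation "M2" R => Matrix (Fin 2) (Fin 2) R

/-! ### The residual representation -/

section Residual

variable {k : Type} [Field k] (ρbar : ResidualGaloisRep k)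
  (b₀ : Module.Basis (Fin 2) k ρbar.V)

/-- `resMat` is the matrix of the residual representation in the basis `b₀`. -/
theorem resMat_apply (σ : Γℚ) : resMat ρbar b₀ σ = LinearMap.toMatrix b₀ b₀ (ρbar.ρ σ) := rfl

/-- Where the residual representation is trivial its matrix is `1`. -/
theorem resMat_eq_one {σ : Γℚ} (h : ρbar.ρ σ = 1) : resMat ρbar b₀ σ = 1 := by
  rw [resMat_apply, h, LinearMap.toMatrix_one]

/-- Where the matrix is `1` the residual representation is trivial. -/
theorem rho_eq_one_of_resMat {σ : Γℚ} (h : resMat ρbar b₀ σ = 1) : ρbar.ρ σ = 1 :=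
  (LinearMap.toMatrix b₀ b₀).injective (by rw [← resMat_apply, h, LinearMap.toMatrix_one])

/-- The characteristic polynomial of the residual representation, by trace and determinant of
`resMat`. -/
theorem charpoly_resMat (σ : Γℚ) : LinearMap.charpoly (ρbar.ρ σ) =
    X ^ 2 - C (resMat ρbar b₀ σ).trace * X + C (resMat ρbar b₀ σ).det := by
  rw [← LinearMap.charpoly_toMatrix _ b₀, ← resMat_apply, Matrix.charpoly_fin_two]

/-- A factorisation of the characteristic polynomial gives the trace and determinant of `resMat`. -/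
theorem roots_resMat {σ : Γℚ} {α β : k}
    (h : LinearMap.charpoly (ρbar.ρ σ) = (X - C α) * (X - C β)) :
    (resMat ρbar b₀ σ).trace = α + β ∧ (resMat ρbar b₀ σ).det = α * β := by
  rw [charpoly_resMat ρbar b₀] at h
  have h0 := congrArg (Polynomial.eval 0) h
  have h1 := congrArg (Polynomial.eval 1) h
  simp at h0 h1
  exact ⟨by linear_combination h0 - h1, h0⟩

/-- A common eigenvector gives a stable line after extending the scalars. -/
theorem exists_line {K : Type} [Field K] [Algebra k K] (H : Subgroup Γℚ) {v : Fin 2 → k}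
    (hv : v ≠ 0) (heig : ∀ g ∈ H, ∃ c : k, Matrix.mulVec (resMat ρbar b₀ g) v = c • v) :
    ∃ V : Submodule K (ρbar.baseChange K).V,
      (∀ σ ∈ H, ∀ x ∈ V, (ρbar.baseChange K).ρ σ x ∈ V) ∧ V ≠ ⊥ ∧ V ≠ ⊤ := by
  set w := b₀.equivFun.symm v with hw
  have hwv : ⇑(b₀.repr w) = v := by
    rw [← Module.Basis.equivFun_apply, hw, LinearEquiv.apply_symm_apply]
  set u : K ⊗[k] ρbar.V := (1 : K) ⊗ₜ[k] w
  have hu : u ≠ 0 := fun h => hv (funext fun i => (algebraMap k K).injective (by
    have h1 := congrArg (fun z => (Algebra.TensorProduct.basis K b₀).repr z i) h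
    simp only [u, Algebra.TensorProduct.basis_repr_tmul, map_zero, Finsupp.zero_apply,
      Finsupp.smul_apply, Finsupp.mapRange_apply, smul_eq_mul, one_mul] at h1
    rw [Pi.zero_apply, map_zero, ← h1, ← hwv]))
  refine ⟨Submodule.span K {u}, fun σ hσ x hx => ?_, ?_, fun htop => ?_⟩
  · obtain ⟨c, rfl⟩ := Submodule.mem_span_singleton.mp hx
    obtain ⟨e, he⟩ := heig σ hσ
    have hρw : ρbar.ρ σ w = e • w := b₀.equivFun.injective (by
      rw [map_smul, Module.Basis.equivFun_apply, Module.Basis.equivFun_apply, hwv, ← he,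
        ← LinearMap.toMatrix_mulVec_repr b₀ b₀ (ρbar.ρ σ) w, hwv, resMat_apply])
    rw [map_smul]
    refine Submodule.smul_mem _ _ ?_
    change (ρbar.ρ σ).baseChange K u ∈ _
    rw [LinearMap.baseChange_tmul, hρw, TensorProduct.tmul_smul, ← algebraMap_smul K e]
    exact Submodule.smul_mem _ _ (Submodule.mem_span_singleton_self _)
  · rw [Ne, Submodule.span_singleton_eq_bot]; exact hu
  · have h1 : Module.finrank K (Submodule.span K {u}) = 1 := finrank_span_singleton hu
    rw [htop, finrank_top, (ρbar.baseChange K).finrank_eq] at h1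
    exact absurd h1 (by norm_num)

/-- The elements killed by `resMat` form the kernel of its map to units. -/
theorem setOf_resMat_eq_one :
    {σ : Γℚ | resMat ρbar b₀ σ = 1} = ((resMat ρbar b₀).toHomUnits.ker : Set Γℚ) := by
  ext σ
  simp [MonoidHom.mem_ker]

/-- The kernel of `resMat` is open. -/
theorem isOpen_resMat : IsOpen {σ : Γℚ | resMat ρbar b₀ σ = 1} := by
  obtain ⟨L, hL, h⟩ := ρbar.factorsThroughFiniteLevel
  have := hL
  rw [setOf_resMat_eq_one]
  refine Subgroup.isOpen_mono (fun σ hσ => MonoidHom.mem_ker.mpr (Units.ext ?_))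
    (IntermediateField.fixingSubgroup_isOpen L)
  exact resMat_eq_one ρbar b₀ (h σ fun x hx =>
    (IntermediateField.mem_fixingSubgroup_iff L σ).mp hσ x hx)

end Residual

variable {𝒪 : Type} [CommRing 𝒪] [IsDomain 𝒪] [IsDiscreteValuationRing 𝒪]
  [IsAdicComplete (maximalIdeal 𝒪) 𝒪] [Finite (ResidueField 𝒪)]
  (p : ℕ) [hp : Fact p.Prime] [Algebra (ZMod p) (ResidueField 𝒪)]
  (ρbar : ResidualGaloisRep (ResidueField 𝒪))
  (b₀ : Module.Basis (Fin 2) (ResidueField 𝒪) ρbar.V)

/-- The hypotheses of the theorem on the residual representation. -/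
structure ResHyp (Smin : Finset ℕ) : Prop where
  /-- `p` is odd. -/
  two_lt : 2 < p
  /-- The residual representation is absolutely irreducible. -/
  absIrr : ρbar.IsAbsolutelyIrreducible
  /-- Its determinant is cyclotomic. -/
  det : (GaloisRepAdic.ofResidualGaloisRep ρbar).DetIsCyclotomic p
  /-- Its characteristic polynomials split over the residue field. -/
  split : ∀ σ : Γℚ,
      ∃ α β : ResidueField 𝒪, LinearMap.charpoly (ρbar.ρ σ) = (X - C α) * (X - C β)
  /-- It stays irreducible on subgroups of index two after every extension of scalars. -/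
  tw : ∀ (K : Type) [Field K] [Algebra (ResidueField 𝒪) K] (G : Subgroup Γℚ), G.index = 2 →
      ∀ V : Submodule K (ρbar.baseChange K).V,
        (∀ σ ∈ G, ∀ x ∈ V, (ρbar.baseChange K).ρ σ x ∈ V) → V = ⊥ ∨ V = ⊤
  /-- `p` is in the minimal set. -/
  p_mem : p ∈ Smin
  /-- Away from `p` the minimal set consists of the ramified primes. -/
  minimal : ∀ q : ℕ, q.Prime → q ≠ p → (q ∈ Smin ↔ ¬ ρbar.IsUnramifiedAt q)

variable {p ρbar} {S Smin : Finset ℕ} (H : ResHyp p ρbar Smin)

include H in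
/-- The residual determinant is the mod `p` cyclotomic character. -/
theorem det_resMat (σ : Γℚ) : (resMat ρbar b₀ σ).det =
    algebraMap (ZMod p) (ResidueField 𝒪) ((cycloChar p σ : (ZMod p)ˣ) : ZMod p) := by
  obtain ⟨a, ha, hω⟩ := algebraMap_cycChar (𝒪 := 𝒪) (p := p) σ
  refine Eq.trans ?_ hω.symm
  have : CharP (ResidueField 𝒪) p :=
    charP_of_injective_algebraMap (algebraMap (ZMod p) (ResidueField 𝒪)).injective p
  have h1 := H.det.2 1 σ a (by simpa using ha)
  rw [pow_one, CharP.cast_eq_zero, Ideal.span_singleton_eq_bot.mpr rfl, Ideal.mem_bot,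
    sub_eq_zero] at h1
  rw [resMat_apply, LinearMap.det_toMatrix]
  exact h1

include H in
/-- The residual representation is big. -/
theorem isBig_resMat : IsBig (resMat ρbar b₀) where
  two_ne := two_ne_zero_of_two_lt H.two_lt
  split g := by
    obtain ⟨α, β, h⟩ := H.split g
    obtain ⟨ht, hd⟩ := roots_resMat ρbar b₀ h
    exact ⟨α, by rw [ht, hd]; ring⟩
  noEig G hG v hv heig := by
    -- an eigenvector of everything contradicts irreducibility, of an index two subgroup `tw`
    rcases hG with rfl | hG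
    · obtain ⟨V, hV, hb, ht⟩ :=
        exists_line ρbar b₀ (K := AlgebraicClosure (ResidueField 𝒪)) ⊤ hv heig
      rcases H.absIrr V (fun σ => hV σ (Subgroup.mem_top σ)) with h | h
      · exact hb h
      · exact ht h
    · obtain ⟨V, hV, hb, ht⟩ := exists_line ρbar b₀ (K := ResidueField 𝒪) G hv heig
      rcases H.tw (ResidueField 𝒪) G hG V hV with h | h
      · exact hb h
      · exact ht h

/-- The ramified primes and `p`. -/
def minT (Smin : Finset ℕ) : Finset Nat.Primes := Smin.subtype Nat.Prime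

/-- Membership in `minT Smin` is membership in `Smin`. -/
theorem mem_minT {v : Nat.Primes} : v ∈ minT Smin ↔ (v : ℕ) ∈ Smin := Finset.mem_subtype

include H in
/-- The residual representation is trivial on inertia outside `Smin`. -/
theorem inertia_eq_one {v : Nat.Primes} (hv : (v : ℕ) ∉ Smin) {A : ValuationSubring ℚbar}
    (hA : A.LiesOverPrime (v : ℕ)) {σ : Γℚ} (hσ : σ ∈ A.inertiaSubgroupIn ℚ) : ρbar.ρ σ = 1 := by
  have hvp : (v : ℕ) ≠ p := fun h => hv (h ▸ H.p_mem)
  have hu : ρbar.IsUnramifiedAt v := by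
    by_contra hu
    exact hv ((H.minimal v v.2 hvp).mpr hu)
  exact hu A hA σ hσ

include H in
/-- `resMat` is trivial on some level ramified only inside `Smin`. -/
theorem exists_level_resMat :
    ∃ N, (galLevels (minT Smin : Set Nat.Primes)).IsLevel N ∧
      ∀ s ∈ N, resMat ρbar b₀ s = 1 := by
  obtain ⟨N, hN, hle⟩ := exists_level_le_of_isOpen (S := (minT Smin : Set Nat.Primes))
    (resMat ρbar b₀).toHomUnits.ker (setOf_resMat_eq_one ρbar b₀ ▸ isOpen_resMat ρbar b₀)
    fun q hq A hA σ hσ => MonoidHom.mem_ker.mpr (Units.ext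
      (resMat_eq_one ρbar b₀ (inertia_eq_one H (fun h => hq (mem_minT.mpr h)) hA hσ)))
  exact ⟨N, hN, fun s hs => congrArg Units.val (MonoidHom.mem_ker.mp (hle hs))⟩

include H in
/-- At a prime of `Smin` other than `p` some inertia element has nontrivial residual image. -/
theorem exists_inertia_resMat_ne_one {v : Nat.Primes} (hv : (v : ℕ) ∈ Smin) (hvp : (v : ℕ) ≠ p) :
    ∃ σ ∈ (placeAt v).inertiaSubgroupIn ℚ, resMat ρbar b₀ σ ≠ 1 := by
  by_contra hcon
  push Not at hcon
  refine (H.minimal v v.2 hvp).mp hv fun B hB σ hσ => ?_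
  obtain ⟨g, rfl⟩ := exists_smul_place v.2 (placeAt_spec v) hB
  have h1 := mem_inertiaSubgroupIn_smul v.2 hB hσ g⁻¹
  rw [inv_smul_smul, inv_inv] at h1
  have h2 := rho_eq_one_of_resMat ρbar b₀ (hcon _ h1)
  calc ρbar.ρ σ = ρbar.ρ g * ρbar.ρ (g⁻¹ * σ * g) * ρbar.ρ g⁻¹ := by
        rw [← map_mul, ← map_mul]; group
    _ = 1 := by rw [h2, mul_one, ← map_mul, mul_inv_cancel, map_one]

/-- Inertia acts unipotently at the ramified primes away from `p`. -/
def UnipRes (p : ℕ) (r : Γℚ →* M2 (ResidueField 𝒪)) (Smin : Finset ℕ) : Prop :=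
  ∀ v : Nat.Primes, (v : ℕ) ∈ Smin → (v : ℕ) ≠ p → ∀ σ ∈ (placeAt v).inertiaSubgroupIn ℚ,
    (r σ - 1) * (r σ - 1) = 0

section Deformation

variable {R : Type} [CommRing R] [IsLocalRing R] [Algebra 𝒪 R] [IsLocalHom (algebraMap 𝒪 R)]
  {ρ : GaloisRepAdic R} {r : Γℚ →* M2 (ResidueField 𝒪)}

/-- Where `ρ σ` has characteristic polynomial `(X - 1)²` its trace is `2` and its determinant
`1`. -/
theorem trace_det_unip (b : Module.Basis (Fin 2) R ρ.V) {σ : Γℚ}
    (h : LinearMap.charpoly (ρ.ρ σ) = (X - 1) ^ 2) :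
    (matOf ρ b σ).trace = 2 ∧ (matOf ρ b σ).det = 1 := by
  rw [← LinearMap.charpoly_toMatrix _ b, ← matOf_apply, Matrix.charpoly_fin_two] at h
  have h0 := congrArg (Polynomial.eval 0) h
  have h1 := congrArg (Polynomial.eval 1) h
  simp at h0 h1
  exact ⟨by linear_combination h0 - h1, h0⟩

/-- Unipotent inertia of a deformation gives unipotent residual inertia. -/
theorem unipRes_of (F : Frame ρ r) (h : ∀ q ∈ Smin, q.Prime → q ≠ p → ρ.IsUnipotentOnInertiaAt q) :
    UnipRes p r Smin := fun v hv hvp σ hσ => by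
  obtain ⟨ht, hd⟩ := trace_det_unip F.b (h v hv v.2 hvp (placeAt v) (placeAt_spec v) σ hσ)
  have ht' := congrArg F.π ht
  have hd' := congrArg F.π hd
  rw [Matrix.trace_fin_two, map_add, map_ofNat] at ht'
  rw [Matrix.det_fin_two, map_sub, map_mul, map_mul, map_one] at hd'
  rw [← F.res σ]
  ext i j
  fin_cases i <;> fin_cases j <;> simp [Matrix.mul_apply, Fin.sum_univ_two]
  · linear_combination (F.π (matOf ρ F.b σ 0 0)) * ht' - hd'
  · linear_combination (F.π (matOf ρ F.b σ 0 1)) * ht'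
  · linear_combination (F.π (matOf ρ F.b σ 1 0)) * ht'
  · linear_combination (F.π (matOf ρ F.b σ 1 1)) * ht' - hd'

/-- At a unipotent inertia element a first order change has trace zero against `r σ`. -/
theorem trace_tcoc_unip (F : Frame ρ r)
    (h : ∀ q ∈ Smin, q.Prime → q ≠ p → ρ.IsUnipotentOnInertiaAt q)
    {v : Nat.Primes} (hv : (v : ℕ) ∈ Smin) (hvp : (v : ℕ) ≠ p) {σ : Γℚ}
    (hσ : σ ∈ (placeAt v).inertiaSubgroupIn ℚ) {d : R → ResidueField 𝒪} (hd : IsDeriv F.π d) :
    (tcoc F.π (matOf ρ F.b) d σ * r σ).trace = 0 := by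
  obtain ⟨ht, -⟩ := trace_det_unip F.b (h v hv v.2 hvp (placeAt v) (placeAt_spec v) σ hσ)
  have h1 := map_eq_tcoc_mul (π := F.π) (rep := matOf ρ F.b) (d := d) σ
  rw [F.resHom_eq] at h1
  rw [← h1, trace_map_eq hd, ht, ← one_add_one_eq_two, hd.add, hd.one, add_zero]

end Deformation

/-! ### The primes -/

include H in
/-- **The primes, given a local condition at `p`.** -/
theorem exists_primes (hun : UnipRes p (resMat ρbar b₀) Smin)
    (Sp : Submodule (ZMod p) (LH1 (pPrime p) (adRep p (resMat ρbar b₀))))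
    (hSp : Nat.card Sp ≤ Nat.card (Coh.H0 (repAt (pPrime p) (adRep p (resMat ρbar b₀)))) *
      Nat.card (ResidueField 𝒪)) :
    ∃ N : ℕ, ∀ n : ℕ, ∃ qv : Fin N → ℕ, Function.Injective qv ∧
      (∀ i, (qv i).Prime ∧ qv i ∉ S ∧ p ^ (n + 1) ∣ qv i - 1) ∧
      (∀ i, ∀ P : ValuationSubring ℚbar, P.LiesOverPrime (qv i) →
        ∀ φ : Γℚ, P.IsFrobeniusAt φ (qv i) →
          ∃ α β : ResidueField 𝒪, α ≠ β ∧ LinearMap.charpoly (ρbar.ρ φ) = (X - C α) * (X - C β)) ∧
      ∀ (𝒟 : ∀ ⦃A : Type⦄ [CommRing A] [IsLocalRing A] [Algebra 𝒪 A], GaloisRepAdic A → Prop)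
        (DQ : GaloisRep.DeformationRingData 𝒪 ρbar 𝒟),
        DQ.ρ.DetIsCyclotomic p →
        (∀ q : ℕ, q.Prime → q ∉ Smin ∪ Finset.univ.image qv → DQ.ρ.IsUnramifiedAt q) →
        (∀ q ∈ Smin, q.Prime → q ≠ p → DQ.ρ.IsUnipotentOnInertiaAt q) →
        (∀ (φ : DQ.R →+* DualNumber (ResidueField 𝒪)) (hφ : Function.Surjective φ)
          (b : Module.Basis (Fin 2) DQ.R DQ.ρ.V), 𝒟 (pushRep φ hφ DQ.ρ b)) →
        (∀ (F : Frame DQ.ρ (resMat ρbar b₀)) (d : DQ.R → ResidueField 𝒪), IsDeriv F.π d →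
          (∀ o, d (algebraMap 𝒪 DQ.R o) = 0) →
          ∀ z : Coh.Z1 (glev (decAt (pPrime p)).subtype)
              (repAt (pPrime p) (adRep p (resMat ρbar b₀))),
            (∀ δ, ((z.1 δ : adZero p (ResidueField 𝒪)) : M2 (ResidueField 𝒪)) =
              tcoc F.π (matOf DQ.ρ F.b) d δ.1) →
            Coh.cl₁ (glev (decAt (pPrime p)).subtype)
              (repAt (pPrime p) (adRep p (resMat ρbar b₀))) z ∈ Sp) →
        ∃ γ : MvPowerSeries (Fin N) 𝒪 →ₐ[𝒪] DQ.R, Function.Surjective γ := by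
  classical
  set T := minT Smin with hTdef
  have hpT : pPrime p ∈ T := mem_minT.mpr H.p_mem
  obtain ⟨N₀, hN₀, hr1⟩ := exists_level_resMat b₀ H
  have hr : ∃ N, (galLevels (T : Set Nat.Primes)).IsLevel N ∧ ∀ s ∈ N, (resMat ρbar b₀) s = 1 :=
    ⟨N₀, hN₀, hr1⟩
  -- the local conditions
  have hsm : Coh.IsSmooth (galLevels (T : Set Nat.Primes)) (adRep p (resMat ρbar b₀)) := fun X =>
    ⟨N₀, hN₀, fun s hs => Subtype.ext (by
      rw [coe_adRep, hr1 s hs, hr1 _ (inv_mem hs), one_mul, mul_one])⟩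
  have hex : ∀ v : Nat.Primes, (v : ℕ) ∈ Smin ∧ (v : ℕ) ≠ p → _ := fun v h =>
    exists_unipCond (p := p) (r := resMat ρbar b₀) (two_ne_zero_of_two_lt H.two_lt) hsm hr h.2
      (hun v h.1 h.2)
      (exists_inertia_resMat_ne_one b₀ H h.1 h.2)
  choose Sv hSv hSvz using hex
  let L : ∀ v : Nat.Primes, Submodule (ZMod p) (LH1 v (adRep p (resMat ρbar b₀))) := fun v =>
    if hv : v = pPrime p then hv ▸ Sp
    else if h : (v : ℕ) ∈ Smin ∧ (v : ℕ) ≠ p then Sv v h else ⊥
  have hLp : L (pPrime p) = Sp := dif_pos rfl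
  have hLv : ∀ (v : Nat.Primes) (h : (v : ℕ) ∈ Smin ∧ (v : ℕ) ≠ p), L v = Sv v h := fun v h => by
    have hv : v ≠ pPrime p := fun e => h.2 (congrArg (fun w : Nat.Primes => (w : ℕ)) e)
    simp only [L]
    rw [dif_neg hv, dif_pos h]
  have hL : ∀ v ∈ T, v ∉ (∅ : Finset Nat.Primes) → Nat.card (L v) ≤
      Nat.card (Coh.H0 (repAt v (adRep p (resMat ρbar b₀)))) *
        if v = pPrime p then Nat.card (ResidueField 𝒪) else 1 := fun v hv _ => by
    by_cases hvp : v = pPrime p
    · subst hvp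
      rw [hLp, if_pos rfl]
      exact hSp
    · have h : (v : ℕ) ∈ Smin ∧ (v : ℕ) ≠ p := ⟨mem_minT.mp hv, fun e => hvp (Subtype.ext e)⟩
      rw [hLv v h, if_neg hvp, mul_one]
      exact hSv v h
  -- the Selmer count
  obtain ⟨N, hN⟩ := exists_twPrimes_selmer_le (r := resMat ρbar b₀) (isBig_resMat b₀ H)
    (det_resMat b₀ H)
    H.two_lt Fermat.CFT.gwBound hpT hsm hr ∅ (Finset.empty_subset _) (Finset.notMem_empty _) L
    (fun v hv => absurd hv (Finset.notMem_empty v)) hL S
  refine ⟨N, fun n => ?_⟩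
  obtain ⟨vs, hinj, hvs, hfin, hle⟩ := hN (n + 1)
  rw [Finset.prod_empty, mul_one] at hle
  refine ⟨fun i => (vs i : ℕ), fun i j h => hinj (Subtype.ext h),
    fun i => ⟨(vs i).2, (hvs i).1, (hvs i).2.2.2.1⟩, fun i P hP φ hφ => ?_, ?_⟩
  · obtain ⟨-, -, hI, φ₀, hφ₀, hreg⟩ := (hvs i).2.2
    have hns : (vs i : ℕ) ∉ Smin := fun h => (hvs i).2.1 (mem_minT.mpr h)
    obtain ⟨g, rfl⟩ := exists_smul_place (vs i).2 (placeAt_spec (vs i)) hP
    have h1 := inertia_eq_one H hns hP (mul_inv_mem_inertiaSubgroupIn (vs i).2 hP hφ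
      (isFrobeniusAt_conj (vs i).2 (placeAt_spec (vs i)) hφ₀ g))
    have h2 : (resMat ρbar b₀) φ = (resMat ρbar b₀) g * (resMat ρbar b₀) φ₀ *
        (resMat ρbar b₀) g⁻¹ := by
      have h3 : (resMat ρbar b₀) (φ * (g * φ₀ * g⁻¹)⁻¹) * (resMat ρbar b₀) (g * φ₀ * g⁻¹) =
          1 * (resMat ρbar b₀) (g * φ₀ * g⁻¹) := by
        rw [resMat_eq_one ρbar b₀ h1]
      rw [← map_mul, inv_mul_cancel_right, one_mul] at h3
      rw [h3, map_mul, map_mul]
    obtain ⟨α, β, h⟩ := H.split φ
    refine ⟨α, β, fun e => hreg ?_, h⟩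
    obtain ⟨ht, hd⟩ := roots_resMat ρbar b₀ h
    have ht' : ((resMat ρbar b₀) φ).trace = ((resMat ρbar b₀) φ₀).trace := by
      rw [h2, Matrix.trace_mul_cycle, hom_inv_mul, one_mul]
    have hd' : ((resMat ρbar b₀) φ).det = ((resMat ρbar b₀) φ₀).det := by
      rw [h2, Matrix.det_mul, Matrix.det_mul, mul_comm ((resMat ρbar b₀) g).det,
        mul_assoc, ← Matrix.det_mul, hom_mul_inv, Matrix.det_one, mul_one]
    rw [← ht', ← hd', ht, hd, e]; ring
  -- the tangent vectors lie in the Selmer group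
  · intro 𝒟 DQ hdet hunr hunip hpush hloc
    obtain ⟨F⟩ := nonempty_frame DQ.residue_surjective b₀ DQ.residual_isEquiv
    refine exists_surjective_of_selmer (p := p) DQ b₀ F (T := T) (T' := T ∪ Finset.univ.image vs)
      hdet (fun q hq => hunr q q.2 fun hq' => hq ?_)
      (fun φ hφ => hpush φ hφ F.b) L (fun d hd hdO v hv z hz => ?_) hfin hle
    · rcases Finset.mem_union.mp hq' with h | h
      · exact Finset.mem_union_left _ (mem_minT.mpr h)
      · obtain ⟨i, -, hi⟩ := Finset.mem_image.mp h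
        exact Finset.mem_union_right _ (Finset.mem_image.mpr ⟨i, Finset.mem_univ _, Subtype.ext hi⟩)
    · by_cases hvp : v = pPrime p
      · subst hvp
        rw [hLp]
        exact hloc F d hd hdO z hz
      · have h : (v : ℕ) ∈ Smin ∧ (v : ℕ) ≠ p := ⟨mem_minT.mp hv, fun e => hvp (Subtype.ext e)⟩
        rw [hLv v h]
        exact hSvz v h z fun δ hδ => by
          rw [hz]
          exact trace_tcoc_unip F hunip h.1 h.2 hδ hd

include H in
/-- **The strict ordinary case.** There is `N` such that for every `n` some `N` Taylor–Wiles primes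
make the strict ordinary deformation ring a quotient of the power series in `N` variables. -/
theorem exists_primes_strict :
    ∃ N : ℕ, ∀ n : ℕ, ∃ qv : Fin N → ℕ, Function.Injective qv ∧
      (∀ i, (qv i).Prime ∧ qv i ∉ S ∧ p ^ (n + 1) ∣ qv i - 1) ∧
      (∀ i, ∀ P : ValuationSubring ℚbar, P.LiesOverPrime (qv i) →
        ∀ φ : Γℚ, P.IsFrobeniusAt φ (qv i) →
          ∃ α β : ResidueField 𝒪, α ≠ β ∧ LinearMap.charpoly (ρbar.ρ φ) = (X - C α) * (X - C β)) ∧
      ∀ DQ : GaloisRep.DeformationRingData 𝒪 ρbar (fun _A _ _ _ ρ =>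
          GaloisRep.strictOrdinaryCondition 𝒪 p (Smin ∪ Finset.univ.image qv) ρ ∧
            ∀ q ∈ Smin, q.Prime → q ≠ p → ρ.IsUnipotentOnInertiaAt q),
        ∃ γ : MvPowerSeries (Fin N) 𝒪 →ₐ[𝒪] DQ.R, Function.Surjective γ := by
  classical
  set b₁ : Module.Basis (Fin 2) (ResidueField 𝒪) ρbar.V :=
    someBasis (GaloisRepAdic.ofResidualGaloisRep ρbar)
  set r := resMat ρbar b₁
  by_cases hun : UnipRes p r Smin ∧ Nonempty (OrdRes (placeAt (pPrime p)) r)
  -- residually unipotent and ordinary: feed the strict bound at `p` to `exists_primes`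
  · obtain ⟨hun, ⟨o⟩⟩ := hun
    obtain ⟨Sp, -, hSp, hS⟩ := strictAtPBound p H.two_lt (ResidueField 𝒪) r (isOpen_resMat ρbar b₁)
      (placeAt (pPrime p)) (placeAt_spec _) o.U o.a o.d o.b o.tri o.sq o.inertia
      fun δ => det_resMat b₁ H δ.1
    obtain ⟨N, hN⟩ := exists_primes b₁ H hun Sp hSp
    refine ⟨N, fun n => ?_⟩
    obtain ⟨qv, h1, h2, h3, h4⟩ := hN n
    refine ⟨qv, h1, h2, h3, fun DQ => ?_⟩
    obtain ⟨⟨hdet, hord, hunr⟩, hunip⟩ := DQ.isOfType
    exact h4 _ DQ hdet hunr hunip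
      (fun φ hφ b => ⟨⟨detIsCyclotomic_pushRep φ hφ _ b hdet,
        isStrictOrdinaryAt_pushRep φ hφ _ b hord,
        fun q hq hqS => isUnramifiedAt_pushRep φ hφ _ b (hunr q hq hqS)⟩,
        fun q hq hq' hqp => isUnipotentOnInertiaAt_pushRep φ hφ _ b (hunip q hq hq' hqp)⟩)
      fun F d hd hdO z hz => hS z fun σ τ => by
        rw [hz σ, hz τ]
        exact strict_relation F H.two_lt hord hdet (det_resMat b₁ H) (placeAt_spec _) o hd hdO σ τ
  -- otherwise no such deformation ring exists, so `N = 0` works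
  · refine ⟨0, fun n => ⟨Fin.elim0, fun i => i.elim0, fun i => i.elim0, fun i => i.elim0,
      fun DQ => ?_⟩⟩
    obtain ⟨⟨hdet, hord, -⟩, hunip⟩ := DQ.isOfType
    obtain ⟨F⟩ := nonempty_frame DQ.residue_surjective b₁ DQ.residual_isEquiv
    exact absurd ⟨unipRes_of F hunip, nonempty_ordRes F hord hdet (placeAt_spec _)⟩ hun

include H in
/-- **The flat case.** There is `N` such that for every `n` some `N` Taylor–Wiles primes make the
flat deformation ring a quotient of the power series in `N` variables. -/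
theorem exists_primes_flat :
    ∃ N : ℕ, ∀ n : ℕ, ∃ qv : Fin N → ℕ, Function.Injective qv ∧
      (∀ i, (qv i).Prime ∧ qv i ∉ S ∧ p ^ (n + 1) ∣ qv i - 1) ∧
      (∀ i, ∀ P : ValuationSubring ℚbar, P.LiesOverPrime (qv i) →
        ∀ φ : Γℚ, P.IsFrobeniusAt φ (qv i) →
          ∃ α β : ResidueField 𝒪, α ≠ β ∧ LinearMap.charpoly (ρbar.ρ φ) = (X - C α) * (X - C β)) ∧
      ∀ DQ : GaloisRep.DeformationRingData 𝒪 ρbar (fun _A _ _ _ ρ =>
          GaloisRep.flatCondition 𝒪 p (Smin ∪ Finset.univ.image qv) ρ ∧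
            ∀ q ∈ Smin, q.Prime → q ≠ p → ρ.IsUnipotentOnInertiaAt q),
        ∃ γ : MvPowerSeries (Fin N) 𝒪 →ₐ[𝒪] DQ.R, Function.Surjective γ := by
  classical
  set b₁ : Module.Basis (Fin 2) (ResidueField 𝒪) ρbar.V :=
    someBasis (GaloisRepAdic.ofResidualGaloisRep ρbar)
  set r := resMat ρbar b₁
  by_cases hun : UnipRes p r Smin
  -- residually unipotent at `Smin`: feed the flat bound at `p` to `exists_primes`
  · obtain ⟨Sp, -, hSp, hS⟩ := flatBoundStatement (p := p) H.two_lt (ResidueField 𝒪) r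
      (isOpen_resMat ρbar b₁) (placeAt (pPrime p)) (placeAt_spec _) fun σ _ => det_resMat b₁ H σ
    obtain ⟨N, hN⟩ := exists_primes b₁ H hun Sp hSp
    refine ⟨N, fun n => ?_⟩
    obtain ⟨qv, h1, h2, h3, h4⟩ := hN n
    refine ⟨qv, h1, h2, h3, fun DQ => ?_⟩
    obtain ⟨⟨hdet, hflat, hunr⟩, hunip⟩ := DQ.isOfType
    exact h4 _ DQ hdet hunr hunip
      (fun φ hφ b => ⟨⟨detIsCyclotomic_pushRep φ hφ _ b hdet, isFlatAt_pushRep φ hφ _ b hflat,
        fun q hq hqS => isUnramifiedAt_pushRep φ hφ _ b (hunr q hq hqS)⟩,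
        fun q hq hq' hqp => isUnipotentOnInertiaAt_pushRep φ hφ _ b (hunip q hq hq' hqp)⟩)
      fun F d hd hdO z hz => by
        by_cases hd0 : d = 0
        · have hz0 : z = 0 := Subtype.ext (funext fun δ => Subtype.ext (by
            rw [hz δ, hd0, tcoc]
            change (0 : M2 (ResidueField 𝒪)) * _ = 0
            rw [zero_mul]))
          rw [hz0, map_zero]
          exact zero_mem _
        · exact hS _ z hz (isFlatCocycle_tcoc F hflat hdet (placeAt_spec _)
            (F.exists_level fun q hq => absurd (Set.mem_univ q) hq) hd hdO hd0)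
  -- otherwise no such deformation ring exists, so `N = 0` works
  · refine ⟨0, fun n => ⟨Fin.elim0, fun i => i.elim0, fun i => i.elim0, fun i => i.elim0,
      fun DQ => ?_⟩⟩
    obtain ⟨-, hunip⟩ := DQ.isOfType
    obtain ⟨F⟩ := nonempty_frame DQ.residue_surjective b₁ DQ.residual_isEquiv
    exact absurd (unipRes_of F hunip) hun

end Fermat.GR.S56

end
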